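/-
T1-D (analytic side), basic layer: the field of meromorphic functions on the upper half plane
as the fraction field of the ring `holH` of holomorphic functions, precomposition with Möbius
transformations, and the order-of-vanishing valuations.
-/
import Mathlib
import Fermat.Agent.Lib.S24.OrdAt

set_option autoImplicit false

namespace Fermat.Agent.T1

open UpperHalfPlane Filter Topology Matrix MatrixGroups WithZero
open scoped Manifold
open Fermat.Agent.S24Lib (holH ordAt ordValuation)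

/-- constants as holomorphic functions on `ℍ` -/
noncomputable def tdmConstHom : ℂ →+* holH where
  toFun c := ⟨fun _ => c, mdifferentiable_const⟩
  map_one' := rfl
  map_mul' _ _ := rfl
  map_zero' := rfl
  map_add' _ _ := rfl

noncomputable instance tdmAlgebraHolH : Algebra ℂ holH := tdmConstHom.toAlgebra

theorem tdm_algebraMap_holH_apply (c : ℂ) (τ : ℍ) :
    ((algebraMap ℂ holH c : holH) : ℍ → ℂ) τ = c := rfl

/-- the field of meromorphic functions on the upper half plane -/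
abbrev tdmMer : Type := FractionRing holH

/-- a holomorphic function as a meromorphic function -/
noncomputable abbrev tdmOfHol : holH →+* tdmMer := algebraMap holH tdmMer

theorem tdmOfHol_injective : Function.Injective tdmOfHol :=
  IsFractionRing.injective holH tdmMer

/-! ### Precomposition with Möbius transformations -/

/-- precomposition with the Möbius transformation `g` (of positive determinant) on `holH` -/
noncomputable def tdmHolComp (g : GL (Fin 2) ℝ) (hg : 0 < g.det.val) : holH →ₐ[ℂ] holH where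
  toFun f := ⟨fun τ => (f : ℍ → ℂ) (g • τ), by
    have hf : MDiff (f : ℍ → ℂ) := f.2
    exact hf.comp (mdifferentiable_smul hg)⟩
  map_one' := rfl
  map_mul' _ _ := rfl
  map_zero' := rfl
  map_add' _ _ := rfl
  commutes' _ := rfl

@[simp]
theorem tdmHolComp_apply (g : GL (Fin 2) ℝ) (hg : 0 < g.det.val) (f : holH) (τ : ℍ) :
    ((tdmHolComp g hg f : holH) : ℍ → ℂ) τ = (f : ℍ → ℂ) (g • τ) := rfl

theorem tdmHolComp_injective (g : GL (Fin 2) ℝ) (hg : 0 < g.det.val) :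
    Function.Injective (tdmHolComp g hg) := by
  intro f₁ f₂ h
  apply Subtype.ext
  funext τ
  have := congrArg (fun x : holH => (x : ℍ → ℂ) (g⁻¹ • τ)) h
  simpa [smul_smul] using this

/-- precomposition with the Möbius transformation `g` (of positive determinant) on `tdmMer` -/
noncomputable def tdmComp (g : GL (Fin 2) ℝ) (hg : 0 < g.det.val) : tdmMer →ₐ[ℂ] tdmMer :=
  IsFractionRing.liftAlgHom (K := tdmMer)
    (g := (IsScalarTower.toAlgHom ℂ holH tdmMer).comp (tdmHolComp g hg))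
    (tdmOfHol_injective.comp (tdmHolComp_injective g hg))

@[simp]
theorem tdmComp_ofHol (g : GL (Fin 2) ℝ) (hg : 0 < g.det.val) (f : holH) :
    tdmComp g hg (tdmOfHol f) = tdmOfHol (tdmHolComp g hg f) := by
  simp [tdmComp, IsFractionRing.liftAlgHom_apply]

theorem tdm_det_mul_pos {g h : GL (Fin 2) ℝ} (hg : 0 < g.det.val) (hh : 0 < h.det.val) :
    0 < (g * h).det.val := by
  rw [map_mul, Units.val_mul]
  exact mul_pos hg hh

theorem tdm_det_one_pos : 0 < (1 : GL (Fin 2) ℝ).det.val := by simp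

theorem tdm_det_inv_pos {g : GL (Fin 2) ℝ} (hg : 0 < g.det.val) : 0 < (g⁻¹).det.val := by
  rw [map_inv, Units.val_inv_eq_inv_val]
  exact inv_pos.mpr hg

/-- two `ℂ`-algebra endomorphisms of `tdmMer` agreeing on holomorphic functions are equal -/
theorem tdm_algHom_ext {φ ψ : tdmMer →ₐ[ℂ] tdmMer}
    (h : ∀ f : holH, φ (tdmOfHol f) = ψ (tdmOfHol f)) : φ = ψ := by
  apply AlgHom.coe_ringHom_injective
  apply IsLocalization.ringHom_ext (nonZeroDivisors holH)
  ext f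
  exact h f

/-- right action: `y ∘ (g h) = (y ∘ g) ∘ h` -/
theorem tdmComp_mul (g h : GL (Fin 2) ℝ) (hg : 0 < g.det.val) (hh : 0 < h.det.val) :
    tdmComp (g * h) (tdm_det_mul_pos hg hh) = (tdmComp h hh).comp (tdmComp g hg) := by
  apply tdm_algHom_ext
  intro f
  rw [AlgHom.comp_apply, tdmComp_ofHol, tdmComp_ofHol, tdmComp_ofHol]
  congr 1
  apply Subtype.ext
  funext τ
  simp [mul_smul]

theorem tdmComp_one : tdmComp 1 tdm_det_one_pos = AlgHom.id ℂ tdmMer := by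
  apply tdm_algHom_ext
  intro f
  rw [tdmComp_ofHol, AlgHom.id_apply]
  congr 1
  apply Subtype.ext
  funext τ
  simp

theorem tdmComp_congr {g h : GL (Fin 2) ℝ} (e : g = h) (hg : 0 < g.det.val)
    (hh : 0 < h.det.val) : tdmComp g hg = tdmComp h hh := by
  subst e; rfl

theorem tdmComp_comp_inv (g : GL (Fin 2) ℝ) (hg : 0 < g.det.val) (y : tdmMer) :
    tdmComp g⁻¹ (tdm_det_inv_pos hg) (tdmComp g hg y) = y := by
  have h := tdmComp_mul g g⁻¹ hg (tdm_det_inv_pos hg)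
  have h1 : tdmComp (g * g⁻¹) (tdm_det_mul_pos hg (tdm_det_inv_pos hg)) = AlgHom.id ℂ tdmMer := by
    rw [tdmComp_congr (mul_inv_cancel g) _ tdm_det_one_pos, tdmComp_one]
  rw [h1] at h
  exact (AlgHom.congr_fun h y).symm

theorem tdmComp_inv_comp (g : GL (Fin 2) ℝ) (hg : 0 < g.det.val) (y : tdmMer) :
    tdmComp g hg (tdmComp g⁻¹ (tdm_det_inv_pos hg) y) = y := by
  have h := tdmComp_mul g⁻¹ g (tdm_det_inv_pos hg) hg
  have h1 : tdmComp (g⁻¹ * g) (tdm_det_mul_pos (tdm_det_inv_pos hg) hg) = AlgHom.id ℂ tdmMer := by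
    rw [tdmComp_congr (inv_mul_cancel g) _ tdm_det_one_pos, tdmComp_one]
  rw [h1] at h
  exact (AlgHom.congr_fun h y).symm

theorem tdmComp_injective (g : GL (Fin 2) ℝ) (hg : 0 < g.det.val) :
    Function.Injective (tdmComp g hg) := (tdmComp g hg).toRingHom.injective

/-! ### The action of `SL(2, ℤ)` -/

theorem tdm_det_SL_pos (γ : SL(2, ℤ)) : 0 < ((γ : GL (Fin 2) ℝ)).det.val := by
  simp

/-- precomposition `y ↦ y ∘ γ` for `γ ∈ SL(2, ℤ)`, as an algebra automorphism of `tdmMer` -/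
noncomputable def tdmSL (γ : SL(2, ℤ)) : tdmMer ≃ₐ[ℂ] tdmMer :=
  AlgEquiv.ofAlgHom (tdmComp (γ : GL (Fin 2) ℝ) (tdm_det_SL_pos γ))
    (tdmComp (γ⁻¹ : SL(2, ℤ)) (tdm_det_SL_pos γ⁻¹))
    (by
      apply tdm_algHom_ext
      intro f
      rw [AlgHom.comp_apply, tdmComp_ofHol, tdmComp_ofHol, AlgHom.id_apply]
      congr 1
      apply Subtype.ext
      funext τ
      show (f : ℍ → ℂ) (γ⁻¹ • γ • τ) = (f : ℍ → ℂ) τ
      rw [smul_smul, inv_mul_cancel, one_smul])
    (by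
      apply tdm_algHom_ext
      intro f
      rw [AlgHom.comp_apply, tdmComp_ofHol, tdmComp_ofHol, AlgHom.id_apply]
      congr 1
      apply Subtype.ext
      funext τ
      show (f : ℍ → ℂ) (γ • γ⁻¹ • τ) = (f : ℍ → ℂ) τ
      rw [smul_smul, mul_inv_cancel, one_smul])

/-- precomposition with `γ ∈ SL(2, ℤ)` on `holH` -/
noncomputable def tdmHolSL (γ : SL(2, ℤ)) : holH →ₐ[ℂ] holH :=
  tdmHolComp (γ : GL (Fin 2) ℝ) (tdm_det_SL_pos γ)

@[simp]
theorem tdmHolSL_apply (γ : SL(2, ℤ)) (f : holH) (τ : ℍ) :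
    ((tdmHolSL γ f : holH) : ℍ → ℂ) τ = (f : ℍ → ℂ) (γ • τ) := rfl

@[simp]
theorem tdmSL_ofHol (γ : SL(2, ℤ)) (f : holH) :
    tdmSL γ (tdmOfHol f) = tdmOfHol (tdmHolSL γ f) :=
  tdmComp_ofHol _ _ f

/-- right action: `y ∘ (γ δ) = (y ∘ γ) ∘ δ` -/
theorem tdmSL_mul (γ δ : SL(2, ℤ)) (y : tdmMer) : tdmSL (γ * δ) y = tdmSL δ (tdmSL γ y) := by
  have h : (tdmSL (γ * δ) : tdmMer →ₐ[ℂ] tdmMer) = (tdmSL δ : tdmMer →ₐ[ℂ] tdmMer).comp
      (tdmSL γ : tdmMer →ₐ[ℂ] tdmMer) := by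
    apply tdm_algHom_ext
    intro f
    rw [AlgHom.comp_apply]
    simp only [AlgEquiv.coe_toAlgHom, tdmSL_ofHol]
    congr 1
    apply Subtype.ext
    funext τ
    simp [mul_smul]
  exact AlgHom.congr_fun h y

@[simp]
theorem tdmSL_one (y : tdmMer) : tdmSL 1 y = y := by
  have h : (tdmSL 1 : tdmMer →ₐ[ℂ] tdmMer) = AlgHom.id ℂ tdmMer := by
    apply tdm_algHom_ext
    intro f
    simp only [AlgEquiv.coe_toAlgHom, tdmSL_ofHol, AlgHom.id_apply]
    congr 1
    apply Subtype.ext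
    funext τ
    simp
  exact AlgHom.congr_fun h y

theorem tdmSL_neg (γ : SL(2, ℤ)) (y : tdmMer) : tdmSL (-γ) y = tdmSL γ y := by
  have h : (tdmSL (-γ) : tdmMer →ₐ[ℂ] tdmMer) = (tdmSL γ : tdmMer →ₐ[ℂ] tdmMer) := by
    apply tdm_algHom_ext
    intro f
    simp only [AlgEquiv.coe_toAlgHom, tdmSL_ofHol]
    congr 1
    apply Subtype.ext
    funext τ
    simp
  exact AlgHom.congr_fun h y

/-! ### Orders of vanishing -/

/-- the order-of-vanishing valuation at `τ` on meromorphic functions -/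
noncomputable def tdmOrdVal (τ : ℍ) : Valuation tdmMer ℤᵐ⁰ :=
  (ordValuation τ).extendToLocalization (S := nonZeroDivisors holH)
    (by
      intro f hf
      rw [Ideal.mem_primeCompl_iff, Valuation.mem_supp_iff,
        Fermat.Agent.S24Lib.ordValuation_eq_zero_iff]
      exact nonZeroDivisors.ne_zero hf) tdmMer

theorem tdmOrdVal_ofHol (τ : ℍ) (f : holH) : tdmOrdVal τ (tdmOfHol f) = ordValuation τ f :=
  Valuation.extendToLocalization_apply_map_apply _ _ _ f

/-- the order of a meromorphic function at `τ` (`0` for the zero function) -/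
noncomputable def tdmOrd (τ : ℍ) (y : tdmMer) : ℤ := -(WithZero.log (tdmOrdVal τ y))

theorem tdmOrd_zero (τ : ℍ) : tdmOrd τ 0 = 0 := by simp [tdmOrd]

theorem tdmOrd_one (τ : ℍ) : tdmOrd τ 1 = 0 := by simp [tdmOrd]

theorem tdmOrdVal_ne_zero (τ : ℍ) {y : tdmMer} (hy : y ≠ 0) : tdmOrdVal τ y ≠ 0 :=
  (Valuation.ne_zero_iff _).mpr hy

theorem tdmOrd_mul (τ : ℍ) {y z : tdmMer} (hy : y ≠ 0) (hz : z ≠ 0) :
    tdmOrd τ (y * z) = tdmOrd τ y + tdmOrd τ z := by
  rw [tdmOrd, tdmOrd, tdmOrd, map_mul, WithZero.log_mul (tdmOrdVal_ne_zero τ hy)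
    (tdmOrdVal_ne_zero τ hz)]
  ring

theorem tdmOrd_inv (τ : ℍ) (y : tdmMer) : tdmOrd τ y⁻¹ = -tdmOrd τ y := by
  rw [tdmOrd, tdmOrd, map_inv₀, WithZero.log_inv]

theorem tdmOrd_pow (τ : ℍ) (y : tdmMer) (n : ℕ) : tdmOrd τ (y ^ n) = n * tdmOrd τ y := by
  rw [tdmOrd, tdmOrd, map_pow, WithZero.log_pow]
  simp

theorem tdmOrd_div (τ : ℍ) {y z : tdmMer} (hy : y ≠ 0) (hz : z ≠ 0) :
    tdmOrd τ (y / z) = tdmOrd τ y - tdmOrd τ z := by
  rw [div_eq_mul_inv, tdmOrd_mul τ hy (inv_ne_zero hz), tdmOrd_inv]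
  ring

theorem tdmOrd_ofHol (τ : ℍ) {f : holH} (hf : f ≠ 0) :
    tdmOrd τ (tdmOfHol f) = ((ordAt (f : ℍ → ℂ) τ).toNat : ℤ) := by
  rw [tdmOrd, tdmOrdVal_ofHol, Fermat.Agent.S24Lib.ordValuation_apply hf, WithZero.log_exp]
  ring

theorem tdmOrd_algebraMap (τ : ℍ) (c : ℂ) : tdmOrd τ (algebraMap ℂ tdmMer c) = 0 := by
  by_cases hc : c = 0
  · rw [hc, map_zero, tdmOrd_zero]
  · rw [IsScalarTower.algebraMap_apply ℂ holH tdmMer]
    have hne : algebraMap ℂ holH c ≠ 0 := by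
      intro h
      apply hc
      have := congrArg (fun x : holH => (x : ℍ → ℂ) UpperHalfPlane.I) h
      exact this
    rw [tdmOrd_ofHol τ hne]
    have h1 : ((algebraMap ℂ holH c : holH) : ℍ → ℂ) = fun _ => c := rfl
    rw [h1, Fermat.Agent.S24Lib.ordAt_const hc]
    simp

/-- the order at `τ` of `y ∘ γ` is the order of `y` at `γ τ` -/
theorem tdmOrd_SL (γ : SL(2, ℤ)) (τ : ℍ) (y : tdmMer) :
    tdmOrd τ (tdmSL γ y) = tdmOrd (γ • τ) y := by
  obtain ⟨a, b, hb, rfl⟩ := IsFractionRing.div_surjective (A := holH) y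
  have hb0 : b ≠ 0 := nonZeroDivisors.ne_zero hb
  by_cases ha0 : a = 0
  · simp [ha0, tdmOrd_zero]
  have key : ∀ f : holH, f ≠ 0 →
      tdmOrd τ (tdmSL γ (tdmOfHol f)) = tdmOrd (γ • τ) (tdmOfHol f) := by
    intro f hf
    have hf' : tdmHolSL γ f ≠ 0 := by
      intro h
      apply hf
      have := tdmHolComp_injective _ (tdm_det_SL_pos γ) (h.trans (map_zero _).symm)
      exact this
    rw [tdmSL_ofHol, tdmOrd_ofHol τ hf', tdmOrd_ofHol _ hf]
    have h1 : ((tdmHolSL γ f : holH) : ℍ → ℂ) = fun z => (f : ℍ → ℂ) (γ • z) := rfl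
    rw [h1]
    rw [Fermat.Agent.S24Lib.ordAt_comp_smul (f : ℍ → ℂ) γ τ]
  have hane : tdmOfHol a ≠ 0 := fun h => ha0 (tdmOfHol_injective (h.trans (map_zero _).symm))
  have hbne : tdmOfHol b ≠ 0 := fun h => hb0 (tdmOfHol_injective (h.trans (map_zero _).symm))
  rw [map_div₀, tdmOrd_div τ ((map_ne_zero _).mpr hane) ((map_ne_zero _).mpr hbne),
    tdmOrd_div _ hane hbne, key a ha0, key b hb0]

end Fermat.Agent.T1
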