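/-
T1-D (analytic side): shared definitions — the character groups `X_m`, the character of a
meromorphic function, coset systems for Hecke operators, and precomposition with integral matrices.
-/
import Mathlib
import Fermat.Prelude.Def_ModularCurve_PeriodMap
import Fermat.Agent.Lib.S22.Hermite
import Fermat.Agent.Lib.T1.Mono.Mer

set_option autoImplicit false

namespace Fermat.Agent.T1

open UpperHalfPlane Filter Topology Matrix MatrixGroups CongruenceSubgroup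
open scoped Manifold
open Fermat.Agent.S24Lib (holH ordAt ordValuation)
open Fermat.Agent.S22Lib (intGL intGL_det_pos)

/-! ### The character groups -/

/-- `X_m`: characters of `Γ₀(N)` with values in the `m`-th roots of unity which are trivial on the
elements with `tr² = 4` (parabolic elements and `±1`) and on the elements of finite order -/
def tdmX (N m : ℕ) : Subgroup (Gamma0 N →* ℂˣ) where
  carrier := {χ | (∀ γ, χ γ ^ m = 1) ∧
    (∀ γ : Gamma0 N, ((γ : SL(2, ℤ)) : Matrix (Fin 2) (Fin 2) ℤ).trace ^ 2 = 4 → χ γ = 1) ∧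
    (∀ γ : Gamma0 N, IsOfFinOrder γ → χ γ = 1)}
  one_mem' := ⟨fun _ => by simp, fun _ _ => rfl, fun _ _ => rfl⟩
  mul_mem' := by
    rintro χ ψ ⟨h1, h2, h3⟩ ⟨k1, k2, k3⟩
    refine ⟨fun γ => ?_, fun γ hγ => ?_, fun γ hγ => ?_⟩
    · rw [MonoidHom.mul_apply, mul_pow, h1, k1, one_mul]
    · rw [MonoidHom.mul_apply, h2 γ hγ, k2 γ hγ, one_mul]
    · rw [MonoidHom.mul_apply, h3 γ hγ, k3 γ hγ, one_mul]
  inv_mem' := by
    rintro χ ⟨h1, h2, h3⟩
    refine ⟨fun γ => ?_, fun γ hγ => ?_, fun γ hγ => ?_⟩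
    · rw [MonoidHom.inv_apply, inv_pow, h1, inv_one]
    · rw [MonoidHom.inv_apply, h2 γ hγ, inv_one]
    · rw [MonoidHom.inv_apply, h3 γ hγ, inv_one]

theorem mem_tdmX {N m : ℕ} {χ : Gamma0 N →* ℂˣ} : χ ∈ tdmX N m ↔ (∀ γ, χ γ ^ m = 1) ∧
    (∀ γ : Gamma0 N, ((γ : SL(2, ℤ)) : Matrix (Fin 2) (Fin 2) ℤ).trace ^ 2 = 4 → χ γ = 1) ∧
    (∀ γ : Gamma0 N, IsOfFinOrder γ → χ γ = 1) := Iff.rfl

/-- `g ∘ γ = χ(γ) g` for all `γ ∈ Γ` -/
def tdmHasChar (Γ : Subgroup SL(2, ℤ)) (g : tdmMer) (χ : Γ →* ℂˣ) : Prop :=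
  ∀ γ : Γ, tdmSL (γ : SL(2, ℤ)) g = ((χ γ : ℂˣ) : ℂ) • g

/-- `y` is `Γ`-invariant -/
def tdmIsInv (Γ : Subgroup SL(2, ℤ)) (y : tdmMer) : Prop :=
  ∀ γ : Γ, tdmSL (γ : SL(2, ℤ)) y = y

/-! ### Precomposition with integral matrices of positive determinant -/

/-- `y ↦ y ∘ A` for an integral matrix `A` of positive determinant -/
noncomputable def tdmCompInt (A : Matrix (Fin 2) (Fin 2) ℤ) (hA : 0 < A.det) :
    tdmMer →ₐ[ℂ] tdmMer :=
  tdmComp (intGL A hA) (intGL_det_pos A hA)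

/-! ### Coset systems -/

/-- a system of representatives `rep i` (integral matrices of positive determinant) which is
permuted by right multiplication with `Γ`, modulo left multiplication with `Γ` -/
structure tdmCosetSys (Γ : Subgroup SL(2, ℤ)) (ι : Type) [Fintype ι] where
  rep : ι → Matrix (Fin 2) (Fin 2) ℤ
  det_pos : ∀ i, 0 < (rep i).det
  perm : ∀ (δ : Γ) (i : ι), ∃! j : ι, ∃ ε : Γ,
    rep i * ((δ : SL(2, ℤ)) : Matrix (Fin 2) (Fin 2) ℤ)
      = ((ε : SL(2, ℤ)) : Matrix (Fin 2) (Fin 2) ℤ) * rep j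

end Fermat.Agent.T1
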