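/-
T1-D (WP-F, complex conjugation): the semilinear involution `y ↦ conj ∘ y ∘ (τ ↦ -conj τ)` of the
field of meromorphic functions on the upper half plane.
-/
import Mathlib
import Fermat.Agent.Lib.ES.ConjForm
import Fermat.Agent.Lib.T1.Mono.Char

set_option autoImplicit false

namespace Fermat.Agent.T1

open UpperHalfPlane Filter Topology Matrix MatrixGroups CongruenceSubgroup
open scoped Manifold ComplexConjugate
open Fermat.Agent.S24Lib (holH)
open Fermat.Agent.ES (epsGL cj cj_apply cj_cj slash_epsGL_eq_cj epsGL_smul_SL_smul)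
open ModularCurve.Period (jConjSL jConjSL_jConjSL jConjGamma0 jConjGamma0_coe)

/-- `f ↦ conj ∘ f ∘ (τ ↦ -conj τ)` on holomorphic functions -/
noncomputable def tdmHolConj : holH →+* holH where
  toFun f := ⟨cj (f : ℍ → ℂ), by
    rw [← slash_epsGL_eq_cj 0]
    exact MDifferentiable.slash f.2 0 epsGL⟩
  map_one' := by
    apply Subtype.ext
    funext z
    show conj (1 : ℂ) = 1
    simp
  map_mul' f g := by
    apply Subtype.ext
    funext z
    show conj ((f : ℍ → ℂ) (epsGL • z) * (g : ℍ → ℂ) (epsGL • z)) = _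
    rw [map_mul]
    rfl
  map_zero' := by
    apply Subtype.ext
    funext z
    show conj (0 : ℂ) = 0
    simp
  map_add' f g := by
    apply Subtype.ext
    funext z
    show conj ((f : ℍ → ℂ) (epsGL • z) + (g : ℍ → ℂ) (epsGL • z)) = _
    rw [map_add]
    rfl

theorem tdmHolConj_apply (f : holH) (z : ℍ) :
    ((tdmHolConj f : holH) : ℍ → ℂ) z = conj ((f : ℍ → ℂ) (epsGL • z)) := rfl

theorem tdmHolConj_conj (f : holH) : tdmHolConj (tdmHolConj f) = f := by
  apply Subtype.ext
  exact cj_cj _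

/-- the involution as a ring automorphism of `holH` -/
noncomputable def tdmHolConjEquiv : holH ≃+* holH :=
  RingEquiv.ofRingHom tdmHolConj tdmHolConj
    (RingHom.ext tdmHolConj_conj) (RingHom.ext tdmHolConj_conj)

/-- **complex conjugation on meromorphic functions**: `y ↦ conj ∘ y ∘ (τ ↦ -conj τ)` -/
noncomputable def tdmConj : tdmMer ≃+* tdmMer :=
  IsFractionRing.ringEquivOfRingEquiv tdmHolConjEquiv

@[simp]
theorem tdmConj_ofHol (f : holH) : tdmConj (tdmOfHol f) = tdmOfHol (tdmHolConj f) :=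
  IsFractionRing.ringEquivOfRingEquiv_algebraMap _ f

theorem tdm_ringHom_ext {φ ψ : tdmMer →+* tdmMer}
    (h : ∀ f : holH, φ (tdmOfHol f) = ψ (tdmOfHol f)) : φ = ψ := by
  apply IsLocalization.ringHom_ext (nonZeroDivisors holH)
  ext f
  exact h f

theorem tdmConj_conj (y : tdmMer) : tdmConj (tdmConj y) = y := by
  have h : (tdmConj : tdmMer →+* tdmMer).comp (tdmConj : tdmMer →+* tdmMer) = RingHom.id _ := by
    apply tdm_ringHom_ext
    intro f
    simp [tdmHolConj_conj]
  exact RingHom.congr_fun h y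

theorem tdmConj_algebraMap (c : ℂ) :
    tdmConj (algebraMap ℂ tdmMer c) = algebraMap ℂ tdmMer (conj c) := by
  rw [IsScalarTower.algebraMap_apply ℂ holH tdmMer, IsScalarTower.algebraMap_apply ℂ holH tdmMer]
  show tdmConj (tdmOfHol _) = tdmOfHol _
  rw [tdmConj_ofHol]
  congr 1

theorem tdmConj_smul (c : ℂ) (y : tdmMer) : tdmConj (c • y) = conj c • tdmConj y := by
  rw [Algebra.smul_def, Algebra.smul_def, map_mul, tdmConj_algebraMap]

/-- conjugation intertwines `γ` and `jConjSL γ = diag(-1,1) γ diag(-1,1)` -/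
theorem tdmConj_SL (γ : SL(2, ℤ)) (y : tdmMer) :
    tdmConj (tdmSL γ y) = tdmSL (jConjSL γ) (tdmConj y) := by
  have h : (tdmConj : tdmMer →+* tdmMer).comp ((tdmSL γ : tdmMer ≃ₐ[ℂ] tdmMer) : tdmMer →+* tdmMer)
      = ((tdmSL (jConjSL γ) : tdmMer ≃ₐ[ℂ] tdmMer) : tdmMer →+* tdmMer).comp
        (tdmConj : tdmMer →+* tdmMer) := by
    apply tdm_ringHom_ext
    intro f
    simp only [RingHom.comp_apply, RingHom.coe_coe, tdmSL_ofHol, tdmConj_ofHol]
    congr 1
    apply Subtype.ext
    funext z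
    show conj ((f : ℍ → ℂ) (γ • (epsGL • z))) = conj ((f : ℍ → ℂ) (epsGL • (jConjSL γ • z)))
    rw [epsGL_smul_SL_smul, jConjSL_jConjSL]
  exact RingHom.congr_fun h y

/-- the character of the conjugate function -/
theorem tdmHasChar_conj (N : ℕ) (g : tdmMer) (χ : Gamma0 N →* ℂˣ) (h : tdmHasChar (Gamma0 N) g χ)
    (γ : Gamma0 N) :
    tdmSL (γ : SL(2, ℤ)) (tdmConj g) = conj ((χ (jConjGamma0 N γ) : ℂˣ) : ℂ) • tdmConj g := by
  have h1 := h (jConjGamma0 N γ)
  have h2 := congrArg tdmConj h1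
  rw [tdmConj_SL, tdmConj_smul, jConjGamma0_coe, jConjSL_jConjSL] at h2
  exact h2

end Fermat.Agent.T1
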