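/-
T1-D WP-H: coset systems — the permutation `σ_δ` and the cocycle `ε_i(δ)` of a coset system,
the abstract Hecke operator `φ ↦ (δ ↦ ∑ i, φ (ε_i(δ)))` on `Hom(Γ, A)`, the cycle argument
(parabolic / finite order elements), and twisting by an automorphism.
-/
import Mathlib
import Fermat.Prelude.Def_ModularCurve_PeriodHomPair
import Fermat.Agent.Lib.T1.Mono.Char

set_option autoImplicit false

namespace Fermat.Agent.T1

open Matrix MatrixGroups CongruenceSubgroup ModularCurve ModularCurve.Period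

/-! ### Cancellation of integral matrices of non-zero determinant -/

theorem tdm_mul_right_cancel {A B M : Matrix (Fin 2) (Fin 2) ℤ} (hM : M.det ≠ 0)
    (h : A * M = B * M) : A = B :=
  (Matrix.isRegular_of_isLeftRegular_det (IsRegular.of_ne_zero hM).left).right h

theorem tdm_mul_left_cancel {A B M : Matrix (Fin 2) (Fin 2) ℤ} (hM : M.det ≠ 0)
    (h : M * A = M * B) : A = B :=
  (Matrix.isRegular_of_isLeftRegular_det (IsRegular.of_ne_zero hM).left).left h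

/-- conjugate integral matrices have the same trace -/
theorem tdm_trace_eq_of_conj {E D R : Matrix (Fin 2) (Fin 2) ℤ} (hR : R.det ≠ 0)
    (h : R * D = E * R) : E.trace = D.trace := by
  have h1 : R.det • E = R * D * R.adjugate := by
    rw [h, Matrix.mul_assoc, Matrix.mul_adjugate, Matrix.mul_smul, Matrix.mul_one]
  have h2 : R.det * E.trace = R.det * D.trace := by
    have := congrArg Matrix.trace h1
    rw [Matrix.trace_smul, smul_eq_mul, Matrix.trace_mul_comm, ← Matrix.mul_assoc,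
      Matrix.adjugate_mul, Matrix.smul_mul, Matrix.one_mul, Matrix.trace_smul, smul_eq_mul] at this
    exact this
  exact mul_left_cancel₀ hR h2

namespace tdmCosetSys

variable {Γ : Subgroup SL(2, ℤ)} {ι : Type} [Fintype ι] (S : tdmCosetSys Γ ι)

theorem det_ne_zero (i : ι) : (S.rep i).det ≠ 0 := (S.det_pos i).ne'

/-- the index `j` with `rep i * δ ∈ Γ * rep j` -/
noncomputable def sigmaFun (δ : Γ) (i : ι) : ι := (S.perm δ i).exists.choose

/-- the element `ε ∈ Γ` with `rep i * δ = ε * rep (σ_δ i)` -/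
noncomputable def eps (δ : Γ) (i : ι) : Γ := (S.perm δ i).exists.choose_spec.choose

theorem rep_mul' (δ : Γ) (i : ι) :
    S.rep i * ((δ : SL(2, ℤ)) : Matrix (Fin 2) (Fin 2) ℤ)
      = ((S.eps δ i : SL(2, ℤ)) : Matrix (Fin 2) (Fin 2) ℤ) * S.rep (S.sigmaFun δ i) :=
  (S.perm δ i).exists.choose_spec.choose_spec

/-- uniqueness of `σ_δ i` and `ε_i(δ)` -/
theorem eq_of_rep_mul {δ : Γ} {i j : ι} {ε : Γ}
    (h : S.rep i * ((δ : SL(2, ℤ)) : Matrix (Fin 2) (Fin 2) ℤ)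
      = ((ε : SL(2, ℤ)) : Matrix (Fin 2) (Fin 2) ℤ) * S.rep j) :
    j = S.sigmaFun δ i ∧ ε = S.eps δ i := by
  have hj : j = S.sigmaFun δ i :=
    (S.perm δ i).unique ⟨ε, h⟩ ⟨S.eps δ i, S.rep_mul' δ i⟩
  refine ⟨hj, ?_⟩
  subst hj
  have h2 := h.symm.trans (S.rep_mul' δ i)
  have h3 := tdm_mul_right_cancel (S.det_ne_zero _) h2
  exact Subtype.ext (Subtype.ext h3)

theorem sigmaFun_one (i : ι) : S.sigmaFun 1 i = i :=
  ((S.eq_of_rep_mul (δ := 1) (i := i) (j := i) (ε := 1) (by simp)).1).symm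

theorem eps_one (i : ι) : S.eps 1 i = 1 :=
  ((S.eq_of_rep_mul (δ := 1) (i := i) (j := i) (ε := 1) (by simp)).2).symm

theorem rep_mul_mul (δ₁ δ₂ : Γ) (i : ι) :
    S.rep i * (((δ₁ * δ₂ : Γ) : SL(2, ℤ)) : Matrix (Fin 2) (Fin 2) ℤ)
      = (((S.eps δ₁ i * S.eps δ₂ (S.sigmaFun δ₁ i) : Γ) : SL(2, ℤ)) : Matrix (Fin 2) (Fin 2) ℤ)
        * S.rep (S.sigmaFun δ₂ (S.sigmaFun δ₁ i)) := by
  rw [Subgroup.coe_mul, Subgroup.coe_mul, Matrix.SpecialLinearGroup.coe_mul,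
    Matrix.SpecialLinearGroup.coe_mul, ← Matrix.mul_assoc, S.rep_mul' δ₁ i, Matrix.mul_assoc,
    S.rep_mul' δ₂, Matrix.mul_assoc]

theorem sigmaFun_mul (δ₁ δ₂ : Γ) (i : ι) :
    S.sigmaFun (δ₁ * δ₂) i = S.sigmaFun δ₂ (S.sigmaFun δ₁ i) :=
  ((S.eq_of_rep_mul (S.rep_mul_mul δ₁ δ₂ i)).1).symm

theorem eps_mul (δ₁ δ₂ : Γ) (i : ι) :
    S.eps (δ₁ * δ₂) i = S.eps δ₁ i * S.eps δ₂ (S.sigmaFun δ₁ i) :=
  ((S.eq_of_rep_mul (S.rep_mul_mul δ₁ δ₂ i)).2).symm

/-- the permutation `σ_δ` of the index set; `σ_(δ₁ δ₂) = σ_δ₂ ∘ σ_δ₁` -/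
noncomputable def sigma (δ : Γ) : Equiv.Perm ι where
  toFun := S.sigmaFun δ
  invFun := S.sigmaFun δ⁻¹
  left_inv i := by rw [← S.sigmaFun_mul, mul_inv_cancel, S.sigmaFun_one]
  right_inv i := by rw [← S.sigmaFun_mul, inv_mul_cancel, S.sigmaFun_one]

@[simp] theorem sigma_apply (δ : Γ) (i : ι) : S.sigma δ i = S.sigmaFun δ i := rfl

theorem rep_mul (δ : Γ) (i : ι) :
    S.rep i * ((δ : SL(2, ℤ)) : Matrix (Fin 2) (Fin 2) ℤ)
      = ((S.eps δ i : SL(2, ℤ)) : Matrix (Fin 2) (Fin 2) ℤ) * S.rep (S.sigma δ i) :=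
  S.rep_mul' δ i

theorem sigma_one : S.sigma 1 = 1 := Equiv.ext fun i => S.sigmaFun_one i

theorem sigma_mul (δ₁ δ₂ : Γ) : S.sigma (δ₁ * δ₂) = S.sigma δ₂ * S.sigma δ₁ :=
  Equiv.ext fun i => S.sigmaFun_mul δ₁ δ₂ i

theorem sigma_mul_apply (δ₁ δ₂ : Γ) (i : ι) :
    S.sigma (δ₁ * δ₂) i = S.sigma δ₂ (S.sigma δ₁ i) := S.sigmaFun_mul δ₁ δ₂ i

theorem eps_mul' (δ₁ δ₂ : Γ) (i : ι) :
    S.eps (δ₁ * δ₂) i = S.eps δ₁ i * S.eps δ₂ (S.sigma δ₁ i) := S.eps_mul δ₁ δ₂ i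

theorem sigma_pow (δ : Γ) (n : ℕ) : S.sigma (δ ^ n) = S.sigma δ ^ n := by
  induction n with
  | zero => rw [pow_zero, pow_zero, sigma_one]
  | succ n ih => rw [pow_succ, sigma_mul, ih, pow_succ']

/-- `ε_i(δ^n)` is the product of the `ε` along the `σ_δ`-orbit of `i` -/
theorem eps_pow (δ : Γ) (n : ℕ) (i : ι) :
    S.eps (δ ^ n) i = ((List.range n).map fun k => S.eps δ ((S.sigma δ ^ k) i)).prod := by
  induction n with
  | zero => rw [pow_zero, eps_one]; rfl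
  | succ n ih =>
    rw [pow_succ, eps_mul', ih, List.range_succ, List.map_append, List.prod_append, sigma_pow]
    simp

end tdmCosetSys

/-! ### The cycle lemma -/

theorem tdm_sum_eq_zero_of_cycles_aux {ι : Type} [Fintype ι] [DecidableEq ι] {A : Type*}
    [AddCommMonoid A] (σ : Equiv.Perm ι) (g : ι → A)
    (h : ∀ i, ∑ k ∈ Finset.range (Function.minimalPeriod σ i), g ((σ ^ k) i) = 0) :
    ∀ (n : ℕ) (s : Finset ι), s.card = n → (∀ i ∈ s, σ i ∈ s) → ∑ i ∈ s, g i = 0 := by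
  intro n
  induction n using Nat.strong_induction_on with
  | _ n ih =>
    intro s hs hσ
    rcases s.eq_empty_or_nonempty with rfl | ⟨b, hb⟩
    · simp
    have hper : b ∈ Function.periodicPts σ := by
      refine Function.mk_mem_periodicPts (orderOf_pos σ) ?_
      show (⇑σ)^[orderOf σ] b = b
      rw [Equiv.Perm.iterate_eq_pow, pow_orderOf_eq_one]; rfl
    set c := Function.minimalPeriod σ b with hc
    have hc0 : 0 < c := Function.minimalPeriod_pos_of_mem_periodicPts hper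
    have hcb : (σ ^ c) b = b := by
      have := Function.iterate_minimalPeriod (f := σ) (x := b)
      rwa [Equiv.Perm.iterate_eq_pow] at this
    set O := (Finset.range c).image (fun k => (σ ^ k) b) with hO
    have hpow_mem : ∀ k : ℕ, (σ ^ k) b ∈ s := by
      intro k
      induction k with
      | zero => simpa using hb
      | succ k ihk => rw [pow_succ', Equiv.Perm.mul_apply]; exact hσ _ ihk
    have hOs : O ⊆ s := by
      intro x hx
      obtain ⟨k, -, rfl⟩ := Finset.mem_image.mp hx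
      exact hpow_mem k
    have hbO : b ∈ O := Finset.mem_image.mpr ⟨0, Finset.mem_range.mpr hc0, by simp⟩
    have hinj : Set.InjOn (fun k => (σ ^ k) b) (Finset.range c : Set ℕ) := by
      intro k hk l hl hkl
      have := Function.iterate_injOn_Iio_minimalPeriod (f := σ) (x := b)
        (by simpa using hk) (by simpa using hl)
      apply this
      show (⇑σ)^[k] b = (⇑σ)^[l] b
      rw [Equiv.Perm.iterate_eq_pow, Equiv.Perm.iterate_eq_pow]; exact hkl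
    have hsumO : ∑ i ∈ O, g i = 0 := by
      rw [hO, Finset.sum_image hinj]; exact h b
    have hclosed : ∀ i ∈ s \ O, σ i ∈ s \ O := by
      intro i hi
      obtain ⟨his, hiO⟩ := Finset.mem_sdiff.mp hi
      refine Finset.mem_sdiff.mpr ⟨hσ i his, fun hmem => hiO ?_⟩
      obtain ⟨k, hk, hke⟩ := Finset.mem_image.mp hmem
      rcases k with _ | k
      · -- σ i = b = σ (σ^(c-1) b)
        have h1 : σ i = σ ((σ ^ (c - 1)) b) := by
          rw [← Equiv.Perm.mul_apply, ← pow_succ', Nat.sub_add_cancel hc0, hcb]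
          simpa using hke.symm
        have h2 : i = (σ ^ (c - 1)) b := σ.injective h1
        rw [h2]
        exact Finset.mem_image.mpr ⟨c - 1, Finset.mem_range.mpr (Nat.sub_lt hc0 one_pos), rfl⟩
      · have h1 : σ i = σ ((σ ^ k) b) := by
          rw [← Equiv.Perm.mul_apply, ← pow_succ']; exact hke.symm
        have h2 : i = (σ ^ k) b := σ.injective h1
        rw [h2]
        exact Finset.mem_image.mpr ⟨k, Finset.mem_range.mpr (by
          have := Finset.mem_range.mp hk; omega), rfl⟩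
    have hlt : (s \ O).card < n := by
      rw [← hs]
      exact Finset.card_lt_card (Finset.sdiff_ssubset hOs ⟨b, hbO⟩)
    have := ih (s \ O).card hlt (s \ O) rfl hclosed
    rw [← Finset.sum_sdiff hOs, this, hsumO, add_zero]

/-- **cycle lemma**: if the sum of `g` over every cycle of `σ` vanishes then so does the total sum -/
theorem tdm_sum_eq_zero_of_cycles {ι : Type} [Fintype ι] {A : Type*}
    [AddCommMonoid A] (σ : Equiv.Perm ι) (g : ι → A)
    (h : ∀ i, ∑ k ∈ Finset.range (Function.minimalPeriod σ i), g ((σ ^ k) i) = 0) :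
    ∑ i, g i = 0 := by
  classical
  exact tdm_sum_eq_zero_of_cycles_aux σ g h _ Finset.univ rfl (fun i _ => Finset.mem_univ _)

/-! ### Traces of powers -/

theorem tdm_mat_pow_add_two (M : Matrix (Fin 2) (Fin 2) ℤ) (n : ℕ) :
    M ^ (n + 2) = M.trace • M ^ (n + 1) - M.det • M ^ n := by
  have h2 : M ^ 2 = M.trace • M - M.det • (1 : Matrix (Fin 2) (Fin 2) ℤ) := by
    ext i j
    rw [pow_two, Matrix.sub_apply, Matrix.smul_apply, Matrix.smul_apply, Matrix.mul_apply,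
      Fin.sum_univ_two, Matrix.trace_fin_two, Matrix.det_fin_two, smul_eq_mul, smul_eq_mul]
    fin_cases i <;> fin_cases j <;> simp <;> ring
  rw [pow_add, h2, pow_succ, Matrix.mul_sub, Matrix.mul_smul, Matrix.mul_smul, Matrix.mul_one]

theorem tdm_trace_pow_sq {M : Matrix (Fin 2) (Fin 2) ℤ} (hd : M.det = 1)
    (ht : M.trace ^ 2 = 4) (n : ℕ) : (M ^ n).trace ^ 2 = 4 := by
  obtain ⟨e, he, hte⟩ : ∃ e : ℤ, e ^ 2 = 1 ∧ M.trace = 2 * e := by
    have h : (M.trace - 2) * (M.trace + 2) = 0 := by linear_combination ht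
    rcases mul_eq_zero.mp h with h | h
    · exact ⟨1, by norm_num, by linarith⟩
    · exact ⟨-1, by norm_num, by linarith⟩
  have key : ∀ n : ℕ, (M ^ n).trace = 2 * e ^ n ∧ (M ^ (n + 1)).trace = 2 * e ^ (n + 1) := by
    intro n
    induction n with
    | zero => simp [hte]
    | succ n ih =>
      refine ⟨ih.2, ?_⟩
      rw [show n + 1 + 1 = n + 2 by ring, tdm_mat_pow_add_two, Matrix.trace_sub, Matrix.trace_smul,
        Matrix.trace_smul, ih.1, ih.2, hd, hte, smul_eq_mul, smul_eq_mul]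
      linear_combination (2 * e ^ n) * he
  rw [(key n).1]
  have : (e ^ n) ^ 2 = 1 := by rw [← pow_mul, mul_comm, pow_mul, he, one_pow]
  linear_combination 4 * this

namespace tdmCosetSys

variable {Γ : Subgroup SL(2, ℤ)} {ι : Type} [Fintype ι] (S : tdmCosetSys Γ ι)

/-! ### The abstract Hecke operator -/

/-- `δ ↦ ∑ i, φ (ε_i(δ))` -/
noncomputable def homFun (A : Type*) [AddCommGroup A] (φ : Additive Γ →+ A) : Additive Γ →+ A where
  toFun δ := ∑ i, φ (Additive.ofMul (S.eps (Additive.toMul δ) i))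
  map_zero' := by simp [eps_one]
  map_add' δ₁ δ₂ := by
    simp only [toMul_add, eps_mul', ofMul_mul, map_add, Finset.sum_add_distrib]
    congr 1
    exact Equiv.sum_comp (S.sigma (Additive.toMul δ₁))
      (fun i => φ (Additive.ofMul (S.eps (Additive.toMul δ₂) i)))

/-- the abstract Hecke operator of a coset system on `Hom(Γ, A)` -/
noncomputable def hom (A : Type*) [AddCommGroup A] :
    (Additive Γ →+ A) →+ (Additive Γ →+ A) where
  toFun := S.homFun A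
  map_zero' := by ext; simp [homFun]
  map_add' φ ψ := by ext; simp [homFun, Finset.sum_add_distrib]

theorem hom_apply (A : Type*) [AddCommGroup A] (φ : Additive Γ →+ A) (δ : Γ) :
    S.hom A φ (Additive.ofMul δ) = ∑ i, φ (Additive.ofMul (S.eps δ i)) := rfl

/-- naturality in the coefficient group -/
theorem hom_comp {A B : Type*} [AddCommGroup A] [AddCommGroup B] (f : A →+ B)
    (φ : Additive Γ →+ A) : S.hom B (f.comp φ) = f.comp (S.hom A φ) := by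
  ext δ
  show S.hom B (f.comp φ) (Additive.ofMul δ) = f (S.hom A φ (Additive.ofMul δ))
  rw [hom_apply, hom_apply, map_sum]; rfl

/-- the `R`-linear version -/
noncomputable def homLin (R : Type*) [Semiring R] (A : Type*) [AddCommGroup A] [Module R A] :
    (Additive Γ →+ A) →ₗ[R] (Additive Γ →+ A) where
  toFun := S.hom A
  map_add' := map_add _
  map_smul' c φ := by
    ext δ
    show S.hom A (c • φ) (Additive.ofMul δ) = c • S.hom A φ (Additive.ofMul δ)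
    rw [hom_apply, hom_apply, Finset.smul_sum]; rfl

@[simp] theorem homLin_apply (R : Type*) [Semiring R] (A : Type*) [AddCommGroup A] [Module R A]
    (φ : Additive Γ →+ A) : S.homLin R A φ = S.hom A φ := rfl

/-! ### The cycle argument -/

theorem eps_pow_of_fixed {δ : Γ} {i : ι} (h : S.sigma δ i = i) (n : ℕ) :
    S.eps (δ ^ n) i = S.eps δ i ^ n := by
  induction n with
  | zero => rw [pow_zero, pow_zero, eps_one]
  | succ n ih =>
    have hn : S.sigma (δ ^ n) i = i := by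
      rw [sigma_pow]
      exact Equiv.Perm.pow_apply_eq_self_of_apply_eq_self h n
    rw [pow_succ, eps_mul', ih, hn, pow_succ]

theorem hom_apply_eq_zero_of_cycle {A : Type*} [AddCommGroup A] (φ : Additive Γ →+ A) (δ : Γ)
    (P : Γ → Prop) (hφ : ∀ γ, P γ → φ (Additive.ofMul γ) = 0)
    (hP : ∀ (c : ℕ) (i : ι), 0 < c → S.sigma (δ ^ c) i = i → P (S.eps (δ ^ c) i)) :
    S.hom A φ (Additive.ofMul δ) = 0 := by
  rw [hom_apply]
  refine tdm_sum_eq_zero_of_cycles (S.sigma δ) _ fun i => ?_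
  set c := Function.minimalPeriod (S.sigma δ) i with hc
  have hper : i ∈ Function.periodicPts (S.sigma δ) := by
    refine Function.mk_mem_periodicPts (orderOf_pos (S.sigma δ)) ?_
    show (⇑(S.sigma δ))^[orderOf (S.sigma δ)] i = i
    rw [Equiv.Perm.iterate_eq_pow, pow_orderOf_eq_one]; rfl
  have hc0 : 0 < c := Function.minimalPeriod_pos_of_mem_periodicPts hper
  have hci : S.sigma (δ ^ c) i = i := by
    rw [sigma_pow]
    have := Function.iterate_minimalPeriod (f := S.sigma δ) (x := i)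
    rwa [Equiv.Perm.iterate_eq_pow] at this
  have h1 : ∑ k ∈ Finset.range c, φ (Additive.ofMul (S.eps δ ((S.sigma δ ^ k) i)))
      = φ (Additive.ofMul (S.eps (δ ^ c) i)) := by
    rw [eps_pow, ofMul_list_prod, map_list_sum, List.map_map, List.map_map,
      ← List.sum_toFinset _ (List.nodup_range), List.toFinset_range]
    rfl
  rw [h1]
  exact hφ _ (hP c i hc0 hci)

theorem trace_eps_of_fixed {δ : Γ} {i : ι} (h : S.sigma δ i = i) :
    ((S.eps δ i : SL(2, ℤ)) : Matrix (Fin 2) (Fin 2) ℤ).trace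
      = ((δ : SL(2, ℤ)) : Matrix (Fin 2) (Fin 2) ℤ).trace := by
  have := S.rep_mul δ i
  rw [h] at this
  exact tdm_trace_eq_of_conj (S.det_ne_zero i) this

/-- the abstract Hecke operator preserves parabolic homomorphisms -/
theorem hom_parabolic {A : Type*} [AddCommGroup A] {φ : Additive Γ →+ A}
    (hφ : IsParabolicHom Γ φ) : IsParabolicHom Γ (S.hom A φ) := by
  intro δ hδ
  refine S.hom_apply_eq_zero_of_cycle φ δ
    (fun γ => ((γ : SL(2, ℤ)) : Matrix (Fin 2) (Fin 2) ℤ).trace ^ 2 = 4) hφ ?_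
  intro c i _ hci
  show ((S.eps (δ ^ c) i : SL(2, ℤ)) : Matrix (Fin 2) (Fin 2) ℤ).trace ^ 2 = 4
  rw [S.trace_eps_of_fixed hci, Subgroup.coe_pow, Matrix.SpecialLinearGroup.coe_pow]
  exact tdm_trace_pow_sq (δ : SL(2, ℤ)).2 hδ c

/-- the abstract Hecke operator preserves the vanishing on elements of finite order -/
theorem hom_finOrder {A : Type*} [AddCommGroup A] {φ : Additive Γ →+ A}
    (hφ : ∀ γ : Γ, IsOfFinOrder γ → φ (Additive.ofMul γ) = 0) (δ : Γ) (hδ : IsOfFinOrder δ) :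
    S.hom A φ (Additive.ofMul δ) = 0 := by
  refine S.hom_apply_eq_zero_of_cycle φ δ IsOfFinOrder hφ ?_
  intro c i _ hci
  obtain ⟨n, hn0, hn⟩ := isOfFinOrder_iff_pow_eq_one.mp hδ
  refine isOfFinOrder_iff_pow_eq_one.mpr ⟨n, hn0, ?_⟩
  rw [← S.eps_pow_of_fixed hci, ← pow_mul, mul_comm, pow_mul, hn, one_pow, eps_one]

theorem homLin_mem_parabolicHoms (R : Type*) [Semiring R] {A : Type*} [AddCommGroup A] [Module R A]
    {φ : Additive Γ →+ A} (hφ : φ ∈ parabolicHoms R Γ A) :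
    S.homLin R A φ ∈ parabolicHoms R Γ A :=
  S.hom_parabolic hφ

/-- the abstract Hecke operator on the parabolic homomorphisms -/
noncomputable def homPar (R : Type*) [Semiring R] (A : Type*) [AddCommGroup A] [Module R A] :
    ↥(parabolicHoms R Γ A) →ₗ[R] ↥(parabolicHoms R Γ A) :=
  (S.homLin R A).restrict fun _ hφ => S.homLin_mem_parabolicHoms R hφ

@[simp] theorem homPar_coe (R : Type*) [Semiring R] (A : Type*) [AddCommGroup A] [Module R A]
    (φ : ↥(parabolicHoms R Γ A)) :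
    ((S.homPar R A φ : ↥(parabolicHoms R Γ A)) : Additive Γ →+ A) = S.hom A φ := rfl

end tdmCosetSys

namespace tdmCosetSys

variable {Γ : Subgroup SL(2, ℤ)} {ι : Type} [Fintype ι] (S : tdmCosetSys Γ ι)

/-! ### Twisting by an automorphism, change of representatives -/

section Twist

variable {ι' : Type} [Fintype ι'] (S' : tdmCosetSys Γ ι') (J : Γ →* Γ)
  (Jm : Matrix (Fin 2) (Fin 2) ℤ → Matrix (Fin 2) (Fin 2) ℤ)
  (hmul : ∀ X Y, Jm (X * Y) = Jm X * Jm Y)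
  (hJ : ∀ γ : Γ, Jm ((γ : SL(2, ℤ)) : Matrix (Fin 2) (Fin 2) ℤ)
    = ((J γ : SL(2, ℤ)) : Matrix (Fin 2) (Fin 2) ℤ))
  (τ : ι ≃ ι') (u : ι → Γ)
  (hu : ∀ i, Jm (S.rep i) = ((u i : SL(2, ℤ)) : Matrix (Fin 2) (Fin 2) ℤ) * S'.rep (τ i))

include hmul hJ hu

theorem twist_rep_mul (δ : Γ) (i : ι) :
    S'.rep (τ i) * ((J δ : SL(2, ℤ)) : Matrix (Fin 2) (Fin 2) ℤ)
      = ((((u i)⁻¹ * J (S.eps δ i) * u (S.sigma δ i) : Γ) : SL(2, ℤ)) :
          Matrix (Fin 2) (Fin 2) ℤ) * S'.rep (τ (S.sigma δ i)) := by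
  have h := congrArg Jm (S.rep_mul δ i)
  rw [hmul, hmul, hJ, hJ, hu, hu] at h
  have hdet : ((u i : SL(2, ℤ)) : Matrix (Fin 2) (Fin 2) ℤ).det ≠ 0 := by
    rw [(u i : SL(2, ℤ)).2]; exact one_ne_zero
  apply tdm_mul_left_cancel hdet
  rw [← Matrix.mul_assoc, h]
  simp only [Subgroup.coe_mul, Matrix.SpecialLinearGroup.coe_mul, ← Matrix.mul_assoc]
  congr 2
  rw [← Matrix.SpecialLinearGroup.coe_mul, ← Subgroup.coe_mul, ← Matrix.SpecialLinearGroup.coe_mul,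
    ← Subgroup.coe_mul, mul_inv_cancel, one_mul]

theorem twist_sigma (δ : Γ) (i : ι) : S'.sigma (J δ) (τ i) = τ (S.sigma δ i) :=
  ((S'.eq_of_rep_mul (S.twist_rep_mul S' J Jm hmul hJ τ u hu δ i)).1).symm

theorem twist_eps (δ : Γ) (i : ι) :
    S'.eps (J δ) (τ i) = (u i)⁻¹ * J (S.eps δ i) * u (S.sigma δ i) :=
  ((S'.eq_of_rep_mul (S.twist_rep_mul S' J Jm hmul hJ τ u hu δ i)).2).symm

/-- if `J(rep i) ∈ Γ * rep' (τ i)` for an automorphism `J` and a bijection `τ` then the abstract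
Hecke operators of the two systems are intertwined by `J` -/
theorem hom_twist {A : Type*} [AddCommGroup A] (φ : Additive Γ →+ A) (δ : Γ) :
    S'.hom A φ (Additive.ofMul (J δ))
      = S.hom A (φ.comp (MonoidHom.toAdditive J)) (Additive.ofMul δ) := by
  rw [hom_apply, hom_apply, ← Equiv.sum_comp τ]
  have h1 : ∀ i, φ (Additive.ofMul (S'.eps (J δ) (τ i)))
      = (φ (Additive.ofMul (J (S.eps δ i))) + φ (Additive.ofMul (u (S.sigma δ i))))
        - φ (Additive.ofMul (u i)) := by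
    intro i
    rw [S.twist_eps S' J Jm hmul hJ τ u hu δ i, ofMul_mul, ofMul_mul, ofMul_inv, map_add, map_add,
      map_neg]
    abel
  rw [Finset.sum_congr rfl fun i _ => h1 i, Finset.sum_sub_distrib, Finset.sum_add_distrib,
    Equiv.sum_comp (S.sigma δ) (fun i => φ (Additive.ofMul (u i))), add_sub_cancel_right]
  rfl

end Twist

/-! ### The multiplicative version -/

/-- the abstract Hecke operator on characters: `χ ↦ (δ ↦ ∏ i, χ (ε_i(δ)))` -/
noncomputable def homMul (M : Type*) [CommGroup M] : (Γ →* M) →* (Γ →* M) where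
  toFun χ := MonoidHom.toAdditive.symm (S.hom (Additive M) (MonoidHom.toAdditive χ))
  map_one' := by
    have : MonoidHom.toAdditive (1 : Γ →* M) = 0 := rfl
    rw [this, map_zero]; rfl
  map_mul' χ ψ := by
    have : MonoidHom.toAdditive (χ * ψ) = MonoidHom.toAdditive χ + MonoidHom.toAdditive ψ := rfl
    rw [this, map_add]; rfl

theorem homMul_apply (M : Type*) [CommGroup M] (χ : Γ →* M) (δ : Γ) :
    S.homMul M χ δ = ∏ i, χ (S.eps δ i) := by
  show Additive.toMul (S.hom (Additive M) (MonoidHom.toAdditive χ) (Additive.ofMul δ)) = _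
  rw [hom_apply, toMul_sum]
  rfl

theorem homMul_parabolic {M : Type*} [CommGroup M] {χ : Γ →* M}
    (hχ : ∀ γ : Γ, ((γ : SL(2, ℤ)) : Matrix (Fin 2) (Fin 2) ℤ).trace ^ 2 = 4 → χ γ = 1)
    (δ : Γ) (hδ : ((δ : SL(2, ℤ)) : Matrix (Fin 2) (Fin 2) ℤ).trace ^ 2 = 4) :
    S.homMul M χ δ = 1 := by
  have h : IsParabolicHom Γ (MonoidHom.toAdditive χ) := fun γ hγ => congrArg Additive.ofMul (hχ γ hγ)
  exact congrArg Additive.toMul (S.hom_parabolic h δ hδ)

theorem homMul_finOrder {M : Type*} [CommGroup M] {χ : Γ →* M}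
    (hχ : ∀ γ : Γ, IsOfFinOrder γ → χ γ = 1) (δ : Γ) (hδ : IsOfFinOrder δ) :
    S.homMul M χ δ = 1 := by
  have h : ∀ γ : Γ, IsOfFinOrder γ → MonoidHom.toAdditive χ (Additive.ofMul γ) = 0 :=
    fun γ hγ => congrArg Additive.ofMul (hχ γ hγ)
  exact congrArg Additive.toMul (S.hom_finOrder h δ hδ)

end tdmCosetSys

/-- the abstract Hecke operator of a coset system of `Γ₀(N)` preserves the character groups `X_m` -/
theorem tdmCosetSys.homMul_mem_tdmX {N m : ℕ} {ι : Type} [Fintype ι]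
    (S : tdmCosetSys (Gamma0 N) ι) {χ : Gamma0 N →* ℂˣ} (hχ : χ ∈ tdmX N m) :
    S.homMul ℂˣ χ ∈ tdmX N m := by
  obtain ⟨h1, h2, h3⟩ := hχ
  refine ⟨fun γ => ?_, fun γ hγ => S.homMul_parabolic h2 γ hγ, fun γ hγ => S.homMul_finOrder h3 γ hγ⟩
  rw [S.homMul_apply, ← Finset.prod_pow]
  exact Finset.prod_eq_one fun i _ => h1 _

/-! ### Construction of coset systems from inequivalent representatives -/

/-- a family of pairwise `Γ`-inequivalent representatives which is stable under right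
multiplication by `Γ` (modulo `Γ` on the left) is a coset system -/
def tdmCosetSys.ofInequiv {Γ : Subgroup SL(2, ℤ)} {ι : Type} [Fintype ι]
    (rep : ι → Matrix (Fin 2) (Fin 2) ℤ) (det_pos : ∀ i, 0 < (rep i).det)
    (inequiv : ∀ (i j : ι) (γ : Γ),
      ((γ : SL(2, ℤ)) : Matrix (Fin 2) (Fin 2) ℤ) * rep i = rep j → i = j)
    (ex : ∀ (δ : Γ) (i : ι), ∃ j : ι, ∃ ε : Γ,
      rep i * ((δ : SL(2, ℤ)) : Matrix (Fin 2) (Fin 2) ℤ)
        = ((ε : SL(2, ℤ)) : Matrix (Fin 2) (Fin 2) ℤ) * rep j) : tdmCosetSys Γ ι where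
  rep := rep
  det_pos := det_pos
  perm δ i := by
    obtain ⟨j, ε, h⟩ := ex δ i
    refine ⟨j, ⟨ε, h⟩, ?_⟩
    rintro j' ⟨ε', h'⟩
    have : (((ε⁻¹ * ε' : Γ) : SL(2, ℤ)) : Matrix (Fin 2) (Fin 2) ℤ) * rep j' = rep j := by
      rw [Subgroup.coe_mul, Matrix.SpecialLinearGroup.coe_mul, Matrix.mul_assoc, ← h', h,
        ← Matrix.mul_assoc, ← Matrix.SpecialLinearGroup.coe_mul, ← Subgroup.coe_mul,
        inv_mul_cancel, Subgroup.coe_one, Matrix.SpecialLinearGroup.coe_one, Matrix.one_mul]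
    exact inequiv j' j _ this

/-! ### The four matrix identities -/

theorem tdm_aff_mul_diag {r : ℕ} (D : Matrix (Fin 2) (Fin 2) ℤ) (hD : D.det = 1) (j : ℤ)
    (h : (r : ℤ) ∣ D 0 0 + j * D 1 0) :
    ∃ E : SL(2, ℤ), !![1, j; 0, (r : ℤ)] * D = (E : Matrix (Fin 2) (Fin 2) ℤ) * !![(r : ℤ), 0; 0, 1]
      ∧ E 1 0 = D 1 0 := by
  obtain ⟨k, hk⟩ := h
  rw [Matrix.det_fin_two] at hD
  have hdet : (!![k, D 0 1 + j * D 1 1; D 1 0, r * D 1 1] : Matrix (Fin 2) (Fin 2) ℤ).det = 1 := by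
    rw [Matrix.det_fin_two_of]; linear_combination hD - D 1 1 * hk
  refine ⟨⟨_, hdet⟩, ?_, rfl⟩
  ext a b
  fin_cases a <;> fin_cases b <;> simp [Matrix.mul_apply, Fin.sum_univ_two] <;>
    first | ring1 | linear_combination hk

theorem tdm_aff_mul_aff {r : ℕ} (D : Matrix (Fin 2) (Fin 2) ℤ) (hD : D.det = 1) (j u : ℤ)
    (h : (r : ℤ) ∣ (D 0 1 + j * D 1 1) - u * (D 0 0 + j * D 1 0)) :
    ∃ E : SL(2, ℤ), !![1, j; 0, (r : ℤ)] * D = (E : Matrix (Fin 2) (Fin 2) ℤ) * !![1, u; 0, (r : ℤ)]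
      ∧ E 1 0 = r * D 1 0 := by
  obtain ⟨k, hk⟩ := h
  rw [Matrix.det_fin_two] at hD
  have hdet : (!![D 0 0 + j * D 1 0, k; r * D 1 0, D 1 1 - u * D 1 0] :
      Matrix (Fin 2) (Fin 2) ℤ).det = 1 := by
    rw [Matrix.det_fin_two_of]; linear_combination hD + D 1 0 * hk
  refine ⟨⟨_, hdet⟩, ?_, rfl⟩
  ext a b
  fin_cases a <;> fin_cases b <;> simp [Matrix.mul_apply, Fin.sum_univ_two] <;>
    first | ring1 | linear_combination hk

theorem tdm_diag_mul_diag {r : ℕ} (D : Matrix (Fin 2) (Fin 2) ℤ) (hD : D.det = 1)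
    (h : (r : ℤ) ∣ D 1 0) :
    ∃ E : SL(2, ℤ), !![(r : ℤ), 0; 0, 1] * D = (E : Matrix (Fin 2) (Fin 2) ℤ) * !![(r : ℤ), 0; 0, 1]
      ∧ r * E 1 0 = D 1 0 := by
  obtain ⟨k, hk⟩ := h
  rw [Matrix.det_fin_two] at hD
  have hdet : (!![D 0 0, r * D 0 1; k, D 1 1] : Matrix (Fin 2) (Fin 2) ℤ).det = 1 := by
    rw [Matrix.det_fin_two_of]; linear_combination hD + D 0 1 * hk
  refine ⟨⟨_, hdet⟩, ?_, hk.symm⟩
  ext a b
  fin_cases a <;> fin_cases b <;> simp [Matrix.mul_apply, Fin.sum_univ_two] <;>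
    first | ring1 | linear_combination hk

theorem tdm_diag_mul_aff {r : ℕ} (D : Matrix (Fin 2) (Fin 2) ℤ) (hD : D.det = 1) (u : ℤ)
    (h : (r : ℤ) ∣ D 1 1 - u * D 1 0) :
    ∃ E : SL(2, ℤ), !![(r : ℤ), 0; 0, 1] * D = (E : Matrix (Fin 2) (Fin 2) ℤ) * !![1, u; 0, (r : ℤ)]
      ∧ E 1 0 = D 1 0 := by
  obtain ⟨k, hk⟩ := h
  rw [Matrix.det_fin_two] at hD
  have hdet : (!![r * D 0 0, D 0 1 - u * D 0 0; D 1 0, k] : Matrix (Fin 2) (Fin 2) ℤ).det = 1 := by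
    rw [Matrix.det_fin_two_of]; linear_combination hD - D 0 0 * hk
  refine ⟨⟨_, hdet⟩, ?_, rfl⟩
  ext a b
  fin_cases a <;> fin_cases b <;> simp [Matrix.mul_apply, Fin.sum_univ_two] <;>
    first | ring1 | linear_combination hk

theorem tdm_mem_Gamma0_iff {N : ℕ} (γ : SL(2, ℤ)) : γ ∈ Gamma0 N ↔ (N : ℤ) ∣ γ 1 0 := by
  rw [Gamma0_mem]
  exact CharP.intCast_eq_zero_iff (ZMod N) N _

theorem tdm_exists_aff_sol {r : ℕ} (hr : r ≠ 0) {x : ℤ} (hx : IsCoprime x (r : ℤ)) (y : ℤ) :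
    ∃ j : Fin r, (r : ℤ) ∣ y - ((j : ℕ) : ℤ) * x := by
  obtain ⟨s, t, hst⟩ := hx
  have hr' : (r : ℤ) ≠ 0 := by exact_mod_cast hr
  have hr0 : (0 : ℤ) < r := by positivity
  set u : ℤ := s * y with hu
  have h0 : 0 ≤ u % r := Int.emod_nonneg _ hr'
  have hlt : u % r < r := Int.emod_lt_of_pos _ hr0
  refine ⟨⟨(u % r).toNat, by omega⟩, ?_⟩
  have hj : (((u % r).toNat : ℕ) : ℤ) = u % r := Int.toNat_of_nonneg h0
  show (r : ℤ) ∣ y - (((u % r).toNat : ℕ) : ℤ) * x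
  rw [hj]
  refine ⟨y * t + (u / r) * x, ?_⟩
  have := Int.emod_add_mul_ediv u r
  linear_combination (-y) * hst - x * this

theorem tdm_fin_eq_of_emod {r : ℕ} (b b' : Fin r) (q : ℤ)
    (h : ((b' : ℕ) : ℤ) = ((b : ℕ) : ℤ) + q * r) : b = b' := by
  have hb : ((b : ℕ) : ℤ) % r = (b : ℕ) :=
    Int.emod_eq_of_lt (by positivity) (by exact_mod_cast b.2)
  have hb' : ((b' : ℕ) : ℤ) % r = (b' : ℕ) :=
    Int.emod_eq_of_lt (by positivity) (by exact_mod_cast b'.2)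
  have : ((b' : ℕ) : ℤ) % r = ((b : ℕ) : ℤ) % r := by rw [h, Int.add_mul_emod_self_right]
  rw [hb, hb'] at this
  exact Fin.ext (by exact_mod_cast this.symm)

theorem tdm_aff_inequiv {r : ℕ} (b b' : Fin r) (γ : SL(2, ℤ))
    (h : (γ : Matrix (Fin 2) (Fin 2) ℤ) * !![1, ((b : ℕ) : ℤ); 0, (r : ℤ)]
      = !![1, ((b' : ℕ) : ℤ); 0, (r : ℤ)]) : b = b' := by
  have h00 := congrFun (congrFun h 0) 0
  have h01 := congrFun (congrFun h 0) 1
  simp [Matrix.mul_apply, Fin.sum_univ_two] at h00 h01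
  refine tdm_fin_eq_of_emod b b' (γ 0 1) ?_
  rw [← h01, h00, one_mul]

theorem tdm_not_mul_eq_one {r : ℕ} (hr : 2 ≤ r) (x : ℤ) : x * r ≠ 1 := by
  intro h
  rcases Int.eq_one_or_neg_one_of_mul_eq_one' h with ⟨-, h2⟩ | ⟨-, h2⟩ <;> omega

theorem tdm_diag_aff_inequiv {r : ℕ} (hr : 2 ≤ r) (b' : ℤ) (γ : SL(2, ℤ))
    (h : (γ : Matrix (Fin 2) (Fin 2) ℤ) * !![(r : ℤ), 0; 0, 1] = !![1, b'; 0, (r : ℤ)]) : False := by
  have h00 := congrFun (congrFun h 0) 0
  simp [Matrix.mul_apply, Fin.sum_univ_two] at h00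
  exact tdm_not_mul_eq_one hr _ h00

theorem tdm_aff_diag_inequiv {r : ℕ} (hr : 2 ≤ r) (b : ℤ) (γ : SL(2, ℤ))
    (h : (γ : Matrix (Fin 2) (Fin 2) ℤ) * !![1, b; 0, (r : ℤ)] = !![(r : ℤ), 0; 0, 1]) : False := by
  have h10 := congrFun (congrFun h 1) 0
  have h11 := congrFun (congrFun h 1) 1
  simp [Matrix.mul_apply, Fin.sum_univ_two] at h10 h11
  rw [h10, zero_mul, zero_add] at h11
  exact tdm_not_mul_eq_one hr _ h11

/-! ### The Hecke coset systems -/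

/-- the representatives `diag(r, 1)` and `[[1, b], [0, r]]` (`b < r`) of `T_r` -/
def tdmRepT (r : ℕ) : Option (Fin r) → Matrix (Fin 2) (Fin 2) ℤ
  | none => !![(r : ℤ), 0; 0, 1]
  | some b => !![1, ((b : ℕ) : ℤ); 0, (r : ℤ)]

/-- the representatives `[[1, b], [0, r]]` (`b < r`) of `U_r` -/
def tdmRepU (r : ℕ) (b : Fin r) : Matrix (Fin 2) (Fin 2) ℤ := !![1, ((b : ℕ) : ℤ); 0, (r : ℤ)]

theorem tdmRepT_det (r : ℕ) (i : Option (Fin r)) : (tdmRepT r i).det = r := by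
  cases i <;> simp [tdmRepT, Matrix.det_fin_two_of]

theorem tdmRepU_det (r : ℕ) (b : Fin r) : (tdmRepU r b).det = r := by
  simp [tdmRepU, Matrix.det_fin_two_of]

theorem tdm_Gamma0_data {N : ℕ} (δ : Gamma0 N) :
    ((δ : SL(2, ℤ)) : Matrix (Fin 2) (Fin 2) ℤ).det = 1 ∧
      (N : ℤ) ∣ ((δ : SL(2, ℤ)) : Matrix (Fin 2) (Fin 2) ℤ) 1 0 :=
  ⟨(δ : SL(2, ℤ)).2, (tdm_mem_Gamma0_iff _).mp δ.2⟩

theorem tdmRepT_exists {N r : ℕ} (hr : r.Prime) (hrN : ¬ r ∣ N) (δ : Gamma0 N)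
    (i : Option (Fin r)) : ∃ j : Option (Fin r), ∃ ε : Gamma0 N,
      tdmRepT r i * ((δ : SL(2, ℤ)) : Matrix (Fin 2) (Fin 2) ℤ)
        = ((ε : SL(2, ℤ)) : Matrix (Fin 2) (Fin 2) ℤ) * tdmRepT r j := by
  obtain ⟨hD, hN⟩ := tdm_Gamma0_data δ
  set D := ((δ : SL(2, ℤ)) : Matrix (Fin 2) (Fin 2) ℤ) with hDdef
  have hrp : Prime (r : ℤ) := Nat.prime_iff_prime_int.mp hr
  have hr0 : r ≠ 0 := hr.ne_zero
  rcases i with _ | b
  · -- diag
    by_cases hx : (r : ℤ) ∣ D 1 0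
    · obtain ⟨E, hE, hE10⟩ := tdm_diag_mul_diag D hD hx
      have hNE : (N : ℤ) ∣ E 1 0 := by
        have hcop : IsCoprime (N : ℤ) (r : ℤ) := by
          rw [isCoprime_comm, hrp.irreducible.coprime_iff_not_dvd]
          exact fun h => hrN (Int.natCast_dvd_natCast.mp h)
        rw [← hE10] at hN
        exact hcop.dvd_of_dvd_mul_left hN
      exact ⟨none, ⟨E, (tdm_mem_Gamma0_iff E).mpr hNE⟩, hE⟩
    · have hcop : IsCoprime (D 1 0) (r : ℤ) := by
        rw [isCoprime_comm, hrp.irreducible.coprime_iff_not_dvd]; exact hx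
      obtain ⟨j, hj⟩ := tdm_exists_aff_sol hr0 hcop (D 1 1)
      obtain ⟨E, hE, hE10⟩ := tdm_diag_mul_aff D hD ((j : ℕ) : ℤ) hj
      exact ⟨some j, ⟨E, (tdm_mem_Gamma0_iff E).mpr (hE10 ▸ hN)⟩, hE⟩
  · by_cases hx : (r : ℤ) ∣ D 0 0 + ((b : ℕ) : ℤ) * D 1 0
    · obtain ⟨E, hE, hE10⟩ := tdm_aff_mul_diag D hD ((b : ℕ) : ℤ) hx
      exact ⟨none, ⟨E, (tdm_mem_Gamma0_iff E).mpr (hE10 ▸ hN)⟩, hE⟩
    · have hcop : IsCoprime (D 0 0 + ((b : ℕ) : ℤ) * D 1 0) (r : ℤ) := by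
        rw [isCoprime_comm, hrp.irreducible.coprime_iff_not_dvd]; exact hx
      obtain ⟨j, hj⟩ := tdm_exists_aff_sol hr0 hcop (D 0 1 + ((b : ℕ) : ℤ) * D 1 1)
      obtain ⟨E, hE, hE10⟩ := tdm_aff_mul_aff D hD ((b : ℕ) : ℤ) ((j : ℕ) : ℤ) hj
      exact ⟨some j, ⟨E, (tdm_mem_Gamma0_iff E).mpr (hE10 ▸ Dvd.dvd.mul_left hN _)⟩, hE⟩

theorem tdmRepT_inequiv {N r : ℕ} (hr : 2 ≤ r) (i j : Option (Fin r)) (γ : Gamma0 N)
    (h : ((γ : SL(2, ℤ)) : Matrix (Fin 2) (Fin 2) ℤ) * tdmRepT r i = tdmRepT r j) : i = j := by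
  rcases i with _ | b <;> rcases j with _ | b'
  · rfl
  · exact (tdm_diag_aff_inequiv hr _ _ h).elim
  · exact (tdm_aff_diag_inequiv hr _ _ h).elim
  · exact congrArg some (tdm_aff_inequiv b b' _ h)

/-- the coset system of `T_r` (`r` prime, `r ∤ N`) -/
def tdmSysT (N r : ℕ) (hr : r.Prime) (hrN : ¬ r ∣ N) : tdmCosetSys (Gamma0 N) (Option (Fin r)) :=
  tdmCosetSys.ofInequiv (tdmRepT r)
    (fun i => by rw [tdmRepT_det]; exact_mod_cast hr.pos)
    (tdmRepT_inequiv hr.two_le) (tdmRepT_exists hr hrN)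

theorem tdmRepU_exists {N r : ℕ} (hrN : r ∣ N) (hr0 : r ≠ 0) (δ : Gamma0 N)
    (b : Fin r) : ∃ j : Fin r, ∃ ε : Gamma0 N,
      tdmRepU r b * ((δ : SL(2, ℤ)) : Matrix (Fin 2) (Fin 2) ℤ)
        = ((ε : SL(2, ℤ)) : Matrix (Fin 2) (Fin 2) ℤ) * tdmRepU r j := by
  obtain ⟨hD, hN⟩ := tdm_Gamma0_data δ
  set D := ((δ : SL(2, ℤ)) : Matrix (Fin 2) (Fin 2) ℤ) with hDdef
  obtain ⟨m, hm⟩ : (r : ℤ) ∣ D 1 0 := (Int.natCast_dvd_natCast.mpr hrN).trans hN
  have hcop : IsCoprime (D 0 0 + ((b : ℕ) : ℤ) * D 1 0) (r : ℤ) := by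
    refine ⟨D 1 1, -(D 0 1 * m) - (b : ℕ) * m * D 1 1, ?_⟩
    rw [Matrix.det_fin_two] at hD
    rw [hm] at hD ⊢
    linear_combination hD
  obtain ⟨j, hj⟩ := tdm_exists_aff_sol hr0 hcop (D 0 1 + ((b : ℕ) : ℤ) * D 1 1)
  obtain ⟨E, hE, hE10⟩ := tdm_aff_mul_aff D hD ((b : ℕ) : ℤ) ((j : ℕ) : ℤ) hj
  exact ⟨j, ⟨E, (tdm_mem_Gamma0_iff E).mpr (hE10 ▸ Dvd.dvd.mul_left hN _)⟩, hE⟩

/-- the coset system of `U_r` (`r ∣ N`) -/
def tdmSysU (N r : ℕ) (hrN : r ∣ N) (hr0 : r ≠ 0) : tdmCosetSys (Gamma0 N) (Fin r) :=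
  tdmCosetSys.ofInequiv (tdmRepU r)
    (fun i => by rw [tdmRepU_det]; exact_mod_cast Nat.pos_of_ne_zero hr0)
    (fun i j γ h => tdm_aff_inequiv i j _ h) (tdmRepU_exists hrN hr0)

@[simp] theorem tdmSysT_rep (N r : ℕ) (hr : r.Prime) (hrN : ¬ r ∣ N) :
    (tdmSysT N r hr hrN).rep = tdmRepT r := rfl

@[simp] theorem tdmSysU_rep (N r : ℕ) (hrN : r ∣ N) (hr0 : r ≠ 0) :
    (tdmSysU N r hrN hr0).rep = tdmRepU r := rfl

/-! ### Compatibility with the involution `J = diag(1, -1)` -/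

/-- negation modulo `r` on `Fin r` -/
def tdmNegFun (r : ℕ) (hr0 : r ≠ 0) (b : Fin r) : Fin r :=
  ⟨((-((b : ℕ) : ℤ)) % (r : ℤ)).toNat, by
    have h0 : 0 ≤ (-((b : ℕ) : ℤ)) % (r : ℤ) := Int.emod_nonneg _ (by exact_mod_cast hr0)
    have hlt : (-((b : ℕ) : ℤ)) % (r : ℤ) < r := Int.emod_lt_of_pos _ (by positivity)
    omega⟩

theorem tdmNegFun_coe (r : ℕ) (hr0 : r ≠ 0) (b : Fin r) :
    (((tdmNegFun r hr0 b : Fin r) : ℕ) : ℤ) = (-((b : ℕ) : ℤ)) % (r : ℤ) :=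
  Int.toNat_of_nonneg (Int.emod_nonneg _ (by exact_mod_cast hr0))

theorem tdmNegFun_involutive (r : ℕ) (hr0 : r ≠ 0) : Function.Involutive (tdmNegFun r hr0) := by
  intro b
  refine (tdm_fin_eq_of_emod b (tdmNegFun r hr0 (tdmNegFun r hr0 b))
    ((-((b : ℕ) : ℤ)) / r - (-(((tdmNegFun r hr0 b : Fin r) : ℕ) : ℤ)) / r) ?_).symm
  rw [tdmNegFun_coe, tdmNegFun_coe]
  have h1 := Int.emod_add_mul_ediv (-((b : ℕ) : ℤ)) r
  have h2 := Int.emod_add_mul_ediv (-(-((b : ℕ) : ℤ) % (r : ℤ))) r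
  linear_combination h2 - h1

/-- negation modulo `r` as a permutation of `Fin r` -/
def tdmNeg (r : ℕ) (hr0 : r ≠ 0) : Equiv.Perm (Fin r) := (tdmNegFun_involutive r hr0).toPerm _

/-- the upper unipotent matrix `[[1, q], [0, 1]]` as an element of `Γ₀(N)` -/
def tdmUnipSL (q : ℤ) : SL(2, ℤ) := ⟨!![1, q; 0, 1], by simp [Matrix.det_fin_two_of]⟩

/-- the upper unipotent matrix `[[1, q], [0, 1]]` as an element of `Γ₀(N)` -/
def tdmUnip (N : ℕ) (q : ℤ) : Gamma0 N :=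
  ⟨tdmUnipSL q, by rw [tdm_mem_Gamma0_iff]; simp [tdmUnipSL]⟩

theorem tdm_jConj_aff (N r : ℕ) (hr0 : r ≠ 0) (b : Fin r) :
    jConjMat !![1, ((b : ℕ) : ℤ); 0, (r : ℤ)]
      = ((tdmUnip N ((-((b : ℕ) : ℤ)) / r) : SL(2, ℤ)) : Matrix (Fin 2) (Fin 2) ℤ)
        * !![1, (((tdmNeg r hr0 b : Fin r) : ℕ) : ℤ); 0, (r : ℤ)] := by
  have h1 := Int.emod_add_mul_ediv (-((b : ℕ) : ℤ)) r
  have h2 : (((tdmNeg r hr0 b : Fin r) : ℕ) : ℤ) = (-((b : ℕ) : ℤ)) % (r : ℤ) :=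
    tdmNegFun_coe r hr0 b
  rw [h2]
  ext i j
  fin_cases i <;> fin_cases j <;>
    simp [jConjMat, tdmUnip, tdmUnipSL, Matrix.mul_apply, Fin.sum_univ_two]
  linear_combination (-1 : ℤ) * h1

theorem tdm_jConj_diag (r : ℕ) :
    jConjMat !![(r : ℤ), 0; 0, 1] = !![(r : ℤ), 0; 0, 1] := by
  ext i j
  fin_cases i <;> fin_cases j <;> simp [jConjMat]

theorem tdm_jConjMat_coe {N : ℕ} (γ : Gamma0 N) :
    jConjMat ((γ : SL(2, ℤ)) : Matrix (Fin 2) (Fin 2) ℤ)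
      = ((jConjGamma0 N γ : SL(2, ℤ)) : Matrix (Fin 2) (Fin 2) ℤ) := rfl

/-- `T_r` commutes with the involution `φ ↦ φ ∘ J` -/
theorem tdmSysT_charInvolution (N r : ℕ) (hr : r.Prime) (hrN : ¬ r ∣ N) (R : Type*) [Semiring R]
    (A : Type*) [AddCommGroup A] [Module R A] (φ : Additive (Gamma0 N) →+ A) :
    charInvolution N R A ((tdmSysT N r hr hrN).hom A φ)
      = (tdmSysT N r hr hrN).hom A (charInvolution N R A φ) := by
  refine AddMonoidHom.ext fun δ => ?_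
  exact (tdmSysT N r hr hrN).hom_twist (tdmSysT N r hr hrN) (jConjGamma0 N) jConjMat jConjMat_mul
    tdm_jConjMat_coe (Equiv.optionCongr (tdmNeg r hr.ne_zero))
    (fun i => i.elim 1 fun b => tdmUnip N ((-((b : ℕ) : ℤ)) / r))
    (fun i => by
      rcases i with _ | b
      · show jConjMat !![(r : ℤ), 0; 0, 1] = _
        rw [tdm_jConj_diag]
        simp [tdmRepT]
      · exact tdm_jConj_aff N r hr.ne_zero b) φ (Additive.toMul δ)

/-- `U_r` commutes with the involution `φ ↦ φ ∘ J` -/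
theorem tdmSysU_charInvolution (N r : ℕ) (hrN : r ∣ N) (hr0 : r ≠ 0) (R : Type*) [Semiring R]
    (A : Type*) [AddCommGroup A] [Module R A] (φ : Additive (Gamma0 N) →+ A) :
    charInvolution N R A ((tdmSysU N r hrN hr0).hom A φ)
      = (tdmSysU N r hrN hr0).hom A (charInvolution N R A φ) := by
  refine AddMonoidHom.ext fun δ => ?_
  exact (tdmSysU N r hrN hr0).hom_twist (tdmSysU N r hrN hr0) (jConjGamma0 N) jConjMat jConjMat_mul
    tdm_jConjMat_coe (tdmNeg r hr0)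
    (fun b => tdmUnip N ((-((b : ℕ) : ℤ)) / r))
    (fun b => tdm_jConj_aff N r hr0 b) φ (Additive.toMul δ)

end Fermat.Agent.T1
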