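/-
T1-D, WP-T (M8): the inverse limit of the character groups.

For a group `Γ` with a set `Par` of "parabolic" elements: `tdmTa p Par` (homomorphisms `Γ → ℤ_p`
vanishing on `Par`), `tdmXa Par m` (characters of order dividing `m`, trivial on `Par` and on the
elements of finite order), the reductions `tdmRed k : φ ↦ (γ ↦ exp (2πi (φ γ mod p^k) / p^k))` and
`tdmTower p Par : TeTower p (tdmTa p Par) (fun k => Additive (tdmXa Par (p ^ k)))`, i.e.
`ker (tdmRed k) = p ^ k T` and every sequence `χ_{k+1} ^ p = χ_k` comes from a unique element of `T`.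
For `Γ` finitely generated, `T` is free of finite rank.  Specialisation to `Γ₀(N)`:
`tdmTowerN p N` on `parabolicHoms ℤ_p Γ₀(N) ℤ_p` and `tdmX N (p ^ k)`.
-/
import Mathlib
import Fermat.Agent.Lib.T1.Asm.Tower
import Fermat.Agent.Lib.T1.Mono.Char

set_option autoImplicit false
set_option linter.unusedSectionVars false
set_option linter.unusedVariables false
set_option linter.style.haveILetI false

open IsLocalRing

namespace Fermat.Agent.T1

noncomputable section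

section TowerExtra

variable {p : ℕ} [Fact p.Prime] {T : Type} [AddCommGroup T] [Module ℤ_[p] T]
  [Module.Free ℤ_[p] T] [Module.Finite ℤ_[p] T]
  {W : ℕ → Type} [∀ k, AddCommGroup (W k)] (D : TeTower p T W)

lemma TeTower.ι_eq_zero_iff (k : ℕ) (x : T) :
    D.ι k x = 0 ↔ ∃ y : T, x = (p : ℤ_[p]) ^ k • y :=
  ⟨D.exists_of_ι_eq_zero k x, fun ⟨y, hy⟩ => hy ▸ D.ι_pow_smul k y⟩

theorem TeTower.existsUnique_ι_eq (w : ∀ k, W k) (hw : ∀ k, D.π k (w (k + 1)) = w k) :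
    ∃! x : T, ∀ k, D.ι k x = w k := by
  obtain ⟨x, hx⟩ := D.exists_ι_eq w hw
  refine ⟨x, hx, fun y hy => D.ext_elem (fun k => by rw [hy k, hx k])⟩

end TowerExtra

section Exp

variable (p : ℕ) [Fact p.Prime]

instance tdm_neZero_pow (k : ℕ) : NeZero (p ^ k) := ⟨pow_ne_zero k (Fact.out : p.Prime).ne_zero⟩

/-- `a ↦ exp (2πi (a mod p ^ k) / p ^ k)` as a homomorphism `ℤ_p → ℂˣ` -/
def tdmE (k : ℕ) : Multiplicative ℤ_[p] →* ℂˣ :=
  ((ZMod.stdAddChar (N := p ^ k)).toMonoidHom.toHomUnits).comp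
    (AddMonoidHom.toMultiplicative (PadicInt.toZModPow (p := p) k).toAddMonoidHom)

lemma tdmE_apply (k : ℕ) (a : ℤ_[p]) :
    ((tdmE p k (Multiplicative.ofAdd a) : ℂˣ) : ℂ) =
      ZMod.stdAddChar (N := p ^ k) (PadicInt.toZModPow k a) := rfl

lemma tdmE_natCast (k : ℕ) (j : ℕ) :
    ((tdmE p k (Multiplicative.ofAdd (j : ℤ_[p])) : ℂˣ) : ℂ) =
      Complex.exp (2 * Real.pi * Complex.I * j / ((p ^ k : ℕ) : ℂ)) := by
  rw [tdmE_apply, map_natCast]
  have := ZMod.stdAddChar_coe (N := p ^ k) (j : ℤ)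
  simpa using this

lemma tdmE_eq_one_iff (k : ℕ) (a : ℤ_[p]) :
    tdmE p k (Multiplicative.ofAdd a) = 1 ↔ ∃ b : ℤ_[p], a = (p : ℤ_[p]) ^ k * b := by
  rw [Units.ext_iff, tdmE_apply, Units.val_one, ← (ZMod.stdAddChar (N := p ^ k)).map_zero_eq_one,
    ZMod.injective_stdAddChar.eq_iff, ← RingHom.mem_ker, PadicInt.ker_toZModPow,
    Ideal.mem_span_singleton]
  rfl

lemma tdmE_eq_iff (k : ℕ) (a b : ℤ_[p]) :
    tdmE p k (Multiplicative.ofAdd a) = tdmE p k (Multiplicative.ofAdd b) ↔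
      ∃ c : ℤ_[p], a - b = (p : ℤ_[p]) ^ k * c := by
  rw [← tdmE_eq_one_iff, sub_eq_add_neg, ofAdd_add, map_mul, ofAdd_neg, map_inv,
    mul_inv_eq_one]

lemma tdmE_pow_eq_one (k : ℕ) (x : Multiplicative ℤ_[p]) : tdmE p k x ^ (p ^ k) = 1 := by
  obtain ⟨a, rfl⟩ := Multiplicative.ofAdd.surjective x
  rw [← map_pow, ← ofAdd_nsmul, tdmE_eq_one_iff]
  exact ⟨a, by rw [nsmul_eq_mul, Nat.cast_pow]⟩

/-- every element of `ℤ_p` is congruent to a natural number modulo `p ^ k` -/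
lemma tdm_exists_nat (k : ℕ) (a : ℤ_[p]) : ∃ j : ℕ, ∃ c : ℤ_[p], a - j = (p : ℤ_[p]) ^ k * c := by
  refine ⟨PadicInt.appr a k, ?_⟩
  exact Ideal.mem_span_singleton.1 (PadicInt.appr_spec k a)

lemma tdmE_succ_pow (k : ℕ) (x : Multiplicative ℤ_[p]) : tdmE p (k + 1) x ^ p = tdmE p k x := by
  obtain ⟨a, rfl⟩ := Multiplicative.ofAdd.surjective x
  obtain ⟨j, c, hc⟩ := tdm_exists_nat p (k + 1) a
  have h1 : tdmE p (k + 1) (Multiplicative.ofAdd a) =
      tdmE p (k + 1) (Multiplicative.ofAdd (j : ℤ_[p])) := (tdmE_eq_iff p (k + 1) a j).2 ⟨c, hc⟩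
  have h2 : tdmE p k (Multiplicative.ofAdd a) = tdmE p k (Multiplicative.ofAdd (j : ℤ_[p])) :=
    (tdmE_eq_iff p k a j).2 ⟨(p : ℤ_[p]) * c, by rw [hc, pow_succ, mul_assoc]⟩
  rw [h1, h2, Units.ext_iff, Units.val_pow_eq_pow_val, tdmE_natCast, tdmE_natCast,
    ← Complex.exp_nat_mul]
  congr 1
  have hp0 : (p : ℂ) ≠ 0 := Nat.cast_ne_zero.2 (Fact.out : p.Prime).ne_zero
  push_cast
  field_simp
  ring

/-- the image of `tdmE p k` consists of all `p ^ k`-th roots of unity -/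
lemma tdm_exists_tdmE_eq (k : ℕ) (z : ℂˣ) (hz : z ^ (p ^ k) = 1) :
    ∃ j : ℕ, z = tdmE p k (Multiplicative.ofAdd (j : ℤ_[p])) := by
  have h1 : z ∈ rootsOfUnity (p ^ k) ℂ := (mem_rootsOfUnity _ _).2 hz
  obtain ⟨i, -, hi⟩ := (Complex.mem_rootsOfUnity (p ^ k) z).1 h1
  refine ⟨i, ?_⟩
  rw [Units.ext_iff, tdmE_natCast, ← hi]
  congr 1
  ring


lemma tdm_smodEq_iff (n : ℕ) (x y : ℤ_[p]) :
    x ≡ y [SMOD (maximalIdeal ℤ_[p] ^ n • ⊤ : Submodule ℤ_[p] ℤ_[p])] ↔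
      ∃ c : ℤ_[p], x - y = (p : ℤ_[p]) ^ n * c := by
  rw [SModEq.sub_mem, smul_eq_mul, Ideal.mul_top, PadicInt.maximalIdeal_eq_span_p,
    Ideal.span_singleton_pow, Ideal.mem_span_singleton]
  rfl

/-- a compatible sequence of `p`-power roots of unity comes from an element of `ℤ_p` -/
lemma tdm_exists_lim (z : ℕ → ℂˣ) (hz : ∀ k, z k ^ (p ^ k) = 1) (hc : ∀ k, z (k + 1) ^ p = z k) :
    ∃ a : ℤ_[p], ∀ k, tdmE p k (Multiplicative.ofAdd a) = z k := by
  choose j hj using fun k => tdm_exists_tdmE_eq p k (z k) (hz k)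
  set f : ℕ → ℤ_[p] := fun k => (j k : ℤ_[p]) with hf
  have hstep : ∀ k, ∃ c : ℤ_[p], f (k + 1) - f k = (p : ℤ_[p]) ^ k * c := by
    intro k
    rw [← tdmE_eq_iff, ← tdmE_succ_pow, ← hj (k + 1), hc k, hj k]
  have hmn : ∀ m n : ℕ, m ≤ n → ∃ c : ℤ_[p], f n - f m = (p : ℤ_[p]) ^ m * c := by
    intro m n hmn
    induction n, hmn using Nat.le_induction with
    | base => exact ⟨0, by rw [sub_self, mul_zero]⟩
    | succ n hmn ih =>
      obtain ⟨c, hc⟩ := ih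
      obtain ⟨d, hd⟩ := hstep n
      obtain ⟨e, rfl⟩ := Nat.exists_eq_add_of_le hmn
      refine ⟨c + (p : ℤ_[p]) ^ e * d, ?_⟩
      rw [mul_add, ← hc, ← mul_assoc, ← pow_add, ← hd]
      ring
  obtain ⟨a, ha⟩ := IsPrecomplete.prec (I := maximalIdeal ℤ_[p]) (M := ℤ_[p]) inferInstance
    (f := f) (fun {m n} h => by
      rw [tdm_smodEq_iff]
      obtain ⟨c, hc⟩ := hmn m n h
      exact ⟨-c, by rw [mul_neg, ← hc]; ring⟩)
  refine ⟨a, fun k => ?_⟩
  rw [hj k]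
  rw [tdmE_eq_iff]
  obtain ⟨c, hc⟩ := (tdm_smodEq_iff p k (f k) a).1 (ha k)
  exact ⟨-c, by rw [mul_neg, ← hc]; ring⟩

lemma tdm_eq_zero_of_forall_tdmE (a : ℤ_[p]) (h : ∀ k, tdmE p k (Multiplicative.ofAdd a) = 1) :
    a = 0 := by
  apply IsHausdorff.haus (I := maximalIdeal ℤ_[p]) (M := ℤ_[p]) inferInstance
  intro n
  rw [tdm_smodEq_iff, sub_zero]
  exact (tdmE_eq_one_iff p n a).1 (h n)


lemma tdmE_eq_exp (k : ℕ) (a : ℤ_[p]) :
    ((tdmE p k (Multiplicative.ofAdd a) : ℂˣ) : ℂ) =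
      Complex.exp (2 * Real.pi * Complex.I * (PadicInt.appr a k : ℕ) / ((p ^ k : ℕ) : ℂ)) := by
  rw [← tdmE_natCast]
  have h : tdmE p k (Multiplicative.ofAdd a) =
      tdmE p k (Multiplicative.ofAdd ((PadicInt.appr a k : ℕ) : ℤ_[p])) := by
    rw [tdmE_eq_iff]
    exact Ideal.mem_span_singleton.1 (PadicInt.appr_spec k a)
  rw [h]

lemma tdmE_conj (k : ℕ) (x : Multiplicative ℤ_[p]) :
    (starRingEnd ℂ) ((tdmE p k x : ℂˣ) : ℂ) = (((tdmE p k x)⁻¹ : ℂˣ) : ℂ) :=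
  Complex.conj_rootsOfUnity (n := p ^ k) ((mem_rootsOfUnity _ _).2 (tdmE_pow_eq_one p k x))

end Exp


section Limit

variable (p : ℕ) [Fact p.Prime] {Γ : Type} [Group Γ] (Par : Set Γ)

/-- homomorphisms `Γ → ℤ_p` vanishing on `Par` -/
def tdmTa : Submodule ℤ_[p] (Additive Γ →+ ℤ_[p]) where
  carrier := {φ | ∀ γ ∈ Par, φ (Additive.ofMul γ) = 0}
  zero_mem' := fun _ _ => rfl
  add_mem' := by
    intro φ ψ hφ hψ γ hγ
    change φ (Additive.ofMul γ) + ψ (Additive.ofMul γ) = 0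
    rw [hφ γ hγ, hψ γ hγ, add_zero]
  smul_mem' := by
    intro c φ hφ γ hγ
    change c • φ (Additive.ofMul γ) = 0
    rw [hφ γ hγ, smul_zero]

lemma mem_tdmTa {φ : Additive Γ →+ ℤ_[p]} :
    φ ∈ tdmTa p Par ↔ ∀ γ ∈ Par, φ (Additive.ofMul γ) = 0 := Iff.rfl

/-- characters of `Γ` of order dividing `m`, trivial on `Par` and on the elements of finite order -/
def tdmXa (m : ℕ) : Subgroup (Γ →* ℂˣ) where
  carrier := {χ | (∀ γ, χ γ ^ m = 1) ∧ (∀ γ ∈ Par, χ γ = 1) ∧ (∀ γ, IsOfFinOrder γ → χ γ = 1)}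
  one_mem' := ⟨fun _ => by simp, fun _ _ => rfl, fun _ _ => rfl⟩
  mul_mem' := by
    rintro χ ψ ⟨h1, h2, h3⟩ ⟨k1, k2, k3⟩
    refine ⟨fun γ => ?_, fun γ hγ => ?_, fun γ hγ => ?_⟩
    · rw [MonoidHom.mul_apply, mul_pow, h1, k1, one_mul]
    · rw [MonoidHom.mul_apply, h2 γ hγ, k2 γ hγ, one_mul]
    · rw [MonoidHom.mul_apply, h3 γ hγ, k3 γ hγ, one_mul]
  inv_mem' := by
    rintro χ ⟨h1, h2, h3⟩
    refine ⟨fun γ => ?_, fun γ hγ => ?_, fun γ hγ => ?_⟩
    · rw [MonoidHom.inv_apply, inv_pow, h1, inv_one]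
    · rw [MonoidHom.inv_apply, h2 γ hγ, inv_one]
    · rw [MonoidHom.inv_apply, h3 γ hγ, inv_one]

lemma mem_tdmXa {m : ℕ} {χ : Γ →* ℂˣ} : χ ∈ tdmXa Par m ↔
    (∀ γ, χ γ ^ m = 1) ∧ (∀ γ ∈ Par, χ γ = 1) ∧ (∀ γ, IsOfFinOrder γ → χ γ = 1) := Iff.rfl

/-- the character `γ ↦ exp (2πi (φ γ mod p ^ k) / p ^ k)` -/
def tdmRedFun (k : ℕ) (φ : Additive Γ →+ ℤ_[p]) : Γ →* ℂˣ where
  toFun γ := tdmE p k (Multiplicative.ofAdd (φ (Additive.ofMul γ)))
  map_one' := by rw [ofMul_one, map_zero, ofAdd_zero, map_one]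
  map_mul' γ δ := by rw [ofMul_mul, map_add, ofAdd_add, map_mul]

lemma tdmRedFun_apply (k : ℕ) (φ : Additive Γ →+ ℤ_[p]) (γ : Γ) :
    tdmRedFun p k φ γ = tdmE p k (Multiplicative.ofAdd (φ (Additive.ofMul γ))) := rfl

lemma tdmRedFun_mem (k : ℕ) {φ : Additive Γ →+ ℤ_[p]} (hφ : φ ∈ tdmTa p Par) :
    tdmRedFun p k φ ∈ tdmXa Par (p ^ k) := by
  refine ⟨fun γ => tdmE_pow_eq_one p k _, fun γ hγ => ?_, fun γ hγ => ?_⟩
  · rw [tdmRedFun_apply, hφ γ hγ, ofAdd_zero, map_one]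
  · have h0 : φ (Additive.ofMul γ) = 0 := by
      obtain ⟨n, hn, hγn⟩ := isOfFinOrder_iff_pow_eq_one.1 hγ
      have h1 : n • φ (Additive.ofMul γ) = 0 := by
        rw [← map_nsmul, ← ofMul_pow, hγn, ofMul_one, map_zero]
      rw [nsmul_eq_mul] at h1
      rcases mul_eq_zero.1 h1 with h | h
      · exact absurd (Nat.cast_eq_zero.1 h) hn.ne'
      · exact h
    rw [tdmRedFun_apply, h0, ofAdd_zero, map_one]

/-- reduction modulo `p ^ k` -/
def tdmRed (k : ℕ) : ↥(tdmTa p Par) →+ Additive ↥(tdmXa Par (p ^ k)) where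
  toFun φ := Additive.ofMul ⟨tdmRedFun p k φ.1, tdmRedFun_mem p Par k φ.2⟩
  map_zero' := by
    apply Additive.toMul.injective
    apply Subtype.ext
    apply MonoidHom.ext
    intro γ
    change tdmE p k (Multiplicative.ofAdd ((0 : Additive Γ →+ ℤ_[p]) (Additive.ofMul γ))) = 1
    rw [AddMonoidHom.zero_apply, ofAdd_zero, map_one]
  map_add' φ ψ := by
    apply Additive.toMul.injective
    apply Subtype.ext
    apply MonoidHom.ext
    intro γ
    change tdmE p k (Multiplicative.ofAdd ((φ.1 + ψ.1) (Additive.ofMul γ))) =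
      tdmE p k (Multiplicative.ofAdd (φ.1 (Additive.ofMul γ))) *
        tdmE p k (Multiplicative.ofAdd (ψ.1 (Additive.ofMul γ)))
    rw [AddMonoidHom.add_apply, ofAdd_add, map_mul]

lemma tdmRed_apply (k : ℕ) (φ : ↥(tdmTa p Par)) (γ : Γ) :
    ((Additive.toMul (tdmRed p Par k φ) : ↥(tdmXa Par (p ^ k))) : Γ →* ℂˣ) γ =
      tdmE p k (Multiplicative.ofAdd (φ.1 (Additive.ofMul γ))) := rfl

/-- the transition map `χ ↦ χ ^ p` -/
def tdmPi (k : ℕ) : Additive ↥(tdmXa Par (p ^ (k + 1))) →+ Additive ↥(tdmXa Par (p ^ k)) where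
  toFun χ := Additive.ofMul ⟨(Additive.toMul χ).1 ^ p, by
    obtain ⟨h1, h2, h3⟩ := (Additive.toMul χ).2
    refine ⟨fun γ => ?_, fun γ hγ => ?_, fun γ hγ => ?_⟩
    · rw [MonoidHom.pow_apply, ← pow_mul, ← pow_succ']
      exact h1 γ
    · rw [MonoidHom.pow_apply, h2 γ hγ, one_pow]
    · rw [MonoidHom.pow_apply, h3 γ hγ, one_pow]⟩
  map_zero' := by
    apply Additive.toMul.injective
    apply Subtype.ext
    apply MonoidHom.ext
    intro γ
    change ((1 : Γ →* ℂˣ) γ) ^ p = 1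
    rw [MonoidHom.one_apply, one_pow]
  map_add' χ ψ := by
    apply Additive.toMul.injective
    apply Subtype.ext
    apply MonoidHom.ext
    intro γ
    change ((Additive.toMul χ).1 γ * (Additive.toMul ψ).1 γ) ^ p =
      (Additive.toMul χ).1 γ ^ p * (Additive.toMul ψ).1 γ ^ p
    rw [mul_pow]

lemma tdmPi_apply (k : ℕ) (χ : Additive ↥(tdmXa Par (p ^ (k + 1)))) (γ : Γ) :
    ((Additive.toMul (tdmPi p Par k χ) : ↥(tdmXa Par (p ^ k))) : Γ →* ℂˣ) γ =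
      ((Additive.toMul χ : ↥(tdmXa Par (p ^ (k + 1)))) : Γ →* ℂˣ) γ ^ p := rfl

lemma tdm_ext_X {m : ℕ} {x y : Additive ↥(tdmXa Par m)}
    (h : ∀ γ, ((Additive.toMul x : ↥(tdmXa Par m)) : Γ →* ℂˣ) γ =
      ((Additive.toMul y : ↥(tdmXa Par m)) : Γ →* ℂˣ) γ) : x = y := by
  apply Additive.toMul.injective
  apply Subtype.ext
  exact MonoidHom.ext h

/-- **the tower**: `tdmTa p Par` is the inverse limit of the character groups -/
def tdmTower : TeTower p ↥(tdmTa p Par) (fun k => Additive ↥(tdmXa Par (p ^ k))) where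
  π := tdmPi p Par
  ι := tdmRed p Par
  π_ι k φ := by
    apply tdm_ext_X
    intro γ
    rw [tdmPi_apply, tdmRed_apply, tdmRed_apply, tdmE_succ_pow]
  ι_pow_smul k ψ := by
    apply tdm_ext_X
    intro γ
    rw [tdmRed_apply]
    change _ = (1 : ℂˣ)
    rw [tdmE_eq_one_iff]
    exact ⟨ψ.1 (Additive.ofMul γ), rfl⟩
  exists_of_ι_eq_zero k φ hφ := by
    have h1 : ∀ x : Additive Γ, ∃ b : ℤ_[p], φ.1 x = (p : ℤ_[p]) ^ k * b := by
      intro x
      rw [← tdmE_eq_one_iff]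
      have := congrArg (fun χ : Additive ↥(tdmXa Par (p ^ k)) =>
        ((Additive.toMul χ : ↥(tdmXa Par (p ^ k))) : Γ →* ℂˣ) (Additive.toMul x)) hφ
      exact this
    choose b hb using h1
    have hp0 : (p : ℤ_[p]) ^ k ≠ 0 := pow_ne_zero k (Nat.cast_ne_zero.2 (Fact.out : p.Prime).ne_zero)
    have hadd : ∀ x y, b (x + y) = b x + b y := by
      intro x y
      apply mul_left_cancel₀ hp0
      rw [mul_add, ← hb, ← hb, ← hb, map_add]
    refine ⟨⟨AddMonoidHom.mk' b hadd, fun γ hγ => ?_⟩, ?_⟩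
    · apply mul_left_cancel₀ hp0
      rw [AddMonoidHom.mk'_apply, ← hb, mul_zero]
      exact φ.2 γ hγ
    · apply Subtype.ext
      apply AddMonoidHom.ext
      intro x
      change φ.1 x = (p : ℤ_[p]) ^ k • b x
      rw [smul_eq_mul, ← hb]
  exists_ι_eq w hw := by
    have h1 : ∀ γ : Γ, ∃ a : ℤ_[p], ∀ k, tdmE p k (Multiplicative.ofAdd a) =
        ((Additive.toMul (w k) : ↥(tdmXa Par (p ^ k))) : Γ →* ℂˣ) γ := by
      intro γ
      apply tdm_exists_lim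
      · intro k
        exact (Additive.toMul (w k)).2.1 γ
      · intro k
        rw [← tdmPi_apply, hw k]
    choose a ha using h1
    have hadd : ∀ x y : Additive Γ, a (Additive.toMul (x + y)) =
        a (Additive.toMul x) + a (Additive.toMul y) := by
      intro x y
      rw [← sub_eq_zero]
      apply tdm_eq_zero_of_forall_tdmE p
      intro k
      rw [sub_eq_add_neg, ofAdd_add, map_mul, ofAdd_neg, map_inv, mul_inv_eq_one, ofAdd_add,
        map_mul, ha, ha, ha, toMul_add, map_mul]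
    refine ⟨⟨AddMonoidHom.mk' (fun x => a (Additive.toMul x)) hadd, fun γ hγ => ?_⟩, fun k => ?_⟩
    · apply tdm_eq_zero_of_forall_tdmE p
      intro k
      rw [AddMonoidHom.mk'_apply, toMul_ofMul, ha]
      exact (Additive.toMul (w k)).2.2.1 γ hγ
    · apply tdm_ext_X
      intro γ
      rw [tdmRed_apply]
      exact ha γ k


section FG

variable [hΓ : Group.FG Γ]

/-- evaluation on a finite generating set -/
def tdmEval (S : Finset Γ) : (Additive Γ →+ ℤ_[p]) →ₗ[ℤ_[p]] (S → ℤ_[p]) where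
  toFun φ s := φ (Additive.ofMul s.1)
  map_add' φ ψ := rfl
  map_smul' a φ := rfl

lemma tdmEval_injective {S : Finset Γ} (hS : Subgroup.closure (S : Set Γ) = ⊤) :
    Function.Injective (tdmEval p S) := by
  rw [injective_iff_map_eq_zero]
  intro φ hφ
  have h1 : ∀ γ ∈ Subgroup.closure (S : Set Γ), φ (Additive.ofMul γ) = 0 := by
    intro γ hγ
    induction hγ using Subgroup.closure_induction with
    | mem x hx => exact congrFun hφ ⟨x, hx⟩
    | one => rw [ofMul_one, map_zero]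
    | mul x y _ _ hx hy => rw [ofMul_mul, map_add, hx, hy, add_zero]
    | inv x _ hx => rw [ofMul_inv, map_neg, hx, neg_zero]
  apply AddMonoidHom.ext
  intro x
  have := h1 (Additive.toMul x) (by rw [hS]; exact Subgroup.mem_top _)
  exact this

instance tdm_isNoetherian_hom : IsNoetherian ℤ_[p] (Additive Γ →+ ℤ_[p]) := by
  obtain ⟨S, hS⟩ := Group.fg_def.1 hΓ
  exact isNoetherian_of_injective (tdmEval p S) (tdmEval_injective p hS)

instance tdm_isTorsionFree_hom : Module.IsTorsionFree ℤ_[p] (Additive Γ →+ ℤ_[p]) := by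
  obtain ⟨S, hS⟩ := Group.fg_def.1 hΓ
  exact Function.Injective.moduleIsTorsionFree (tdmEval p S) (tdmEval_injective p hS)
    (fun r m => map_smul _ r m)

instance tdm_finite_T : Module.Finite ℤ_[p] ↥(tdmTa p Par) := inferInstance

instance tdm_free_T : Module.Free ℤ_[p] ↥(tdmTa p Par) := by
  haveI : Module.IsTorsionFree ℤ_[p] ↥(tdmTa p Par) := inferInstance
  exact Module.free_of_finite_type_torsion_free' (R := ℤ_[p]) (M := ↥(tdmTa p Par))

end FG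

end Limit


section Gamma0

open CongruenceSubgroup ModularCurve.Period MatrixGroups

instance tdm_fg_SL2Z : Group.FG SL(2, ℤ) := by
  rw [Group.fg_iff]
  exact ⟨{ModularGroup.S, ModularGroup.T}, SpecialLinearGroup.SL2Z_generators,
    Set.toFinite _⟩

instance tdm_fg_Gamma0 (N : ℕ) [NeZero N] : Group.FG ↥(Gamma0 N) := inferInstance

variable (p : ℕ) [Fact p.Prime] (N : ℕ)

/-- the elements of `Γ₀(N)` with `tr² = 4` -/
def tdmPar : Set ↥(Gamma0 N) :=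
  {γ | ((γ : SL(2, ℤ)) : Matrix (Fin 2) (Fin 2) ℤ).trace ^ 2 = 4}

lemma tdmTa_eq_parabolicHoms :
    tdmTa p (tdmPar N) = parabolicHoms ℤ_[p] (Gamma0 N) ℤ_[p] := rfl

lemma tdmXa_eq_tdmX (m : ℕ) : tdmXa (tdmPar N) m = tdmX N m := rfl

instance tdm_finite_parabolicHoms [NeZero N] :
    Module.Finite ℤ_[p] ↥(parabolicHoms ℤ_[p] (Gamma0 N) ℤ_[p]) :=
  tdm_finite_T p (tdmPar N)

instance tdm_free_parabolicHoms [NeZero N] :
    Module.Free ℤ_[p] ↥(parabolicHoms ℤ_[p] (Gamma0 N) ℤ_[p]) :=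
  tdm_free_T p (tdmPar N)

/-- **(M8)**: `parabolicHoms ℤ_p Γ₀(N) ℤ_p` is the inverse limit of the groups `X_{p^k}` -/
def tdmTowerN : TeTower p ↥(parabolicHoms ℤ_[p] (Gamma0 N) ℤ_[p])
    (fun k => Additive ↥(tdmX N (p ^ k))) :=
  tdmTower p (tdmPar N)

lemma tdmTowerN_ι_apply (k : ℕ) (φ : ↥(parabolicHoms ℤ_[p] (Gamma0 N) ℤ_[p])) (γ : Gamma0 N) :
    ((Additive.toMul ((tdmTowerN p N).ι k φ) : ↥(tdmX N (p ^ k))) : Gamma0 N →* ℂˣ) γ =
      tdmE p k (Multiplicative.ofAdd (φ.1 (Additive.ofMul γ))) := rfl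

lemma tdmTowerN_π_apply (k : ℕ) (χ : Additive ↥(tdmX N (p ^ (k + 1)))) (γ : Gamma0 N) :
    ((Additive.toMul ((tdmTowerN p N).π k χ) : ↥(tdmX N (p ^ k))) : Gamma0 N →* ℂˣ) γ =
      ((Additive.toMul χ : ↥(tdmX N (p ^ (k + 1)))) : Gamma0 N →* ℂˣ) γ ^ p := rfl

end Gamma0

end

end Fermat.Agent.T1
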