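/-
T1-D (WP-L): local lemmas for the monodromy characters.

* `tdm_const_of_fixed`: if `γ ∈ SL(2, ℤ)` fixes `τ₀` and `g ∘ γ = c • g` for a nonzero meromorphic
  function `g`, then `c = ((c τ₀ + d)⁻²) ^ ord_τ₀ g` (comparison of trailing coefficients).
* `tdm_const_of_cusp`: if `V` is continuous on `Im τ > C`, `V ^ m` tends to a nonzero limit at `i∞`
  and `V (τ + h) = c V(τ)`, then `c = 1`.
-/
import Mathlib
import Fermat.Agent.Lib.T1.Mono.Mer

set_option autoImplicit false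

namespace Fermat.Agent.T1

open Complex Set Filter Topology UpperHalfPlane Matrix MatrixGroups
open scoped Manifold
open Fermat.Agent.S24Lib (holH ordAt ordValuation)

/-! ### Trailing coefficients and Möbius transformations -/

/-- the trailing coefficient of `z ↦ g z - g τ` at `τ` is the derivative `det g / (c τ + d)²` -/
theorem tdm_trailing_smul {g : GL (Fin 2) ℝ} (hg : 0 < g.val.det) (τ : ℍ) :
    meromorphicTrailingCoeffAt (fun z : ℂ => (↑(g • ofComplex z) : ℂ) - ↑(g • τ)) (τ : ℂ)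
      = (g.val.det : ℂ) / denom g τ ^ 2 := by
  have hd : denom g τ ≠ 0 := denom_ne_zero g τ
  have hdet : (g.val.det : ℂ) ≠ 0 := by exact_mod_cast hg.ne'
  have han : AnalyticAt ℂ (fun z : ℂ => (g.val.det : ℂ) / (denom g z * denom g τ)) (τ : ℂ) := by
    apply AnalyticAt.div analyticAt_const
    · apply AnalyticAt.mul _ analyticAt_const
      unfold denom
      fun_prop
    · exact mul_ne_zero hd hd
  have h1 := han.meromorphicTrailingCoeffAt_of_ne_zero_of_eq_nhdsNE (n := 1)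
    (f := fun z : ℂ => (↑(g • ofComplex z) : ℂ) - ↑(g • τ))
    (div_ne_zero hdet (mul_ne_zero hd hd)) ?_
  · rw [h1, sq]
  · have hopen : {z : ℂ | 0 < z.im} ∈ 𝓝 (τ : ℂ) := isOpen_upperHalfPlaneSet.mem_nhds τ.im_pos
    filter_upwards [nhdsWithin_le_nhds hopen] with z hz
    have hz' : 0 < z.im := hz
    rw [ofComplex_apply_of_im_pos hz', coe_smul_of_det_pos hg, coe_smul_of_det_pos hg]
    have hdz : denom g (⟨z, hz'⟩ : ℍ) ≠ 0 := denom_ne_zero g _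
    have hdz' : denom g z ≠ 0 := hdz
    rw [zpow_one, smul_eq_mul]
    have e1 : num g (↑(⟨z, hz'⟩ : ℍ)) = num g z := rfl
    have e2 : denom g (↑(⟨z, hz'⟩ : ℍ)) = denom g z := rfl
    rw [e1, e2]
    field_simp
    simp only [num, denom, Matrix.det_fin_two]
    push_cast
    ring

/-- Möbius transformations are not locally constant -/
theorem tdm_not_eventuallyConst_smul {g : GL (Fin 2) ℝ} (hg : 0 < g.val.det) (τ : ℍ) :
    ¬ EventuallyConst (fun z : ℂ => (↑(g • ofComplex z) : ℂ)) (𝓝 (τ : ℂ)) := by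
  intro h
  rw [eventuallyConst_iff_exists_eventuallyEq] at h
  obtain ⟨c, hc⟩ := h
  have h1 := hc.deriv_eq
  rw [deriv_const] at h1
  exact τ.deriv_smul_ne_zero hg h1

/-- trailing coefficient of `f ∘ γ` at a fixed point `τ₀` of `γ` -/
theorem tdm_trailing_comp_SL (γ : SL(2, ℤ)) (τ₀ : ℍ) (hγ : γ • τ₀ = τ₀) (f : holH) :
    meromorphicTrailingCoeffAt ((tdmHolSL γ f : ℍ → ℂ) ∘ ofComplex) (τ₀ : ℂ)
      = ((1 : ℂ) / denom γ τ₀ ^ 2) ^ (meromorphicOrderAt ((f : ℍ → ℂ) ∘ ofComplex) (τ₀ : ℂ)).untop₀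
        * meromorphicTrailingCoeffAt ((f : ℍ → ℂ) ∘ ofComplex) (τ₀ : ℂ) := by
  have hg : 0 < ((γ : GL (Fin 2) ℝ)).val.det := by
    have := tdm_det_SL_pos γ
    rwa [Matrix.GeneralLinearGroup.val_det_apply] at this
  set M : ℂ → ℂ := fun z => (↑((γ : GL (Fin 2) ℝ) • ofComplex z) : ℂ) with hM
  have hMτ : M (τ₀ : ℂ) = (τ₀ : ℂ) := by
    show (↑((γ : GL (Fin 2) ℝ) • ofComplex (τ₀ : ℂ)) : ℂ) = τ₀
    rw [ofComplex_apply]
    have : (γ : GL (Fin 2) ℝ) • τ₀ = γ • τ₀ := rfl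
    rw [this, hγ]
  have hcomp : ((tdmHolSL γ f : ℍ → ℂ) ∘ ofComplex) = ((f : ℍ → ℂ) ∘ ofComplex) ∘ M := by
    funext z
    simp only [Function.comp_apply, tdmHolSL_apply, hM, ofComplex_apply]
    rfl
  have hfm : MeromorphicAt ((f : ℍ → ℂ) ∘ ofComplex) (M (τ₀ : ℂ)) := by
    rw [hMτ]
    exact (Fermat.Agent.S24Lib.analyticAt_comp_ofComplex_of_mdiff f.2 τ₀).meromorphicAt
  have h1 := hfm.meromorphicTrailingCoeffAt_comp (τ₀.analyticAt_smul hg)
    (tdm_not_eventuallyConst_smul hg τ₀)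
  rw [hcomp, h1, hMτ, smul_eq_mul]
  congr 2
  have h2 := tdm_trailing_smul hg τ₀
  have h3 : (fun z : ℂ => M z - (τ₀ : ℂ)) = fun z : ℂ =>
      (↑((γ : GL (Fin 2) ℝ) • ofComplex z) : ℂ) - ↑((γ : GL (Fin 2) ℝ) • τ₀) := by
    funext z
    have : (γ : GL (Fin 2) ℝ) • τ₀ = γ • τ₀ := rfl
    rw [this, hγ]
  rw [h3, h2]
  have h4 : (((γ : GL (Fin 2) ℝ)).val.det : ℂ) = 1 := by
    have : ((γ : GL (Fin 2) ℝ)).val.det = 1 := by
      have := Matrix.SpecialLinearGroup.det_coe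
        (Matrix.SpecialLinearGroup.map (Int.castRingHom ℝ) γ)
      simpa using this
    rw [this]; simp
  rw [h4]

/-- order and trailing coefficient of a nonzero holomorphic function -/
theorem tdm_hol_order_untop (f : holH) (hf : f ≠ 0) (τ : ℍ) :
    (meromorphicOrderAt ((f : ℍ → ℂ) ∘ ofComplex) (τ : ℂ)).untop₀
      = ((ordAt (f : ℍ → ℂ) τ).toNat : ℤ) ∧
    meromorphicTrailingCoeffAt ((f : ℍ → ℂ) ∘ ofComplex) (τ : ℂ) ≠ 0 := by
  have han := Fermat.Agent.S24Lib.analyticAt_comp_ofComplex_of_mdiff f.2 τ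
  have hne : ordAt (f : ℍ → ℂ) τ ≠ ⊤ := Fermat.Agent.S24Lib.ordAt_ne_top hf τ
  have h1 : meromorphicOrderAt ((f : ℍ → ℂ) ∘ ofComplex) (τ : ℂ)
      = (ordAt (f : ℍ → ℂ) τ).map (↑) := han.meromorphicOrderAt_eq
  constructor
  · rw [h1]
    obtain ⟨n, hn⟩ := ENat.ne_top_iff_exists.mp hne
    rw [← hn]
    simp
  · apply han.meromorphicAt.meromorphicTrailingCoeffAt_ne_zero
    rw [h1]
    obtain ⟨n, hn⟩ := ENat.ne_top_iff_exists.mp hne
    rw [← hn]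
    simp

/-- **WP-L (elliptic points)**: if `γ` fixes `τ₀` and `g ∘ γ = c • g`, then
`c = ((c τ₀ + d)⁻²) ^ ord_τ₀ g`. -/
theorem tdm_const_of_fixed (γ : SL(2, ℤ)) (τ₀ : ℍ) (hγ : γ • τ₀ = τ₀) (g : tdmMer) (hg : g ≠ 0)
    (c : ℂ) (h : tdmSL γ g = c • g) :
    c = ((1 : ℂ) / denom γ τ₀ ^ 2) ^ (tdmOrd τ₀ g) := by
  obtain ⟨a, b, hb, rfl⟩ := IsFractionRing.div_surjective (A := holH) g
  have hb0 : b ≠ 0 := nonZeroDivisors.ne_zero hb
  have ha0 : a ≠ 0 := by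
    rintro rfl
    apply hg
    simp
  have hane : tdmOfHol a ≠ 0 := fun h => ha0 (tdmOfHol_injective (h.trans (map_zero _).symm))
  have hbne : tdmOfHol b ≠ 0 := fun h => hb0 (tdmOfHol_injective (h.trans (map_zero _).symm))
  have hbγ0 : tdmHolSL γ b ≠ 0 := fun h =>
    hb0 (tdmHolComp_injective _ (tdm_det_SL_pos γ) (h.trans (map_zero _).symm))
  have hbγne : tdmOfHol (tdmHolSL γ b) ≠ 0 :=
    fun h => hbγ0 (tdmOfHol_injective (h.trans (map_zero _).symm))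
  -- the functional equation in `holH`
  have hfun : tdmHolSL γ a * b = algebraMap ℂ holH c * (a * tdmHolSL γ b) := by
    apply tdmOfHol_injective
    rw [map_div₀, tdmSL_ofHol, tdmSL_ofHol, Algebra.smul_def,
      IsScalarTower.algebraMap_apply ℂ holH tdmMer] at h
    rw [map_mul, map_mul, map_mul]
    field_simp at h
    linear_combination h
  -- pointwise, composed with `ofComplex`
  have hpt : ((tdmHolSL γ a : ℍ → ℂ) ∘ ofComplex) * ((b : ℍ → ℂ) ∘ ofComplex)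
      = (fun _ : ℂ => c) * (((a : ℍ → ℂ) ∘ ofComplex) * ((tdmHolSL γ b : ℍ → ℂ) ∘ ofComplex)) := by
    funext z
    have := congrArg (fun x : holH => (x : ℍ → ℂ) (ofComplex z)) hfun
    exact this
  have hA := Fermat.Agent.S24Lib.analyticAt_comp_ofComplex_of_mdiff a.2 τ₀
  have hB := Fermat.Agent.S24Lib.analyticAt_comp_ofComplex_of_mdiff b.2 τ₀
  have hAγ := Fermat.Agent.S24Lib.analyticAt_comp_ofComplex_of_mdiff (tdmHolSL γ a).2 τ₀
  have hBγ := Fermat.Agent.S24Lib.analyticAt_comp_ofComplex_of_mdiff (tdmHolSL γ b).2 τ₀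
  have htc := congrArg (fun F => meromorphicTrailingCoeffAt F (τ₀ : ℂ)) hpt
  beta_reduce at htc
  rw [hAγ.meromorphicAt.meromorphicTrailingCoeffAt_mul hB.meromorphicAt,
    (MeromorphicAt.const c _).meromorphicTrailingCoeffAt_mul
      (hA.meromorphicAt.mul hBγ.meromorphicAt),
    hA.meromorphicAt.meromorphicTrailingCoeffAt_mul hBγ.meromorphicAt,
    meromorphicTrailingCoeffAt_const, tdm_trailing_comp_SL γ τ₀ hγ a,
    tdm_trailing_comp_SL γ τ₀ hγ b, (tdm_hol_order_untop a ha0 τ₀).1,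
    (tdm_hol_order_untop b hb0 τ₀).1] at htc
  have htA := (tdm_hol_order_untop a ha0 τ₀).2
  have htB := (tdm_hol_order_untop b hb0 τ₀).2
  have hμ : (1 : ℂ) / denom γ τ₀ ^ 2 ≠ 0 :=
    div_ne_zero one_ne_zero (pow_ne_zero _ (denom_ne_zero γ τ₀))
  rw [tdmOrd_div τ₀ hane hbne, tdmOrd_ofHol τ₀ ha0, tdmOrd_ofHol τ₀ hb0, zpow_sub₀ hμ]
  rw [eq_div_iff (zpow_ne_zero _ hμ)]
  have h5 : c * ((1 : ℂ) / denom γ τ₀ ^ 2) ^ ((ordAt (b : ℍ → ℂ) τ₀).toNat : ℤ) *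
      (meromorphicTrailingCoeffAt ((a : ℍ → ℂ) ∘ ofComplex) (τ₀ : ℂ) *
        meromorphicTrailingCoeffAt ((b : ℍ → ℂ) ∘ ofComplex) (τ₀ : ℂ))
      = ((1 : ℂ) / denom γ τ₀ ^ 2) ^ ((ordAt (a : ℍ → ℂ) τ₀).toNat : ℤ) *
      (meromorphicTrailingCoeffAt ((a : ℍ → ℂ) ∘ ofComplex) (τ₀ : ℂ) *
        meromorphicTrailingCoeffAt ((b : ℍ → ℂ) ∘ ofComplex) (τ₀ : ℂ)) := by
    linear_combination -htc
  exact mul_right_cancel₀ (mul_ne_zero htA htB) h5

/-! ### The multiplier character of a stabiliser -/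

/-- cocycle relation at a fixed point -/
theorem tdm_denom_mul_of_fixed (γ δ : SL(2, ℤ)) (τ₀ : ℍ) (hδ : δ • τ₀ = τ₀) :
    denom ((γ * δ : SL(2, ℤ)) : GL (Fin 2) ℝ) τ₀ = denom γ τ₀ * denom δ τ₀ := by
  have hcoe : ((γ * δ : SL(2, ℤ)) : GL (Fin 2) ℝ) = (γ : GL (Fin 2) ℝ) * (δ : GL (Fin 2) ℝ) := by
    simp
  rw [hcoe, denom_cocycle _ _ τ₀.im_ne_zero]
  have hpos : 0 < ((δ : GL (Fin 2) ℝ)).det.val := tdm_det_SL_pos δ
  have h1 : num (δ : GL (Fin 2) ℝ) τ₀ / denom (δ : GL (Fin 2) ℝ) τ₀ = (τ₀ : ℂ) := by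
    rw [← coe_smul_of_det_pos hpos]
    have : (δ : GL (Fin 2) ℝ) • τ₀ = δ • τ₀ := rfl
    rw [this, hδ]
  rw [h1]

/-- the multiplier `γ ↦ (c τ₀ + d)⁻²` on the stabiliser of `τ₀` -/
noncomputable def tdmMu (τ₀ : ℍ) : MulAction.stabilizer SL(2, ℤ) τ₀ →* ℂˣ where
  toFun γ := Units.mk0 ((1 : ℂ) / denom ((γ : SL(2, ℤ)) : GL (Fin 2) ℝ) τ₀ ^ 2)
    (div_ne_zero one_ne_zero (pow_ne_zero _ (denom_ne_zero _ τ₀)))
  map_one' := by
    apply Units.ext
    simp [denom_one]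
  map_mul' γ δ := by
    apply Units.ext
    have hδ : (δ : SL(2, ℤ)) • τ₀ = τ₀ := δ.2
    simp only [Units.val_mk0, Units.val_mul, Subgroup.coe_mul]
    rw [tdm_denom_mul_of_fixed _ _ τ₀ hδ, mul_pow]
    have h1 := denom_ne_zero ((γ : SL(2, ℤ)) : GL (Fin 2) ℝ) τ₀
    have h2 := denom_ne_zero ((δ : SL(2, ℤ)) : GL (Fin 2) ℝ) τ₀
    field_simp

theorem tdmMu_val (τ₀ : ℍ) (γ : MulAction.stabilizer SL(2, ℤ) τ₀) :
    ((tdmMu τ₀ γ : ℂˣ) : ℂ) = (1 : ℂ) / denom ((γ : SL(2, ℤ)) : GL (Fin 2) ℝ) τ₀ ^ 2 := rfl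

/-- **WP-L**, multiplier form: `g ∘ γ = c • g` forces `c = μ(γ) ^ ord_τ₀ g`. -/
theorem tdm_const_eq_mu_zpow (τ₀ : ℍ) (γ : MulAction.stabilizer SL(2, ℤ) τ₀) (g : tdmMer)
    (hg : g ≠ 0) (c : ℂ) (h : tdmSL (γ : SL(2, ℤ)) g = c • g) :
    c = ((tdmMu τ₀ γ ^ (tdmOrd τ₀ g) : ℂˣ) : ℂ) := by
  rw [Units.val_zpow_eq_zpow_val, tdmMu_val]
  exact tdm_const_of_fixed _ τ₀ γ.2 g hg c h

/-- if `g` is invariant under `γ` fixing `τ₀`, the order of the multiplier of `γ` divides the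
order of `g` at `τ₀` -/
theorem tdm_orderOf_mu_dvd (τ₀ : ℍ) (γ : MulAction.stabilizer SL(2, ℤ) τ₀) (g : tdmMer)
    (hg : g ≠ 0) (h : tdmSL (γ : SL(2, ℤ)) g = g) :
    (orderOf (tdmMu τ₀ γ) : ℤ) ∣ tdmOrd τ₀ g := by
  have h1 := tdm_const_eq_mu_zpow τ₀ γ g hg 1 (by rw [one_smul]; exact h)
  rw [orderOf_dvd_iff_zpow_eq_one]
  apply Units.ext
  rw [← h1]
  rfl

theorem tdm_normSq_denom_of_fixed (γ : SL(2, ℤ)) (τ₀ : ℍ) (hγ : γ • τ₀ = τ₀) :
    Complex.normSq (denom γ τ₀) = 1 := by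
  have h1 := ModularGroup.im_smul_eq_div_normSq γ τ₀
  rw [hγ] at h1
  have h2 : Complex.normSq (denom γ τ₀) ≠ 0 := by
    rw [Ne, Complex.normSq_eq_zero]
    exact denom_ne_zero γ τ₀
  have h3 : τ₀.im ≠ 0 := τ₀.im_ne_zero
  field_simp at h1
  exact h1

/-- the multiplier has finite range -/
theorem tdm_finite_range_mu (τ₀ : ℍ) : (Set.range (tdmMu τ₀)).Finite := by
  -- the finite set of possible bottom rows
  obtain ⟨n, hn⟩ := exists_nat_ge (1 + (1 + |τ₀.re|) / τ₀.im)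
  have hy : 0 < τ₀.im := τ₀.im_pos
  have hbound : ∀ c d : ℤ, Complex.normSq ((c : ℂ) * τ₀ + d) = 1 →
      c ∈ Finset.Icc (-(n : ℤ)) n ∧ d ∈ Finset.Icc (-(n : ℤ)) n := by
    intro c d h
    rw [Complex.normSq_apply] at h
    simp only [Complex.add_re, Complex.mul_re, Complex.intCast_re, Complex.intCast_im, zero_mul,
      sub_zero, Complex.add_im, Complex.mul_im, add_zero, UpperHalfPlane.coe_re,
      UpperHalfPlane.coe_im] at h
    have hc2 : ((c : ℝ) * τ₀.im) ^ 2 ≤ 1 := by nlinarith [sq_nonneg ((c : ℝ) * τ₀.re + d)]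
    have hd2 : ((c : ℝ) * τ₀.re + d) ^ 2 ≤ 1 := by nlinarith [sq_nonneg ((c : ℝ) * τ₀.im)]
    have hc : |(c : ℝ)| * τ₀.im ≤ 1 := by
      have := abs_le_one_iff_mul_self_le_one.mpr (by nlinarith : (c : ℝ) * τ₀.im * ((c : ℝ) * τ₀.im) ≤ 1)
      rwa [abs_mul, abs_of_pos hy] at this
    have hc' : |(c : ℝ)| ≤ 1 / τ₀.im := by
      rw [le_div_iff₀ hy]; exact hc
    have hd : |(c : ℝ) * τ₀.re + d| ≤ 1 :=
      abs_le_one_iff_mul_self_le_one.mpr (by nlinarith)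
    have hd' : |(d : ℝ)| ≤ 1 + |(c : ℝ)| * |τ₀.re| := by
      have h1 : (d : ℝ) = ((c : ℝ) * τ₀.re + d) - (c : ℝ) * τ₀.re := by ring
      rw [h1]
      calc |(c : ℝ) * τ₀.re + d - (c : ℝ) * τ₀.re|
          ≤ |(c : ℝ) * τ₀.re + d| + |(c : ℝ) * τ₀.re| := abs_sub _ _
        _ ≤ 1 + |(c : ℝ)| * |τ₀.re| := by rw [abs_mul]; linarith
    have hR1 : |(c : ℝ)| ≤ n := by
      refine le_trans hc' (le_trans ?_ hn)
      have : 1 / τ₀.im ≤ (1 + |τ₀.re|) / τ₀.im :=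
        div_le_div_of_nonneg_right (by linarith [abs_nonneg τ₀.re]) hy.le
      linarith
    have hR2 : |(d : ℝ)| ≤ n := by
      refine le_trans hd' (le_trans ?_ hn)
      have h2 : |(c : ℝ)| * |τ₀.re| ≤ 1 / τ₀.im * |τ₀.re| :=
        mul_le_mul_of_nonneg_right hc' (abs_nonneg _)
      have h3 : (1 + |τ₀.re|) / τ₀.im = 1 / τ₀.im + 1 / τ₀.im * |τ₀.re| := by ring
      have h4 : 0 ≤ 1 / τ₀.im := by positivity
      linarith
    rw [abs_le] at hR1 hR2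
    simp only [Finset.mem_Icc]
    refine ⟨⟨?_, ?_⟩, ⟨?_, ?_⟩⟩
    · exact_mod_cast hR1.1
    · exact_mod_cast hR1.2
    · exact_mod_cast hR2.1
    · exact_mod_cast hR2.2
  let S : Finset (ℤ × ℤ) := Finset.Icc (-(n : ℤ)) n ×ˢ Finset.Icc (-(n : ℤ)) n
  have hsub : Set.range (fun γ : MulAction.stabilizer SL(2, ℤ) τ₀ => ((tdmMu τ₀ γ : ℂˣ) : ℂ))
      ⊆ (fun p : ℤ × ℤ => (1 : ℂ) / ((p.1 : ℂ) * τ₀ + p.2) ^ 2) '' (S : Set (ℤ × ℤ)) := by
    rintro _ ⟨γ, rfl⟩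
    have h1 := tdm_normSq_denom_of_fixed (γ : SL(2, ℤ)) τ₀ γ.2
    have h2 : denom ((γ : SL(2, ℤ)) : GL (Fin 2) ℝ) τ₀
        = (((γ : SL(2, ℤ)) 1 0 : ℤ) : ℂ) * τ₀ + (((γ : SL(2, ℤ)) 1 1 : ℤ) : ℂ) :=
      ModularGroup.denom_apply _ _
    rw [h2] at h1
    obtain ⟨hc, hd⟩ := hbound _ _ h1
    refine ⟨(((γ : SL(2, ℤ)) 1 0 : ℤ), ((γ : SL(2, ℤ)) 1 1 : ℤ)), ?_, ?_⟩
    · simp only [S, Finset.coe_product, Set.mem_prod, Finset.mem_coe]
      exact ⟨hc, hd⟩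
    · show (1 : ℂ) / ((((γ : SL(2, ℤ)) 1 0 : ℤ) : ℂ) * τ₀ + (((γ : SL(2, ℤ)) 1 1 : ℤ) : ℂ)) ^ 2
        = ((tdmMu τ₀ γ : ℂˣ) : ℂ)
      rw [tdmMu_val, h2]
  have hfin := (S.finite_toSet.image _).subset hsub
  have hinj : Function.Injective (fun u : ℂˣ => (u : ℂ)) := Units.val_injective
  have h3 : (Set.range (tdmMu τ₀)) ⊆ (fun u : ℂˣ => (u : ℂ)) ⁻¹'
      Set.range (fun γ : MulAction.stabilizer SL(2, ℤ) τ₀ => ((tdmMu τ₀ γ : ℂˣ) : ℂ)) := by
    rintro _ ⟨γ, rfl⟩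
    exact ⟨γ, rfl⟩
  exact (hfin.preimage hinj.injOn).subset h3

/-- the kernel of the multiplier is `{±1}` -/
theorem tdmMu_eq_one_iff (τ₀ : ℍ) (γ : MulAction.stabilizer SL(2, ℤ) τ₀) :
    tdmMu τ₀ γ = 1 ↔ (γ : SL(2, ℤ)) = 1 ∨ (γ : SL(2, ℤ)) = -1 := by
  constructor
  · intro h
    have h1 : ((tdmMu τ₀ γ : ℂˣ) : ℂ) = 1 := by rw [h]; rfl
    rw [tdmMu_val] at h1
    have hd := denom_ne_zero ((γ : SL(2, ℤ)) : GL (Fin 2) ℝ) τ₀
    have h2 : denom ((γ : SL(2, ℤ)) : GL (Fin 2) ℝ) τ₀ * denom ((γ : SL(2, ℤ)) : GL (Fin 2) ℝ) τ₀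
        = 1 := by
      rw [div_eq_iff (pow_ne_zero _ hd), one_mul, sq] at h1
      exact h1.symm
    have h3 := mul_self_eq_one_iff.mp h2
    have h4 : denom ((γ : SL(2, ℤ)) : GL (Fin 2) ℝ) τ₀
        = (((γ : SL(2, ℤ)) 1 0 : ℤ) : ℂ) * τ₀ + (((γ : SL(2, ℤ)) 1 1 : ℤ) : ℂ) :=
      ModularGroup.denom_apply _ _
    rw [h4] at h3
    -- the lower left entry vanishes
    have hc : (γ : SL(2, ℤ)) 1 0 = 0 := by
      have him : ((((γ : SL(2, ℤ)) 1 0 : ℤ) : ℂ) * τ₀ + (((γ : SL(2, ℤ)) 1 1 : ℤ) : ℂ)).im = 0 := by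
        rcases h3 with h3 | h3 <;> rw [h3] <;> simp
      simp only [Complex.add_im, Complex.mul_im, Complex.intCast_re, Complex.intCast_im, zero_mul,
        add_zero, UpperHalfPlane.coe_im] at him
      have := τ₀.im_ne_zero
      have h5 : (((γ : SL(2, ℤ)) 1 0 : ℤ) : ℝ) = 0 := by
        rcases mul_eq_zero.mp him with h | h
        · exact h
        · exact absurd h this
      exact_mod_cast h5
    have hd1 : (γ : SL(2, ℤ)) 1 1 = 1 ∨ (γ : SL(2, ℤ)) 1 1 = -1 := by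
      rw [hc] at h3
      simp only [Int.cast_zero, zero_mul, zero_add] at h3
      rcases h3 with h3 | h3
      · left; exact_mod_cast h3
      · right; exact_mod_cast h3
    have hdet := Matrix.SpecialLinearGroup.det_coe (γ : SL(2, ℤ))
    rw [Matrix.det_fin_two, hc, mul_zero, sub_zero] at hdet
    -- the fixed point equation
    have hfix : ((γ : SL(2, ℤ)) • τ₀ : ℍ) = τ₀ := γ.2
    have hfix' := congrArg (fun z : ℍ => (z : ℂ)) hfix
    beta_reduce at hfix'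
    rw [UpperHalfPlane.coe_specialLinearGroup_apply] at hfix'
    simp only [algebraMap_int_eq, eq_intCast] at hfix'
    have hb : (γ : SL(2, ℤ)) 0 1 = 0 := by
      rcases hd1 with h | h
      · have ha : (γ : SL(2, ℤ)) 0 0 = 1 := by rw [h, mul_one] at hdet; exact hdet
        rw [hc, h, ha] at hfix'
        push_cast at hfix'
        have h6 : (((γ : SL(2, ℤ)) 0 1 : ℤ) : ℂ) = 0 := by
          have h7 : ((0 : ℂ) * (τ₀ : ℂ) + 1) = 1 := by ring
          rw [h7, div_one] at hfix'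
          linear_combination hfix'
        exact_mod_cast h6
      · have ha : (γ : SL(2, ℤ)) 0 0 = -1 := by
          rw [h] at hdet
          linarith
        rw [hc, h, ha] at hfix'
        push_cast at hfix'
        have h6 : (((γ : SL(2, ℤ)) 0 1 : ℤ) : ℂ) = 0 := by
          have h7 : ((0 : ℂ) * (τ₀ : ℂ) + -1) = -1 := by ring
          have h8 : ((-1 : ℂ)) ≠ 0 := by norm_num
          rw [h7, div_eq_iff h8] at hfix'
          linear_combination hfix'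
        exact_mod_cast h6
    rcases hd1 with h | h
    · left
      have ha : (γ : SL(2, ℤ)) 0 0 = 1 := by rw [h, mul_one] at hdet; exact hdet
      ext i j
      fin_cases i <;> fin_cases j <;> simp [ha, hb, hc, h]
    · right
      have ha : (γ : SL(2, ℤ)) 0 0 = -1 := by
        rw [h] at hdet
        linarith
      ext i j
      fin_cases i <;> fin_cases j <;> simp [ha, hb, hc, h]
  · rintro (h | h)
    · apply Units.ext
      rw [tdmMu_val, h]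
      simp [denom_one]
    · apply Units.ext
      rw [tdmMu_val, h]
      have : denom ((-1 : SL(2, ℤ)) : GL (Fin 2) ℝ) τ₀ = -1 := by
        rw [ModularGroup.denom_apply]
        simp
      rw [this]
      norm_num

/-! ### The ramification index of a point -/

/-- the ramification index of `τ₀` for `Γ`: the order of the group of multipliers of
`Γ ∩ Stab τ₀` (isomorphic to the image of the stabiliser in `PSL₂(ℤ)`) -/
noncomputable def tdmEll (Γ : Subgroup SL(2, ℤ)) (τ₀ : ℍ) : ℕ :=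
  Nat.card ((Γ.subgroupOf (MulAction.stabilizer SL(2, ℤ) τ₀)).map (tdmMu τ₀))

instance tdm_finite_mu_image (Γ : Subgroup SL(2, ℤ)) (τ₀ : ℍ) :
    Finite ((Γ.subgroupOf (MulAction.stabilizer SL(2, ℤ) τ₀)).map (tdmMu τ₀)) := by
  apply Set.Finite.to_subtype
  apply (tdm_finite_range_mu τ₀).subset
  rintro _ ⟨γ, -, rfl⟩
  exact ⟨γ, rfl⟩

theorem tdmEll_pos (Γ : Subgroup SL(2, ℤ)) (τ₀ : ℍ) : 0 < tdmEll Γ τ₀ := Nat.card_pos

/-- multipliers of elements of `Γ ∩ Stab τ₀` are `tdmEll`-th roots of unity -/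
theorem tdmMu_pow_ell (Γ : Subgroup SL(2, ℤ)) (τ₀ : ℍ) (γ : MulAction.stabilizer SL(2, ℤ) τ₀)
    (hγ : (γ : SL(2, ℤ)) ∈ Γ) : tdmMu τ₀ γ ^ tdmEll Γ τ₀ = 1 := by
  have hmem : tdmMu τ₀ γ ∈ (Γ.subgroupOf (MulAction.stabilizer SL(2, ℤ) τ₀)).map (tdmMu τ₀) :=
    ⟨γ, hγ, rfl⟩
  have h1 := pow_card_eq_one' (G := ((Γ.subgroupOf (MulAction.stabilizer SL(2, ℤ) τ₀)).map
    (tdmMu τ₀))) (x := ⟨_, hmem⟩)
  have h2 := congrArg Subtype.val h1
  rw [SubgroupClass.coe_pow] at h2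
  exact h2

/-- **WP-L (elliptic points, divisibility)**: a nonzero meromorphic function invariant under
`Γ ∩ Stab τ₀` has order divisible by the ramification index at `τ₀`. -/
theorem tdm_ell_dvd_ord (Γ : Subgroup SL(2, ℤ)) (τ₀ : ℍ) (g : tdmMer) (hg : g ≠ 0)
    (h : ∀ γ : SL(2, ℤ), γ ∈ Γ → γ • τ₀ = τ₀ → tdmSL γ g = g) :
    (tdmEll Γ τ₀ : ℤ) ∣ tdmOrd τ₀ g := by
  have : IsCyclic ((Γ.subgroupOf (MulAction.stabilizer SL(2, ℤ) τ₀)).map (tdmMu τ₀)) :=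
    isCyclic_subgroup_units _
  obtain ⟨⟨ζ, hζ⟩, hgen⟩ := IsCyclic.exists_generator
    (α := ((Γ.subgroupOf (MulAction.stabilizer SL(2, ℤ) τ₀)).map (tdmMu τ₀)))
  obtain ⟨γ, hγΓ, rfl⟩ := hζ
  have hord : orderOf (tdmMu τ₀ γ) = tdmEll Γ τ₀ := by
    have h1 := orderOf_eq_card_of_forall_mem_zpowers hgen
    have hmem : tdmMu τ₀ γ ∈ (Γ.subgroupOf (MulAction.stabilizer SL(2, ℤ) τ₀)).map (tdmMu τ₀) :=
      ⟨γ, hγΓ, rfl⟩
    rw [← Subgroup.orderOf_mk (tdmMu τ₀ γ) hmem]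
    exact h1
  rw [← hord]
  exact tdm_orderOf_mu_dvd τ₀ γ g hg (h _ hγΓ γ.2)

/-! ### Cusps -/

theorem tdm_tendsto_vadd_atImInfty (h : ℝ) :
    Tendsto (fun τ : ℍ => h +ᵥ τ) atImInfty atImInfty := by
  unfold atImInfty
  rw [tendsto_comap_iff]
  have : (UpperHalfPlane.im ∘ fun τ : ℍ => h +ᵥ τ) = UpperHalfPlane.im := by
    funext τ
    simp [UpperHalfPlane.vadd_im]
  rw [this]
  exact tendsto_comap

theorem tdm_continuous_vadd_path (h : ℝ) (τ₁ : ℍ) : Continuous (fun t : ℝ => (t * h) +ᵥ τ₁) := by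
  rw [UpperHalfPlane.isEmbedding_coe.continuous_iff]
  have : (UpperHalfPlane.coe ∘ fun t : ℝ => (t * h) +ᵥ τ₁)
      = fun t : ℝ => (((t * h : ℝ) : ℂ) + (τ₁ : ℂ)) := by
    funext t
    simp [UpperHalfPlane.coe_vadd]
  rw [this]
  fun_prop

/-- **WP-L (cusps)**: a continuous function `V` on `Im τ > C` with `V (τ + h) = c V(τ)` whose
`m`-th power has a nonzero limit at `i∞` satisfies `c = 1`. -/
theorem tdm_const_of_cusp (m : ℕ) (hm : 0 < m) (h C : ℝ) (V : ℍ → ℂ)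
    (hV : ContinuousOn V {τ : ℍ | C < τ.im}) (w₀ : ℂ) (hw₀ : w₀ ≠ 0)
    (hlim : Tendsto (fun τ => V τ ^ m) atImInfty (𝓝 w₀)) (c : ℂ)
    (hc : ∀ τ : ℍ, C < τ.im → V (h +ᵥ τ) = c * V τ) : c = 1 := by
  -- `c ^ m = 1`
  have hcm : c ^ m = 1 := by
    have h1 : Tendsto (fun τ : ℍ => V (h +ᵥ τ) ^ m) atImInfty (𝓝 w₀) :=
      hlim.comp (tdm_tendsto_vadd_atImInfty h)
    have h2 : Tendsto (fun τ : ℍ => c ^ m * V τ ^ m) atImInfty (𝓝 (c ^ m * w₀)) :=
      hlim.const_mul _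
    have h3 : (fun τ : ℍ => V (h +ᵥ τ) ^ m) =ᶠ[atImInfty] fun τ : ℍ => c ^ m * V τ ^ m := by
      rw [Filter.EventuallyEq, Filter.Eventually, atImInfty_mem]
      refine ⟨C + 1, fun τ hτ => ?_⟩
      show V (h +ᵥ τ) ^ m = c ^ m * V τ ^ m
      rw [hc τ (by linarith), mul_pow]
    have h4 := tendsto_nhds_unique (h1.congr' h3) h2
    have h5 : (c ^ m - 1) * w₀ = 0 := by linear_combination -h4
    rcases mul_eq_zero.mp h5 with h6 | h6
    · linear_combination h6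
    · exact absurd h6 hw₀
  -- a height above which `V ^ m` is close to `w₀`
  have hball : Metric.ball w₀ (‖w₀‖ / 2) ∈ 𝓝 w₀ :=
    Metric.ball_mem_nhds _ (by have := norm_pos_iff.mpr hw₀; linarith)
  obtain ⟨A, hA⟩ := (atImInfty_mem _).mp (hlim hball)
  set A' : ℝ := max (max A (C + 1)) 1 with hA'
  have hA'pos : 0 < A' := lt_of_lt_of_le one_pos (le_max_right _ _)
  have hA'A : A ≤ A' := le_trans (le_max_left _ _) (le_max_left _ _)
  have hA'C : C < A' := lt_of_lt_of_le (by linarith) (le_trans (le_max_right A (C + 1)) (le_max_left _ _))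
  let τ₁ : ℍ := ⟨⟨0, A'⟩, hA'pos⟩
  have hτ₁ : τ₁.im = A' := rfl
  let p : ℝ → ℍ := fun t => (t * h) +ᵥ τ₁
  have hp : Continuous p := tdm_continuous_vadd_path h τ₁
  have hpim : ∀ t, (p t).im = A' := fun t => by
    show ((t * h) +ᵥ τ₁).im = A'
    rw [UpperHalfPlane.vadd_im, hτ₁]
  let φ : ℝ → ℂ := fun t => V (p t)
  have hφ : Continuous φ :=
    hV.comp_continuous hp (fun t => by show C < (p t).im; rw [hpim]; exact hA'C)
  have hφball : ∀ t, φ t ^ m ∈ Metric.ball w₀ (‖w₀‖ / 2) := fun t => by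
    have := hA (p t) (by rw [hpim]; exact hA'A)
    exact this
  let u : ℝ → ℂ := fun t => φ t ^ m / w₀
  have hu : Continuous u := (hφ.pow m).div_const _
  have hnw : 0 < ‖w₀‖ := norm_pos_iff.mpr hw₀
  have huslit : ∀ t, u t ∈ Complex.slitPlane := fun t => by
    have h1 : u t = 1 + (φ t ^ m - w₀) / w₀ := by
      show φ t ^ m / w₀ = _
      field_simp
      ring
    rw [h1]
    apply Complex.mem_slitPlane_of_norm_lt_one
    rw [norm_div, div_lt_one hnw]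
    have := hφball t
    rw [Metric.mem_ball, dist_eq_norm] at this
    linarith
  have hune : ∀ t, u t ≠ 0 := fun t => Complex.slitPlane_ne_zero (huslit t)
  let r : ℝ → ℂ := fun t => Complex.exp (Complex.log (u t) / m)
  have hr : Continuous r := by
    apply Complex.continuous_exp.comp
    exact (hu.clog huslit).div_const _
  have hrm : ∀ t, r t ^ m = u t := fun t => by
    show Complex.exp (Complex.log (u t) / m) ^ m = u t
    rw [← Complex.exp_nat_mul, mul_div_cancel₀ _ (by exact_mod_cast hm.ne' : (m : ℂ) ≠ 0),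
      Complex.exp_log (hune t)]
  have hrne : ∀ t, r t ≠ 0 := fun t => Complex.exp_ne_zero _
  obtain ⟨ω, hω⟩ := IsAlgClosed.exists_pow_nat_eq w₀ hm
  have hωne : ω ≠ 0 := by
    rintro rfl
    rw [zero_pow hm.ne'] at hω
    exact hw₀ hω.symm
  let f : ℝ → ℂ := fun t => φ t / (ω * r t)
  have hf : Continuous f := hφ.div (continuous_const.mul hr) (fun t => mul_ne_zero hωne (hrne t))
  have hfm : ∀ t, f t ^ m = 1 := fun t => by
    show (φ t / (ω * r t)) ^ m = 1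
    rw [div_pow, mul_pow, hω, hrm]
    show φ t ^ m / (w₀ * (φ t ^ m / w₀)) = 1
    have h1 : φ t ^ m ≠ 0 := by
      intro h0
      apply hune t
      show φ t ^ m / w₀ = 0
      rw [h0, zero_div]
    field_simp
  -- the values of `f` lie in the finite set of `m`-th roots of unity
  let T : Set ℂ := {z : ℂ | z ^ m = 1}
  have hTfin : T.Finite := by
    have : T ⊆ ↑(Polynomial.nthRoots m (1 : ℂ)).toFinset := by
      intro z hz
      simp only [Finset.mem_coe, Multiset.mem_toFinset, Polynomial.mem_nthRoots hm]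
      exact hz
    exact (Finset.finite_toSet _).subset this
  have h01 : f 0 = f 1 :=
    isPreconnected_univ.constant_of_mapsTo (T := T) hTfin.isDiscrete hf.continuousOn
      (fun t _ => hfm t) (mem_univ 0) (mem_univ 1)
  -- compare
  have hp0 : p 0 = τ₁ := by
    show ((0 : ℝ) * h) +ᵥ τ₁ = τ₁
    rw [zero_mul, zero_vadd]
  have hp1 : p 1 = h +ᵥ τ₁ := by
    show ((1 : ℝ) * h) +ᵥ τ₁ = h +ᵥ τ₁
    rw [one_mul]
  have hφ1 : φ 1 = c * φ 0 := by
    show V (p 1) = c * V (p 0)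
    rw [hp1, hp0]
    exact hc τ₁ hA'C
  have hu1 : u 1 = u 0 := by
    show φ 1 ^ m / w₀ = φ 0 ^ m / w₀
    rw [hφ1, mul_pow, hcm, one_mul]
  have hr1 : r 1 = r 0 := by
    show Complex.exp (Complex.log (u 1) / m) = Complex.exp (Complex.log (u 0) / m)
    rw [hu1]
  have hf1 : f 1 = c * f 0 := by
    show φ 1 / (ω * r 1) = c * (φ 0 / (ω * r 0))
    rw [hφ1, hr1, mul_div_assoc]
  have hf0 : f 0 ≠ 0 := by
    intro h0
    have := hfm 0
    rw [h0, zero_pow hm.ne'] at this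
    exact zero_ne_one this
  rw [hf1] at h01
  have h7 : (c - 1) * f 0 = 0 := by linear_combination -h01
  rcases mul_eq_zero.mp h7 with h8 | h8
  · linear_combination h8
  · exact absurd h8 hf0

end Fermat.Agent.T1
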