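/-
T1-D (WP-Ψ, group theory): elements of finite order of `SL(2, ℤ)` are `±1` or fix a point of `ℍ`.
-/
import Mathlib
import Fermat.Agent.Lib.T1.Mono.Local

set_option autoImplicit false

namespace Fermat.Agent.T1

open Complex Set Filter Topology UpperHalfPlane Matrix MatrixGroups

/-- Cayley–Hamilton for integral `2 × 2` matrices of determinant one -/
theorem tdm_sq_eq_trace_smul_sub_one (A : Matrix (Fin 2) (Fin 2) ℤ) (hA : A.det = 1) :
    A * A = A.trace • A - 1 := by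
  rw [Matrix.det_fin_two] at hA
  ext i j
  fin_cases i <;> fin_cases j <;>
    simp [Matrix.mul_apply, Fin.sum_univ_two, Matrix.trace_fin_two, Matrix.smul_apply,
      -zsmul_eq_mul] <;> nlinarith

theorem tdm_pow_add_two (A : Matrix (Fin 2) (Fin 2) ℤ) (hA : A.det = 1) (k : ℕ) :
    A ^ (k + 2) = A.trace • A ^ (k + 1) - A ^ k := by
  rw [pow_add, sq, tdm_sq_eq_trace_smul_sub_one A hA, mul_sub, mul_one, Matrix.mul_smul,
    ← pow_succ]

theorem tdm_trace_pow_add_two (A : Matrix (Fin 2) (Fin 2) ℤ) (hA : A.det = 1) (k : ℕ) :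
    (A ^ (k + 2)).trace = A.trace * (A ^ (k + 1)).trace - (A ^ k).trace := by
  rw [tdm_pow_add_two A hA, Matrix.trace_sub, Matrix.trace_smul, smul_eq_mul]

/-- hyperbolic elements have infinite order: the traces of the powers grow -/
theorem tdm_trace_pow_growth (A : Matrix (Fin 2) (Fin 2) ℤ) (hA : A.det = 1)
    (ht : 3 ≤ |A.trace|) (k : ℕ) : |(A ^ k).trace| < |(A ^ (k + 1)).trace| ∧ 2 ≤ |(A ^ k).trace| := by
  induction k with
  | zero =>
    simp only [pow_zero, zero_add, pow_one, Matrix.trace_one, Fintype.card_fin]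
    norm_num
    omega
  | succ k ih =>
    obtain ⟨h1, h2⟩ := ih
    refine ⟨?_, by omega⟩
    rw [tdm_trace_pow_add_two A hA k]
    have h3 : |A.trace * (A ^ (k + 1)).trace| - |(A ^ k).trace|
        ≤ |A.trace * (A ^ (k + 1)).trace - (A ^ k).trace| := abs_sub_abs_le_abs_sub _ _
    rw [abs_mul] at h3
    have h4 : 3 * |(A ^ (k + 1)).trace| ≤ |A.trace| * |(A ^ (k + 1)).trace| :=
      mul_le_mul_of_nonneg_right ht (abs_nonneg _)
    omega

theorem tdm_trace_sq_lt_of_pow_eq_one (A : Matrix (Fin 2) (Fin 2) ℤ) (hA : A.det = 1) (n : ℕ)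
    (hn : 0 < n) (h : A ^ n = 1) : |A.trace| ≤ 2 := by
  by_contra hlt
  have ht : 3 ≤ |A.trace| := by omega
  obtain ⟨m, rfl⟩ : ∃ m, n = m + 1 := ⟨n - 1, by omega⟩
  have h1 := tdm_trace_pow_growth A hA ht m
  rw [h, Matrix.trace_one] at h1
  simp only [Fintype.card_fin] at h1
  norm_num at h1
  omega

/-- unipotent case: `(1 + ν) ^ k = 1 + k ν` when `ν² = 0` -/
theorem tdm_one_add_pow_of_sq_zero (ν : Matrix (Fin 2) (Fin 2) ℤ) (hν : ν * ν = 0) (k : ℕ) :
    (1 + ν) ^ k = 1 + (k : ℤ) • ν := by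
  induction k with
  | zero => simp
  | succ k ih =>
    rw [pow_succ, ih, add_mul, mul_add, mul_add, one_mul, mul_one, one_mul, Matrix.smul_mul, hν,
      smul_zero, add_zero]
    push_cast
    rw [add_smul, one_smul]
    abel

theorem tdm_eq_of_trace_eq_two_of_pow_eq_one (A : Matrix (Fin 2) (Fin 2) ℤ) (hA : A.det = 1)
    (ht : A.trace = 2) (n : ℕ) (hn : 0 < n) (h : A ^ n = 1) : A = 1 := by
  set ν : Matrix (Fin 2) (Fin 2) ℤ := A - 1 with hν
  have hνν : ν * ν = 0 := by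
    rw [hν, sub_mul, mul_sub, mul_sub, mul_one, one_mul, mul_one,
      tdm_sq_eq_trace_smul_sub_one A hA, ht]
    rw [two_smul]
    abel
  have hA' : A = 1 + ν := by rw [hν]; abel
  rw [hA', tdm_one_add_pow_of_sq_zero ν hνν n] at h
  have h1 : (n : ℤ) • ν = 0 := by
    have := congrArg (fun M => M - 1) h
    simpa using this
  have h2 : ν = 0 := by
    rcases smul_eq_zero.mp h1 with h3 | h3
    · exfalso
      have : (n : ℤ) ≠ 0 := by exact_mod_cast hn.ne'
      exact this h3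
    · exact h3
  rw [hA', h2, add_zero]

/-- **elements of finite order of `SL(2, ℤ)`**: `±1` or elliptic (`trace² < 4`) -/
theorem tdm_finOrder_trace (γ : SL(2, ℤ)) (h : IsOfFinOrder γ) :
    γ = 1 ∨ γ = -1 ∨ |(γ : Matrix (Fin 2) (Fin 2) ℤ).trace| ≤ 1 := by
  obtain ⟨n, hn, hγ⟩ := isOfFinOrder_iff_pow_eq_one.mp h
  have hdet := γ.det_coe
  have hpow : (γ : Matrix (Fin 2) (Fin 2) ℤ) ^ n = 1 := by
    have := congrArg (fun x : SL(2, ℤ) => (x : Matrix (Fin 2) (Fin 2) ℤ)) hγ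
    simpa using this
  have h2 := tdm_trace_sq_lt_of_pow_eq_one _ hdet n hn hpow
  by_cases h1 : |(γ : Matrix (Fin 2) (Fin 2) ℤ).trace| ≤ 1
  · exact Or.inr (Or.inr h1)
  have h3 : |(γ : Matrix (Fin 2) (Fin 2) ℤ).trace| = 2 := by omega
  rcases abs_eq (by norm_num : (0 : ℤ) ≤ 2) |>.mp h3 with h4 | h4
  · left
    have := tdm_eq_of_trace_eq_two_of_pow_eq_one _ hdet h4 n hn hpow
    ext i j
    rw [this]
    rfl
  · right; left
    have hdet' : (-(γ : Matrix (Fin 2) (Fin 2) ℤ)).det = 1 := by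
      rw [Matrix.det_neg, hdet]
      simp
    have ht' : (-(γ : Matrix (Fin 2) (Fin 2) ℤ)).trace = 2 := by
      rw [Matrix.trace_neg, h4]
      norm_num
    have hpow' : (-(γ : Matrix (Fin 2) (Fin 2) ℤ)) ^ (2 * n) = 1 := by
      rw [neg_pow, mul_comm 2 n, pow_mul, pow_mul, hpow, ← pow_mul, mul_comm n 2, pow_mul]
      simp
    have := tdm_eq_of_trace_eq_two_of_pow_eq_one _ hdet' ht' (2 * n) (by omega) hpow'
    ext i j
    have h5 : (γ : Matrix (Fin 2) (Fin 2) ℤ) = -1 := by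
      rw [← neg_neg (γ : Matrix (Fin 2) (Fin 2) ℤ), this]
    rw [h5]
    rfl

/-- elements with `|trace| ≤ 1` fix a point of `ℍ` -/
theorem tdm_exists_fixed_of_trace (γ : SL(2, ℤ))
    (h : |(γ : Matrix (Fin 2) (Fin 2) ℤ).trace| ≤ 1) : ∃ τ₀ : ℍ, γ • τ₀ = τ₀ := by
  have hpos : 0 < ((γ : GL (Fin 2) ℝ)).val.det := by
    have := tdm_det_SL_pos γ
    rwa [Matrix.GeneralLinearGroup.val_det_apply] at this
  have hdet : ((γ : GL (Fin 2) ℝ)).val.det = 1 := by
    have := Matrix.SpecialLinearGroup.det_coe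
      (Matrix.SpecialLinearGroup.map (Int.castRingHom ℝ) γ)
    simpa using this
  have htr : ((γ : GL (Fin 2) ℝ)).val.trace
      = (((γ : Matrix (Fin 2) (Fin 2) ℤ).trace : ℤ) : ℝ) := by
    rw [Matrix.trace_fin_two, Matrix.trace_fin_two]
    push_cast
    rfl
  have hell : (γ : GL (Fin 2) ℝ).IsElliptic := by
    show ((γ : GL (Fin 2) ℝ)).val.discr < 0
    rw [Matrix.discr_fin_two, hdet, htr]
    have h1 : ((γ : Matrix (Fin 2) (Fin 2) ℤ).trace) ^ 2 ≤ 1 := by
      have := abs_le.mp h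
      nlinarith
    have h2 : ((((γ : Matrix (Fin 2) (Fin 2) ℤ).trace : ℤ) : ℝ)) ^ 2 ≤ 1 := by exact_mod_cast h1
    linarith
  refine ⟨UpperHalfPlane.fixedPt _ hell, ?_⟩
  have := (UpperHalfPlane.gl_smul_eq_self_iff_eq_fixedPt (z := UpperHalfPlane.fixedPt _ hell)
    hpos hell).mpr rfl
  exact this

/-- **classification of the elements of finite order** -/
theorem tdm_finOrder_cases (γ : SL(2, ℤ)) (h : IsOfFinOrder γ) :
    γ = 1 ∨ γ = -1 ∨ ∃ τ₀ : ℍ, γ • τ₀ = τ₀ := by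
  rcases tdm_finOrder_trace γ h with h1 | h1 | h1
  · exact Or.inl h1
  · exact Or.inr (Or.inl h1)
  · exact Or.inr (Or.inr (tdm_exists_fixed_of_trace γ h1))

end Fermat.Agent.T1
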