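/-
T1-D (WP-Ψ, part 1): the character of an `m`-th root of an invariant meromorphic function.
Pure algebra in the field `tdmMer`.
-/
import Mathlib
import Fermat.Agent.Lib.T1.Mono.Elliptic
import Fermat.Agent.Lib.T1.Mono.Char

set_option autoImplicit false

namespace Fermat.Agent.T1

open UpperHalfPlane Filter Topology Matrix MatrixGroups CongruenceSubgroup
open Fermat.Agent.S24Lib (holH)

/-- roots of unity in the field of meromorphic functions are constants -/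
theorem tdm_const_of_pow_eq_one {x : tdmMer} {m : ℕ} (hm : m ≠ 0) (hx : x ^ m = 1) :
    ∃ c : ℂ, algebraMap ℂ tdmMer c = x := by
  have hint : IsIntegral ℂ x := by
    refine ⟨Polynomial.X ^ m - Polynomial.C 1, Polynomial.monic_X_pow_sub_C 1 hm, ?_⟩
    simp [hx]
  have hdeg : (minpoly ℂ x).degree = 1 :=
    IsAlgClosed.degree_eq_one_of_irreducible ℂ (minpoly.irreducible hint)
  exact minpoly.mem_range_of_degree_eq_one ℂ x hdeg

theorem tdm_smul_left_injective {g : tdmMer} (hg : g ≠ 0) {c c' : ℂ} (h : c • g = c' • g) :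
    c = c' := by
  rw [Algebra.smul_def, Algebra.smul_def] at h
  have := mul_right_cancel₀ hg h
  exact (algebraMap ℂ tdmMer).injective this

/-- two roots of the same function differ by a constant root of unity -/
theorem tdm_root_unique {g g' : tdmMer} {m : ℕ} (hm : m ≠ 0) (hg : g ≠ 0) (h : g' ^ m = g ^ m) :
    ∃ ζ : ℂ, ζ ^ m = 1 ∧ g' = ζ • g := by
  have h1 : (g' / g) ^ m = 1 := by
    rw [div_pow, h, div_self (pow_ne_zero _ hg)]
  obtain ⟨ζ, hζ⟩ := tdm_const_of_pow_eq_one hm h1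
  refine ⟨ζ, ?_, ?_⟩
  · apply (algebraMap ℂ tdmMer).injective
    rw [map_pow, hζ, h1, map_one]
  · rw [Algebra.smul_def, hζ, div_mul_cancel₀ _ hg]

/-- the multiplier of a root of an invariant function under `γ` -/
theorem tdm_exists_multiplier (Γ : Subgroup SL(2, ℤ)) {m : ℕ} (hm : m ≠ 0) {g : tdmMer}
    (hg : g ≠ 0) (hinv : tdmIsInv Γ (g ^ m)) (γ : Γ) :
    ∃ c : ℂˣ, tdmSL (γ : SL(2, ℤ)) g = ((c : ℂˣ) : ℂ) • g ∧ c ^ m = 1 := by
  have h1 : (tdmSL (γ : SL(2, ℤ)) g) ^ m = g ^ m := by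
    rw [← map_pow]
    exact hinv γ
  obtain ⟨ζ, hζ1, hζ2⟩ := tdm_root_unique hm hg h1
  have hζ0 : ζ ≠ 0 := by
    rintro rfl
    rw [zero_pow hm] at hζ1
    exact zero_ne_one hζ1
  refine ⟨Units.mk0 ζ hζ0, hζ2, ?_⟩
  apply Units.ext
  rw [Units.val_pow_eq_pow_val, Units.val_mk0, hζ1]
  rfl

/-- **the character of a root** -/
noncomputable def tdmCharOf (Γ : Subgroup SL(2, ℤ)) {m : ℕ} (hm : m ≠ 0) {g : tdmMer}
    (hg : g ≠ 0) (hinv : tdmIsInv Γ (g ^ m)) : Γ →* ℂˣ where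
  toFun γ := (tdm_exists_multiplier Γ hm hg hinv γ).choose
  map_one' := by
    have h : tdmSL (1 : SL(2, ℤ)) g
        = (((tdm_exists_multiplier Γ hm hg hinv 1).choose : ℂˣ) : ℂ) • g :=
      (tdm_exists_multiplier Γ hm hg hinv 1).choose_spec.1
    generalize (tdm_exists_multiplier Γ hm hg hinv 1).choose = c at h ⊢
    rw [tdmSL_one] at h
    apply Units.ext
    have h2 : (1 : ℂ) • g = ((c : ℂˣ) : ℂ) • g := by
      rw [one_smul]; exact h
    exact (tdm_smul_left_injective hg h2).symm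
  map_mul' γ δ := by
    have h1 := (tdm_exists_multiplier Γ hm hg hinv γ).choose_spec.1
    have h2 := (tdm_exists_multiplier Γ hm hg hinv δ).choose_spec.1
    have h3 : tdmSL ((γ : SL(2, ℤ)) * (δ : SL(2, ℤ))) g
        = (((tdm_exists_multiplier Γ hm hg hinv (γ * δ)).choose : ℂˣ) : ℂ) • g :=
      (tdm_exists_multiplier Γ hm hg hinv (γ * δ)).choose_spec.1
    generalize (tdm_exists_multiplier Γ hm hg hinv γ).choose = c1 at h1 ⊢
    generalize (tdm_exists_multiplier Γ hm hg hinv δ).choose = c2 at h2 ⊢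
    generalize (tdm_exists_multiplier Γ hm hg hinv (γ * δ)).choose = c3 at h3 ⊢
    rw [tdmSL_mul, h1, map_smul, h2, smul_smul] at h3
    apply Units.ext
    rw [Units.val_mul]
    exact (tdm_smul_left_injective hg h3).symm

theorem tdmCharOf_spec (Γ : Subgroup SL(2, ℤ)) {m : ℕ} (hm : m ≠ 0) {g : tdmMer}
    (hg : g ≠ 0) (hinv : tdmIsInv Γ (g ^ m)) : tdmHasChar Γ g (tdmCharOf Γ hm hg hinv) :=
  fun γ => (tdm_exists_multiplier Γ hm hg hinv γ).choose_spec.1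

theorem tdmCharOf_pow (Γ : Subgroup SL(2, ℤ)) {m : ℕ} (hm : m ≠ 0) {g : tdmMer}
    (hg : g ≠ 0) (hinv : tdmIsInv Γ (g ^ m)) (γ : Γ) : tdmCharOf Γ hm hg hinv γ ^ m = 1 :=
  (tdm_exists_multiplier Γ hm hg hinv γ).choose_spec.2

/-! ### Calculus of characters -/

theorem tdmHasChar_unique {Γ : Subgroup SL(2, ℤ)} {g : tdmMer} (hg : g ≠ 0) {χ χ' : Γ →* ℂˣ}
    (h : tdmHasChar Γ g χ) (h' : tdmHasChar Γ g χ') : χ = χ' := by
  ext γ
  exact tdm_smul_left_injective hg ((h γ).symm.trans (h' γ))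

theorem tdmHasChar_mul {Γ : Subgroup SL(2, ℤ)} {g g' : tdmMer} {χ χ' : Γ →* ℂˣ}
    (h : tdmHasChar Γ g χ) (h' : tdmHasChar Γ g' χ') : tdmHasChar Γ (g * g') (χ * χ') := by
  intro γ
  rw [map_mul, h γ, h' γ, MonoidHom.mul_apply, Units.val_mul, smul_mul_smul_comm]

theorem tdmHasChar_inv {Γ : Subgroup SL(2, ℤ)} {g : tdmMer} {χ : Γ →* ℂˣ}
    (h : tdmHasChar Γ g χ) : tdmHasChar Γ g⁻¹ χ⁻¹ := by
  intro γ
  rw [map_inv₀, h γ, MonoidHom.inv_apply, Units.val_inv_eq_inv_val, Algebra.smul_def,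
    Algebra.smul_def, mul_inv, map_inv₀]

theorem tdmHasChar_one_iff {Γ : Subgroup SL(2, ℤ)} {g : tdmMer} :
    tdmHasChar Γ g 1 ↔ tdmIsInv Γ g := by
  constructor
  · intro h γ
    have := h γ
    rwa [MonoidHom.one_apply, Units.val_one, one_smul] at this
  · intro h γ
    rw [MonoidHom.one_apply, Units.val_one, one_smul]
    exact h γ

theorem tdmHasChar_const_smul {Γ : Subgroup SL(2, ℤ)} {g : tdmMer} {χ : Γ →* ℂˣ}
    (h : tdmHasChar Γ g χ) (c : ℂ) : tdmHasChar Γ (c • g) χ := by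
  intro γ
  rw [map_smul, h γ, smul_comm]

/-- the character only depends on the `m`-th power -/
theorem tdmHasChar_of_pow_eq {Γ : Subgroup SL(2, ℤ)} {g g' : tdmMer} {m : ℕ} (hm : m ≠ 0)
    (hg : g ≠ 0) (hpow : g' ^ m = g ^ m) {χ : Γ →* ℂˣ} (h : tdmHasChar Γ g χ) :
    tdmHasChar Γ g' χ := by
  obtain ⟨ζ, -, rfl⟩ := tdm_root_unique hm hg hpow
  exact tdmHasChar_const_smul h ζ

/-! ### Elements of finite order -/

/-- **elliptic triviality**: if `ord_τ g` is divisible by the ramification index at every `τ`,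
the character of `g` is trivial on the elements of finite order. -/
theorem tdmHasChar_finOrder {Γ : Subgroup SL(2, ℤ)} {g : tdmMer} (hg : g ≠ 0) {χ : Γ →* ℂˣ}
    (h : tdmHasChar Γ g χ) (hord : ∀ τ : ℍ, (tdmEll Γ τ : ℤ) ∣ tdmOrd τ g) (γ : Γ)
    (hγ : IsOfFinOrder γ) : χ γ = 1 := by
  have hγ' : IsOfFinOrder (γ : SL(2, ℤ)) := by
    rw [isOfFinOrder_iff_pow_eq_one] at hγ ⊢
    obtain ⟨n, hn, hpow⟩ := hγ
    refine ⟨n, hn, ?_⟩
    have := congrArg (fun x : Γ => (x : SL(2, ℤ))) hpow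
    simpa using this
  have hγg := h γ
  rcases tdm_finOrder_cases (γ : SL(2, ℤ)) hγ' with h1 | h1 | ⟨τ₀, hτ₀⟩
  · rw [h1, tdmSL_one] at hγg
    apply Units.ext
    have h2 : (1 : ℂ) • g = ((χ γ : ℂˣ) : ℂ) • g := by rw [one_smul]; exact hγg
    exact (tdm_smul_left_injective hg h2).symm
  · rw [h1, tdmSL_neg, tdmSL_one] at hγg
    apply Units.ext
    have h2 : (1 : ℂ) • g = ((χ γ : ℂˣ) : ℂ) • g := by rw [one_smul]; exact hγg
    exact (tdm_smul_left_injective hg h2).symm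
  · let γs : MulAction.stabilizer SL(2, ℤ) τ₀ := ⟨(γ : SL(2, ℤ)), hτ₀⟩
    have h2 := tdm_const_eq_mu_zpow τ₀ γs g hg _ hγg
    obtain ⟨k, hk⟩ := hord τ₀
    have h3 : tdmMu τ₀ γs ^ tdmEll Γ τ₀ = 1 := tdmMu_pow_ell Γ τ₀ γs γ.2
    apply Units.ext
    rw [h2, hk, _root_.zpow_mul, zpow_natCast, h3, _root_.one_zpow]

end Fermat.Agent.T1
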