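/-
T1-D (WP-R): holomorphic `m`-th roots on the upper half plane.

A holomorphic function on `ℍ`, not identically zero, all of whose zeros have order divisible by `m`
is the `m`-th power of a holomorphic function; the same for meromorphic functions.
(Exhaustion by convex open sets with compact closure, finitely many zeros in each, continuous
branches of roots on simply connected sets from Mathlib, gluing by the identity theorem.)
-/
import Mathlib
import Fermat.Agent.Lib.T1.Mono.Mer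

set_option autoImplicit false

namespace Fermat.Agent.T1

open Complex Set Filter Topology
open scoped Manifold
open Fermat.Agent.S24Lib (holH ordAt ordValuation)

/-! ### Regularity of continuous roots -/

/-- a continuous `m`-th root of a differentiable nonvanishing function is differentiable -/
theorem tdm_differentiableAt_of_pow_eq {m : ℕ} (hm : 0 < m) {r f : ℂ → ℂ} {z₀ : ℂ}
    (hr : ContinuousAt r z₀) (hf : DifferentiableAt ℂ f z₀)
    (h : ∀ᶠ z in 𝓝 z₀, r z ^ m = f z) (h0 : f z₀ ≠ 0) : DifferentiableAt ℂ r z₀ := by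
  have hz₀ : r z₀ ^ m = f z₀ := h.self_of_nhds
  have hw₀ : r z₀ ≠ 0 := by
    intro h1
    rw [h1, zero_pow hm.ne'] at hz₀
    exact h0 hz₀.symm
  have hp : HasStrictDerivAt (fun w : ℂ => w ^ m) ((m : ℂ) * r z₀ ^ (m - 1)) (r z₀) :=
    hasStrictDerivAt_pow m (r z₀)
  have hp' : (m : ℂ) * r z₀ ^ (m - 1) ≠ 0 :=
    mul_ne_zero (Nat.cast_ne_zero.mpr hm.ne') (pow_ne_zero _ hw₀)
  have hinv := hp.eventually_left_inverse hp'
  have hloc := hp.to_localInverse hp'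
  have h1 : ∀ᶠ z in 𝓝 z₀, hp.localInverse _ _ _ hp' (r z ^ m) = r z := hr.eventually hinv
  have h2 : ∀ᶠ z in 𝓝 z₀, r z = hp.localInverse _ _ _ hp' (f z) := by
    filter_upwards [h1, h] with z hz1 hz2
    rw [← hz2, hz1]
  have h3 : DifferentiableAt ℂ (fun z => hp.localInverse _ _ _ hp' (f z)) z₀ := by
    have : DifferentiableAt ℂ (hp.localInverse _ _ _ hp') (f z₀) := by
      rw [← hz₀]
      exact hloc.hasDerivAt.differentiableAt
    exact this.comp z₀ hf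
  exact h3.congr_of_eventuallyEq h2

/-- holomorphic `m`-th roots of nonvanishing holomorphic functions on convex open sets -/
theorem tdm_exists_root_nonvanishing {D : Set ℂ} (hD : IsOpen D) (hconv : Convex ℝ D)
    (hne : D.Nonempty) {f : ℂ → ℂ} (hf : DifferentiableOn ℂ f D) (h0 : ∀ z ∈ D, f z ≠ 0)
    {m : ℕ} (hm : 0 < m) :
    ∃ u : ℂ → ℂ, DifferentiableOn ℂ u D ∧ ∀ z ∈ D, u z ^ m = f z := by
  have hsc : IsSimplyConnected D := by
    have := hconv.contractibleSpace hne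
    show SimplyConnectedSpace D
    infer_instance
  classical
  obtain ⟨g, hg⟩ : ∃ g : ℂ → ℂ, ContinuousOn g D ∧ (∀ z ∈ D, g z = f z) ∧ 0 ∉ g '' D := by
    refine ⟨D.piecewise f 1, ?_, fun z hz => by simp [hz], ?_⟩
    · exact hf.continuousOn.congr fun z hz => by simp [hz]
    · rintro ⟨z, hz, hz0⟩
      rw [Set.piecewise_eq_of_mem _ _ _ hz] at hz0
      exact h0 z hz hz0
  obtain ⟨r, hrc, hr⟩ := Complex.exists_continuousOn_pow_eq hsc hD hg.1 hg.2.2 hm.ne'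
  refine ⟨r, fun z hz => ?_, fun z hz => by rw [hr z, hg.2.1 z hz]⟩
  apply DifferentiableAt.differentiableWithinAt
  apply tdm_differentiableAt_of_pow_eq hm (hrc.continuousAt (hD.mem_nhds hz))
    (hf.differentiableAt (hD.mem_nhds hz)) _ (h0 z hz)
  filter_upwards [hD.mem_nhds hz] with w hw
  rw [hr w, hg.2.1 w hw]

/-! ### Dividing out finitely many zeros -/

/-- dividing out a zero of order `n` -/
theorem tdm_exists_factor {D : Set ℂ} (hD : IsOpen D) {f : ℂ → ℂ} (hf : DifferentiableOn ℂ f D)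
    {z₁ : ℂ} (hz₁ : z₁ ∈ D) {n : ℕ} (hn : analyticOrderAt f z₁ = n) :
    ∃ f₁ : ℂ → ℂ, DifferentiableOn ℂ f₁ D ∧ f₁ z₁ ≠ 0 ∧ ∀ z, f z = (z - z₁) ^ n * f₁ z := by
  classical
  have hfa : AnalyticAt ℂ f z₁ := hf.analyticAt (hD.mem_nhds hz₁)
  obtain ⟨g, hga, hg0, hev⟩ := hfa.analyticOrderAt_eq_natCast.mp hn
  refine ⟨Function.update (fun z => f z / (z - z₁) ^ n) z₁ (g z₁), ?_, ?_, ?_⟩
  · intro z hz
    apply DifferentiableAt.differentiableWithinAt
    by_cases hzz : z = z₁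
    · rw [hzz]
      have h1 : Function.update (fun z => f z / (z - z₁) ^ n) z₁ (g z₁) =ᶠ[𝓝 z₁] g := by
        filter_upwards [hev] with w hw
        by_cases hwz : w = z₁
        · rw [hwz, Function.update_self]
        · rw [Function.update_of_ne hwz, hw, smul_eq_mul]
          have : (w - z₁) ^ n ≠ 0 := pow_ne_zero _ (sub_ne_zero.mpr hwz)
          field_simp
      exact hga.differentiableAt.congr_of_eventuallyEq h1
    · have h1 : Function.update (fun z => f z / (z - z₁) ^ n) z₁ (g z₁) =ᶠ[𝓝 z]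
          fun z => f z / (z - z₁) ^ n := by
        filter_upwards [isOpen_ne.mem_nhds hzz] with w hw
        rw [Function.update_of_ne hw]
      have h2 : DifferentiableAt ℂ (fun z => f z / (z - z₁) ^ n) z := by
        apply DifferentiableAt.div (hf.differentiableAt (hD.mem_nhds hz))
        · fun_prop
        · exact pow_ne_zero _ (sub_ne_zero.mpr hzz)
      exact h2.congr_of_eventuallyEq h1
  · rw [Function.update_self]
    exact hg0
  · intro z
    by_cases hzz : z = z₁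
    · rw [hzz, Function.update_self]
      have := hev.self_of_nhds
      rwa [smul_eq_mul] at this
    · rw [Function.update_of_ne hzz]
      have : (z - z₁) ^ n ≠ 0 := pow_ne_zero _ (sub_ne_zero.mpr hzz)
      field_simp

/-- holomorphic `m`-th roots on convex open sets of holomorphic functions with finitely many
zeros, all of order divisible by `m` -/
theorem tdm_exists_root_finite {D : Set ℂ} (hD : IsOpen D) (hconv : Convex ℝ D)
    (hne : D.Nonempty) {m : ℕ} (hm : 0 < m) (S : Finset ℂ) :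
    ∀ f : ℂ → ℂ, DifferentiableOn ℂ f D → (∀ z ∈ D, z ∉ S → f z ≠ 0) →
      (∀ z ∈ S, z ∈ D → ∃ k : ℕ, analyticOrderAt f z = ((m * k : ℕ) : ℕ∞)) →
      ∃ u : ℂ → ℂ, DifferentiableOn ℂ u D ∧ ∀ z ∈ D, u z ^ m = f z := by
  classical
  induction S using Finset.induction_on with
  | empty =>
    intro f hf h0 _
    exact tdm_exists_root_nonvanishing hD hconv hne hf
      (fun z hz => h0 z hz (Finset.notMem_empty z)) hm
  | insert z₁ S' hz₁S ih =>
    intro f hf h0 hord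
    by_cases hz₁ : z₁ ∈ D
    · obtain ⟨k, hk⟩ := hord z₁ (Finset.mem_insert_self _ _) hz₁
      obtain ⟨f₁, hf₁, hf₁0, hfac⟩ := tdm_exists_factor hD hf hz₁ hk
      have hnv : ∀ z ∈ D, z ∉ S' → f₁ z ≠ 0 := by
        intro z hz hzS
        by_cases hzz : z = z₁
        · rw [hzz]; exact hf₁0
        · have h1 : f z ≠ 0 := h0 z hz (by
            rw [Finset.mem_insert]; exact not_or.mpr ⟨hzz, hzS⟩)
          rw [hfac z] at h1
          exact right_ne_zero_of_mul h1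
      have hord' : ∀ z ∈ S', z ∈ D → ∃ k' : ℕ, analyticOrderAt f₁ z = ((m * k' : ℕ) : ℕ∞) := by
        intro z hzS hzD
        have hzz : z ≠ z₁ := fun h => hz₁S (h ▸ hzS)
        obtain ⟨k', hk'⟩ := hord z (Finset.mem_insert_of_mem hzS) hzD
        refine ⟨k', ?_⟩
        have hP : AnalyticAt ℂ (fun w : ℂ => (w - z₁) ^ (m * k)) z := by fun_prop
        have hf₁a : AnalyticAt ℂ f₁ z := hf₁.analyticAt (hD.mem_nhds hzD)
        have h1 : f = (fun w : ℂ => (w - z₁) ^ (m * k)) * f₁ := funext hfac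
        rw [h1, analyticOrderAt_mul hP hf₁a] at hk'
        have h2 : analyticOrderAt (fun w : ℂ => (w - z₁) ^ (m * k)) z = 0 := by
          rw [analyticOrderAt_eq_zero]
          right
          exact pow_ne_zero _ (sub_ne_zero.mpr hzz)
        rw [h2, zero_add] at hk'
        exact hk'
      obtain ⟨u₁, hu₁, hu₁'⟩ := ih f₁ hf₁ hnv hord'
      refine ⟨fun z => (z - z₁) ^ k * u₁ z, ?_, fun z hz => ?_⟩
      · apply DifferentiableOn.mul _ hu₁
        fun_prop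
      · rw [mul_pow, ← pow_mul, hu₁' z hz, hfac z, mul_comm k m]
    · apply ih f hf
      · intro z hz hzS
        apply h0 z hz
        rw [Finset.mem_insert]
        exact not_or.mpr ⟨fun h => hz₁ (h ▸ hz), hzS⟩
      · intro z hzS hzD
        exact hord z (Finset.mem_insert_of_mem hzS) hzD

/-! ### Finiteness of zeros on compact sets, local uniqueness of roots -/

theorem tdm_finite_zeros {U : Set ℂ} (hU : IsOpen U) (hUc : IsPreconnected U) {f : ℂ → ℂ}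
    (hf : DifferentiableOn ℂ f U) {z₀ : ℂ} (hz₀ : z₀ ∈ U) (hfz₀ : f z₀ ≠ 0) {K : Set ℂ}
    (hK : IsCompact K) (hKU : K ⊆ U) : {z ∈ K | f z = 0}.Finite := by
  by_contra hinf
  have hinf' : {z ∈ K | f z = 0}.Infinite := hinf
  obtain ⟨x, hxK, hx⟩ := hinf'.exists_accPt_of_subset_isCompact hK (sep_subset _ _)
  rw [accPt_iff_frequently_nhdsNE] at hx
  have hfan : AnalyticOnNhd ℂ f U := hf.analyticOnNhd hU
  have h1 : ∃ᶠ z in 𝓝[≠] x, f z = 0 := hx.mono fun z hz => hz.2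
  have h2 := hfan.eqOn_zero_of_preconnected_of_frequently_eq_zero hUc (hKU hxK) h1
  exact hfz₀ (h2 hz₀)

/-- two continuous `m`-th roots of the same function with the same nonzero value at `z₀` agree
near `z₀` -/
theorem tdm_root_eventually_eq {m : ℕ} (hm : 0 < m) {r₁ r₂ : ℂ → ℂ} {z₀ : ℂ}
    (h₁ : ContinuousAt r₁ z₀) (h₂ : ContinuousAt r₂ z₀) (h12 : r₁ z₀ = r₂ z₀) (h0 : r₁ z₀ ≠ 0)
    (h : ∀ᶠ z in 𝓝 z₀, r₁ z ^ m = r₂ z ^ m) : r₁ =ᶠ[𝓝 z₀] r₂ := by
  have hp : HasStrictDerivAt (fun w : ℂ => w ^ m) ((m : ℂ) * r₁ z₀ ^ (m - 1)) (r₁ z₀) :=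
    hasStrictDerivAt_pow m (r₁ z₀)
  have hp' : (m : ℂ) * r₁ z₀ ^ (m - 1) ≠ 0 :=
    mul_ne_zero (Nat.cast_ne_zero.mpr hm.ne') (pow_ne_zero _ h0)
  have hinv := hp.eventually_left_inverse hp'
  have e1 : ∀ᶠ z in 𝓝 z₀, hp.localInverse _ _ _ hp' (r₁ z ^ m) = r₁ z := h₁.eventually hinv
  have e2 : ∀ᶠ z in 𝓝 z₀, hp.localInverse _ _ _ hp' (r₂ z ^ m) = r₂ z := by
    have h₂' : Tendsto r₂ (𝓝 z₀) (𝓝 (r₁ z₀)) := by rw [h12]; exact h₂
    exact h₂'.eventually hinv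
  filter_upwards [e1, e2, h] with z hz1 hz2 hz
  rw [← hz1, hz, hz2]

/-! ### The exhausting rectangles -/

/-- open rectangles exhausting the upper half plane, all containing `z₀` -/
def tdmRect (z₀ : ℂ) (n : ℕ) : Set ℂ :=
  Ioo (z₀.re - (n + 2)) (z₀.re + (n + 2)) ×ℂ Ioo (z₀.im / (n + 2)) (z₀.im + (n + 2))

/-- the closed rectangles -/
def tdmRectC (z₀ : ℂ) (n : ℕ) : Set ℂ :=
  Icc (z₀.re - (n + 2)) (z₀.re + (n + 2)) ×ℂ Icc (z₀.im / (n + 2)) (z₀.im + (n + 2))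

theorem tdmRect_isOpen (z₀ : ℂ) (n : ℕ) : IsOpen (tdmRect z₀ n) :=
  isOpen_Ioo.reProdIm isOpen_Ioo

theorem tdmRect_convex (z₀ : ℂ) (n : ℕ) : Convex ℝ (tdmRect z₀ n) := by
  have h1 : Convex ℝ (Complex.reLm ⁻¹' Ioo (z₀.re - (n + 2)) (z₀.re + (n + 2))) :=
    (convex_Ioo _ _).linear_preimage Complex.reLm
  have h2 : Convex ℝ (Complex.imLm ⁻¹' Ioo (z₀.im / (n + 2)) (z₀.im + (n + 2))) :=
    (convex_Ioo _ _).linear_preimage Complex.imLm
  exact h1.inter h2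

theorem tdmRectC_isCompact (z₀ : ℂ) (n : ℕ) : IsCompact (tdmRectC z₀ n) :=
  isCompact_Icc.reProdIm isCompact_Icc

theorem tdmRect_subset_C (z₀ : ℂ) (n : ℕ) : tdmRect z₀ n ⊆ tdmRectC z₀ n := by
  intro z hz
  rw [tdmRect, mem_reProdIm] at hz
  rw [tdmRectC, mem_reProdIm]
  exact ⟨Ioo_subset_Icc_self hz.1, Ioo_subset_Icc_self hz.2⟩

theorem tdmRectC_subset (z₀ : ℂ) (hz₀ : 0 < z₀.im) (n : ℕ) : tdmRectC z₀ n ⊆ {z | 0 < z.im} := by
  intro z hz
  rw [tdmRectC, mem_reProdIm] at hz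
  have h1 : 0 < z₀.im / (n + 2) := by positivity
  exact lt_of_lt_of_le h1 hz.2.1

theorem tdm_mem_rect (z₀ : ℂ) (hz₀ : 0 < z₀.im) (n : ℕ) : z₀ ∈ tdmRect z₀ n := by
  rw [tdmRect, mem_reProdIm]
  have hn : (0 : ℝ) ≤ n := Nat.cast_nonneg n
  refine ⟨⟨by linarith, by linarith⟩, ⟨?_, by linarith⟩⟩
  rw [div_lt_iff₀ (by linarith)]
  nlinarith

theorem tdmRect_mono (z₀ : ℂ) (hz₀ : 0 < z₀.im) {n n' : ℕ} (h : n ≤ n') :
    tdmRect z₀ n ⊆ tdmRect z₀ n' := by
  intro z hz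
  rw [tdmRect, mem_reProdIm] at hz ⊢
  have hn : (n : ℝ) ≤ n' := Nat.cast_le.mpr h
  have hn0 : (0 : ℝ) ≤ n := Nat.cast_nonneg n
  obtain ⟨⟨h1, h2⟩, ⟨h3, h4⟩⟩ := hz
  refine ⟨⟨by linarith, by linarith⟩, ⟨?_, by linarith⟩⟩
  refine lt_of_le_of_lt ?_ h3
  apply div_le_div_of_nonneg_left hz₀.le (by linarith) (by linarith)

theorem tdm_exists_mem_rect (z₀ : ℂ) (hz₀ : 0 < z₀.im) {z : ℂ} (hz : 0 < z.im) :
    ∃ n : ℕ, z ∈ tdmRect z₀ n := by
  obtain ⟨n, hn⟩ := exists_nat_gt (max (max |z.re - z₀.re| z.im) (z₀.im / z.im))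
  refine ⟨n, ?_⟩
  rw [tdmRect, mem_reProdIm]
  have h1 : |z.re - z₀.re| < n := lt_of_le_of_lt (le_trans (le_max_left _ _) (le_max_left _ _)) hn
  have h2 : z.im < n := lt_of_le_of_lt (le_trans (le_max_right _ _) (le_max_left _ _)) hn
  have h3 : z₀.im / z.im < n := lt_of_le_of_lt (le_max_right _ _) hn
  rw [abs_lt] at h1
  refine ⟨⟨by linarith [h1.1], by linarith [h1.2]⟩, ⟨?_, by linarith⟩⟩
  rw [div_lt_iff₀ hz] at h3
  have hn0 : (0 : ℝ) ≤ n := Nat.cast_nonneg n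
  rw [div_lt_iff₀ (by linarith)]
  nlinarith

/-! ### Roots on the upper half plane -/

theorem tdm_exists_root_upper {m : ℕ} (hm : 0 < m) (f : ℂ → ℂ)
    (hf : DifferentiableOn ℂ f {z | 0 < z.im}) (z₀ : ℂ) (hz₀ : 0 < z₀.im) (hfz₀ : f z₀ ≠ 0)
    (hord : ∀ z : ℂ, 0 < z.im → ∃ k : ℕ, analyticOrderAt f z = ((m * k : ℕ) : ℕ∞)) :
    ∃ u : ℂ → ℂ, DifferentiableOn ℂ u {z | 0 < z.im} ∧ ∀ z : ℂ, 0 < z.im → u z ^ m = f z := by
  classical
  have hUo : IsOpen {z : ℂ | 0 < z.im} := isOpen_lt continuous_const Complex.continuous_im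
  have hUc : IsPreconnected {z : ℂ | 0 < z.im} := (convex_halfSpace_im_gt 0).isPreconnected
  -- roots on each rectangle
  have hstep : ∀ n : ℕ, ∃ v : ℂ → ℂ, DifferentiableOn ℂ v (tdmRect z₀ n) ∧
      ∀ z ∈ tdmRect z₀ n, v z ^ m = f z := by
    intro n
    have hfin := tdm_finite_zeros hUo hUc hf hz₀ hfz₀ (tdmRectC_isCompact z₀ n)
      (tdmRectC_subset z₀ hz₀ n)
    refine tdm_exists_root_finite (tdmRect_isOpen z₀ n) (tdmRect_convex z₀ n)
      ⟨z₀, tdm_mem_rect z₀ hz₀ n⟩ hm hfin.toFinset f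
      (hf.mono ((tdmRect_subset_C z₀ n).trans (tdmRectC_subset z₀ hz₀ n))) ?_ ?_
    · intro z hz hzS h0
      apply hzS
      rw [Set.Finite.mem_toFinset]
      exact ⟨tdmRect_subset_C z₀ n hz, h0⟩
    · intro z _ hz
      exact hord z (tdmRectC_subset z₀ hz₀ n (tdmRect_subset_C z₀ n hz))
  -- normalisation at `z₀`
  obtain ⟨v₀, -, hv₀⟩ := hstep 0
  set c₀ := v₀ z₀ with hc₀
  have hc₀m : c₀ ^ m = f z₀ := hv₀ z₀ (tdm_mem_rect z₀ hz₀ 0)
  have hc₀0 : c₀ ≠ 0 := by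
    intro h
    rw [h, zero_pow hm.ne'] at hc₀m
    exact hfz₀ hc₀m.symm
  have hstep' : ∀ n : ℕ, ∃ u : ℂ → ℂ, DifferentiableOn ℂ u (tdmRect z₀ n) ∧
      (∀ z ∈ tdmRect z₀ n, u z ^ m = f z) ∧ u z₀ = c₀ := by
    intro n
    obtain ⟨v, hv, hv'⟩ := hstep n
    have hvz₀ : v z₀ ^ m = f z₀ := hv' z₀ (tdm_mem_rect z₀ hz₀ n)
    have hvz₀0 : v z₀ ≠ 0 := by
      intro h
      rw [h, zero_pow hm.ne'] at hvz₀
      exact hfz₀ hvz₀.symm
    refine ⟨fun z => c₀ / v z₀ * v z, hv.const_mul _, fun z hz => ?_, ?_⟩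
    · rw [mul_pow, div_pow, hc₀m, hvz₀, div_self hfz₀, one_mul, hv' z hz]
    · field_simp
  choose u hu1 hu2 hu3 using hstep'
  -- consistency
  have hcons : ∀ n n' : ℕ, n ≤ n' → EqOn (u n') (u n) (tdmRect z₀ n) := by
    intro n n' hnn'
    have hsub := tdmRect_mono z₀ hz₀ hnn'
    have hmem := tdm_mem_rect z₀ hz₀ n
    have ha1 : AnalyticOnNhd ℂ (u n') (tdmRect z₀ n) :=
      ((hu1 n').mono hsub).analyticOnNhd (tdmRect_isOpen z₀ n)
    have ha2 : AnalyticOnNhd ℂ (u n) (tdmRect z₀ n) :=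
      (hu1 n).analyticOnNhd (tdmRect_isOpen z₀ n)
    apply ha1.eqOn_of_preconnected_of_eventuallyEq ha2 (tdmRect_convex z₀ n).isPreconnected hmem
    apply tdm_root_eventually_eq hm (ha1 z₀ hmem).continuousAt (ha2 z₀ hmem).continuousAt
    · rw [hu3, hu3]
    · rw [hu3]; exact hc₀0
    · filter_upwards [(tdmRect_isOpen z₀ n).mem_nhds hmem] with z hz
      rw [hu2 n' z (hsub hz), hu2 n z hz]
  -- gluing
  let Nf : ℂ → ℕ := fun z => if h : ∃ n, z ∈ tdmRect z₀ n then Nat.find h else 0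
  have hN : ∀ (n : ℕ) (z : ℂ), z ∈ tdmRect z₀ n → u (Nf z) z = u n z := by
    intro n z hz
    have hex : ∃ n, z ∈ tdmRect z₀ n := ⟨n, hz⟩
    have h1 : Nf z = Nat.find hex := dif_pos hex
    have h2 : z ∈ tdmRect z₀ (Nf z) := by rw [h1]; exact Nat.find_spec hex
    have h3 : Nf z ≤ n := by rw [h1]; exact Nat.find_min' hex hz
    exact (hcons (Nf z) n h3 h2).symm
  refine ⟨fun z => u (Nf z) z, ?_, ?_⟩
  · intro z hz
    obtain ⟨n, hn⟩ := tdm_exists_mem_rect z₀ hz₀ hz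
    apply DifferentiableAt.differentiableWithinAt
    have h1 : DifferentiableAt ℂ (u n) z :=
      (hu1 n).differentiableAt ((tdmRect_isOpen z₀ n).mem_nhds hn)
    apply h1.congr_of_eventuallyEq
    filter_upwards [(tdmRect_isOpen z₀ n).mem_nhds hn] with w hw
    exact hN n w hw
  · intro z hz
    obtain ⟨n, hn⟩ := tdm_exists_mem_rect z₀ hz₀ hz
    show u (Nf z) z ^ m = f z
    rw [hN n z hn, hu2 n z hn]

/-! ### Roots of holomorphic and meromorphic functions on `ℍ` -/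

open UpperHalfPlane in
/-- **WP-R**: a nonzero holomorphic function on `ℍ` all of whose zeros have order divisible by `m`
is an `m`-th power of a holomorphic function. -/
theorem tdm_exists_root_hol (m : ℕ) (hm : 0 < m) (a : holH) (ha : a ≠ 0)
    (h : ∀ τ : ℍ, (m : ℤ) ∣ ((ordAt (a : ℍ → ℂ) τ).toNat : ℤ)) : ∃ u : holH, u ^ m = a := by
  have hmd : MDifferentiable 𝓘(ℂ) 𝓘(ℂ) (a : ℍ → ℂ) := a.2
  have hf : DifferentiableOn ℂ ((a : ℍ → ℂ) ∘ ofComplex) {z | 0 < z.im} :=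
    UpperHalfPlane.mdifferentiable_iff.mp hmd
  obtain ⟨τ₀, hτ₀⟩ : ∃ τ₀ : ℍ, (a : ℍ → ℂ) τ₀ ≠ 0 := by
    by_contra hcon
    push Not at hcon
    apply ha
    apply Subtype.ext
    funext τ
    exact hcon τ
  have hfz₀ : ((a : ℍ → ℂ) ∘ ofComplex) (τ₀ : ℂ) ≠ 0 := by
    rw [Function.comp_apply, ofComplex_apply]
    exact hτ₀
  have hord : ∀ z : ℂ, 0 < z.im → ∃ k : ℕ,
      analyticOrderAt ((a : ℍ → ℂ) ∘ ofComplex) z = ((m * k : ℕ) : ℕ∞) := by
    intro z hz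
    have h1 := h ⟨z, hz⟩
    have h2 : ordAt (a : ℍ → ℂ) ⟨z, hz⟩ ≠ ⊤ := Fermat.Agent.S24Lib.ordAt_ne_top ha _
    obtain ⟨k, hk⟩ := Int.natCast_dvd_natCast.mp h1
    refine ⟨k, ?_⟩
    have h3 : analyticOrderAt ((a : ℍ → ℂ) ∘ ofComplex) z = ordAt (a : ℍ → ℂ) ⟨z, hz⟩ := rfl
    rw [h3, ← hk, ENat.natCast_toNat h2]
  obtain ⟨u, hu1, hu2⟩ := tdm_exists_root_upper hm _ hf (τ₀ : ℂ) τ₀.im_pos hfz₀ hord
  have hud : MDifferentiable 𝓘(ℂ) 𝓘(ℂ) (fun τ : ℍ => u (τ : ℂ)) := by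
    rw [UpperHalfPlane.mdifferentiable_iff]
    apply hu1.congr
    intro z hz
    have hz' : 0 < z.im := hz
    simp only [Function.comp_apply, ofComplex_apply_of_im_pos hz']
  refine ⟨⟨fun τ : ℍ => u (τ : ℂ), hud⟩, ?_⟩
  apply Subtype.ext
  funext τ
  have h1 := hu2 (τ : ℂ) τ.im_pos
  rw [Function.comp_apply, ofComplex_apply] at h1
  show u (τ : ℂ) ^ m = (a : ℍ → ℂ) τ
  exact h1

open UpperHalfPlane in
/-- **WP-R**, meromorphic version: a nonzero meromorphic function on `ℍ` all of whose orders are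
divisible by `m` is an `m`-th power. -/
theorem tdm_exists_root (m : ℕ) (hm : 0 < m) (y : tdmMer) (hy : y ≠ 0)
    (h : ∀ τ : ℍ, (m : ℤ) ∣ tdmOrd τ y) : ∃ g : tdmMer, g ^ m = y := by
  obtain ⟨a, b, hb, rfl⟩ := IsFractionRing.div_surjective (A := holH) y
  have hb0 : b ≠ 0 := nonZeroDivisors.ne_zero hb
  have ha0 : a ≠ 0 := by
    rintro rfl
    apply hy
    simp
  have hane : tdmOfHol a ≠ 0 := fun h => ha0 (tdmOfHol_injective (h.trans (map_zero _).symm))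
  have hbne : tdmOfHol b ≠ 0 := fun h => hb0 (tdmOfHol_injective (h.trans (map_zero _).symm))
  have hc0 : a * b ^ (m - 1) ≠ 0 := mul_ne_zero ha0 (pow_ne_zero _ hb0)
  have hdvd : ∀ τ : ℍ, (m : ℤ) ∣ ((ordAt ((a * b ^ (m - 1) : holH) : ℍ → ℂ) τ).toNat : ℤ) := by
    intro τ
    rw [← tdmOrd_ofHol τ hc0, map_mul, map_pow, tdmOrd_mul τ hane (pow_ne_zero _ hbne),
      tdmOrd_pow]
    have h1 := h τ
    rw [tdmOrd_div τ hane hbne] at h1
    have h2 : tdmOrd τ (tdmOfHol a) + ((m - 1 : ℕ) : ℤ) * tdmOrd τ (tdmOfHol b)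
        = (tdmOrd τ (tdmOfHol a) - tdmOrd τ (tdmOfHol b)) + (m : ℤ) * tdmOrd τ (tdmOfHol b) := by
      rw [Nat.cast_sub hm]
      push_cast
      ring
    rw [h2]
    exact dvd_add h1 (dvd_mul_right _ _)
  obtain ⟨u, hu⟩ := tdm_exists_root_hol m hm (a * b ^ (m - 1)) hc0 hdvd
  refine ⟨tdmOfHol u / tdmOfHol b, ?_⟩
  rw [div_pow, ← map_pow, hu, map_mul, map_pow]
  have h3 : tdmOfHol b ^ m = tdmOfHol b ^ (m - 1) * tdmOfHol b := by
    rw [← pow_succ, Nat.sub_add_cancel hm]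
  rw [h3]
  field_simp

end Fermat.Agent.T1
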