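/-
T1-D (WP-Ψ, part 2): the multiplier of a root at a cusp.

If `g ^ m = A / B` with `A, B` holomorphic, `B` nonvanishing for `Im τ > C`,
`A / B · exp(-2πi κ τ)` tends to a nonzero limit at `i∞` and `g(τ + n) = c g(τ)`, then
`c = exp(2πi κ n / m)`.
-/
import Mathlib
import Fermat.Agent.Lib.T1.Mono.Root
import Fermat.Agent.Lib.T1.Mono.CharOf

set_option autoImplicit false

namespace Fermat.Agent.T1

open Complex Set Filter Topology Matrix MatrixGroups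
open UpperHalfPlane hiding I
open scoped Manifold Real
open Fermat.Agent.S24Lib (holH ordAt)

theorem tdmOfHol_ne_zero {f : holH} (hf : f ≠ 0) : tdmOfHol f ≠ 0 :=
  fun h => hf (tdmOfHol_injective (h.trans (map_zero _).symm))

/-- **a root of a quotient of holomorphic functions has the same denominator** -/
theorem tdm_exists_hol_of_pow (m : ℕ) (hm : 0 < m) (g : tdmMer) (A B : holH) (hB : B ≠ 0)
    (h : g ^ m = tdmOfHol A / tdmOfHol B) : ∃ G : holH, g = tdmOfHol G / tdmOfHol B := by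
  have hBne : tdmOfHol B ≠ 0 := tdmOfHol_ne_zero hB
  by_cases hA : A = 0
  · refine ⟨0, ?_⟩
    rw [hA, map_zero, zero_div] at h
    rw [map_zero, zero_div]
    exact pow_eq_zero_iff hm.ne' |>.mp h
  have hAne : tdmOfHol A ≠ 0 := tdmOfHol_ne_zero hA
  have hg : g ≠ 0 := by
    rintro rfl
    rw [zero_pow hm.ne'] at h
    exact (div_ne_zero hAne hBne) h.symm
  obtain ⟨k, rfl⟩ : ∃ k, m = k + 1 := ⟨m - 1, by omega⟩
  set H : holH := A * B ^ k with hH
  have hHne : H ≠ 0 := mul_ne_zero hA (pow_ne_zero _ hB)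
  have hpow : (g * tdmOfHol B) ^ (k + 1) = tdmOfHol H := by
    rw [mul_pow, h, hH, map_mul, map_pow, pow_succ]
    field_simp
  have hord : ∀ τ : ℍ, ((k + 1 : ℕ) : ℤ) ∣ ((ordAt (H : ℍ → ℂ) τ).toNat : ℤ) := by
    intro τ
    rw [← tdmOrd_ofHol τ hHne, ← hpow, tdmOrd_pow]
    exact dvd_mul_right _ _
  obtain ⟨u, hu⟩ := tdm_exists_root_hol (k + 1) hm H hHne hord
  have hune : u ≠ 0 := by
    rintro rfl
    rw [zero_pow hm.ne'] at hu
    exact hHne hu.symm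
  have h1 : (g * tdmOfHol B) ^ (k + 1) = (tdmOfHol u) ^ (k + 1) := by
    rw [hpow, ← map_pow, hu]
  obtain ⟨ζ, -, hζ⟩ := tdm_root_unique hm.ne' (tdmOfHol_ne_zero hune) h1
  refine ⟨algebraMap ℂ holH ζ * u, ?_⟩
  rw [eq_div_iff hBne, hζ, map_mul, Algebra.smul_def, IsScalarTower.algebraMap_apply ℂ holH tdmMer]

theorem tdm_hol_continuous (f : holH) : Continuous (f : ℍ → ℂ) := by
  have hf : MDifferentiable 𝓘(ℂ) 𝓘(ℂ) (f : ℍ → ℂ) := f.2
  exact hf.continuous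

/-- **the multiplier at a cusp** -/
theorem tdm_mult_of_cusp (m : ℕ) (hm : 0 < m) (g : tdmMer) (n : ℤ) (c : ℂ)
    (hc : tdmSL (ModularGroup.T ^ n) g = c • g)
    (A B : holH) (hAB : g ^ m = tdmOfHol A / tdmOfHol B) (C : ℝ)
    (hB : ∀ τ : ℍ, C < τ.im → (B : ℍ → ℂ) τ ≠ 0) (κ : ℝ) (w₀ : ℂ) (hw₀ : w₀ ≠ 0)
    (hlim : Tendsto (fun τ : ℍ => (A : ℍ → ℂ) τ / (B : ℍ → ℂ) τ * cexp (-(2 * π * I * κ * τ)))
      atImInfty (𝓝 w₀)) :
    c = cexp (2 * π * I * κ * n / m) := by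
  have hmC : (m : ℂ) ≠ 0 := by exact_mod_cast hm.ne'
  -- `B ≠ 0`
  have hBne : B ≠ 0 := by
    rintro rfl
    let τ₁ : ℍ := ⟨⟨0, max C 0 + 1⟩, by
      show 0 < max C 0 + 1
      have := le_max_right C 0
      linarith⟩
    have h1 : C < τ₁.im := by
      show C < max C 0 + 1
      have := le_max_left C 0
      linarith
    exact hB τ₁ h1 rfl
  obtain ⟨G, hG⟩ := tdm_exists_hol_of_pow m hm g A B hBne hAB
  have hBne' : tdmOfHol B ≠ 0 := tdmOfHol_ne_zero hBne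
  -- pointwise relations
  have hrel1 : ∀ τ : ℍ, (G : ℍ → ℂ) τ ^ m * (B : ℍ → ℂ) τ = (A : ℍ → ℂ) τ * (B : ℍ → ℂ) τ ^ m := by
    have h1 : G ^ m * B = A * B ^ m := by
      apply tdmOfHol_injective
      rw [hG, div_pow] at hAB
      rw [map_mul, map_mul, map_pow, map_pow]
      have h2 : (tdmOfHol B) ^ m ≠ 0 := pow_ne_zero _ hBne'
      field_simp at hAB
      linear_combination hAB
    intro τ
    have := congrArg (fun x : holH => (x : ℍ → ℂ) τ) h1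
    exact this
  have hBT : tdmHolSL (ModularGroup.T ^ n) B ≠ 0 := fun h =>
    hBne (tdmHolComp_injective _ (tdm_det_SL_pos _) (h.trans (map_zero _).symm))
  have hrel2 : ∀ τ : ℍ, (G : ℍ → ℂ) ((n : ℝ) +ᵥ τ) * (B : ℍ → ℂ) τ
      = c * ((G : ℍ → ℂ) τ * (B : ℍ → ℂ) ((n : ℝ) +ᵥ τ)) := by
    have h1 : tdmHolSL (ModularGroup.T ^ n) G * B
        = algebraMap ℂ holH c * (G * tdmHolSL (ModularGroup.T ^ n) B) := by
      apply tdmOfHol_injective
      rw [hG, map_div₀, tdmSL_ofHol, tdmSL_ofHol, Algebra.smul_def,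
        IsScalarTower.algebraMap_apply ℂ holH tdmMer] at hc
      rw [map_mul, map_mul, map_mul]
      have h2 : tdmOfHol (tdmHolSL (ModularGroup.T ^ n) B) ≠ 0 := tdmOfHol_ne_zero hBT
      field_simp at hc
      linear_combination hc
    intro τ
    have := congrArg (fun x : holH => (x : ℍ → ℂ) τ) h1
    beta_reduce at this
    have e : ModularGroup.T ^ n • τ = (n : ℝ) +ᵥ τ := UpperHalfPlane.modular_T_zpow_smul τ n
    have h3 : ((tdmHolSL (ModularGroup.T ^ n) G * B : holH) : ℍ → ℂ) τ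
        = (G : ℍ → ℂ) ((n : ℝ) +ᵥ τ) * (B : ℍ → ℂ) τ := by
      show (G : ℍ → ℂ) (ModularGroup.T ^ n • τ) * (B : ℍ → ℂ) τ = _
      rw [e]
    have h4 : ((algebraMap ℂ holH c * (G * tdmHolSL (ModularGroup.T ^ n) B) : holH) : ℍ → ℂ) τ
        = c * ((G : ℍ → ℂ) τ * (B : ℍ → ℂ) ((n : ℝ) +ᵥ τ)) := by
      show c * ((G : ℍ → ℂ) τ * (B : ℍ → ℂ) (ModularGroup.T ^ n • τ)) = _
      rw [e]
    rw [h3, h4] at this
    exact this
  -- the function `V`
  let V : ℍ → ℂ := fun τ =>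
    (G : ℍ → ℂ) τ / (B : ℍ → ℂ) τ * cexp (-(2 * π * I * κ * τ) / m)
  have hVc : ContinuousOn V {τ : ℍ | C < τ.im} := by
    apply ContinuousOn.mul
    · exact (tdm_hol_continuous G).continuousOn.div (tdm_hol_continuous B).continuousOn
        (fun τ hτ => hB τ hτ)
    · apply Continuous.continuousOn
      have : Continuous fun τ : ℍ => (τ : ℂ) := UpperHalfPlane.continuous_coe
      fun_prop
  have hVm : ∀ τ : ℍ, C < τ.im →
      V τ ^ m = (A : ℍ → ℂ) τ / (B : ℍ → ℂ) τ * cexp (-(2 * π * I * κ * τ)) := by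
    intro τ hτ
    have hb := hB τ hτ
    show ((G : ℍ → ℂ) τ / (B : ℍ → ℂ) τ * cexp (-(2 * π * I * κ * τ) / m)) ^ m = _
    rw [mul_pow, ← Complex.exp_nat_mul, mul_div_cancel₀ _ hmC, div_pow]
    congr 1
    rw [div_eq_div_iff (pow_ne_zero _ hb) hb]
    exact hrel1 τ
  have hVlim : Tendsto (fun τ => V τ ^ m) atImInfty (𝓝 w₀) := by
    apply hlim.congr'
    rw [Filter.EventuallyEq, Filter.Eventually, atImInfty_mem]
    refine ⟨C + 1, fun τ hτ => ?_⟩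
    exact (hVm τ (by linarith)).symm
  have hVtr : ∀ τ : ℍ, C < τ.im →
      V ((n : ℝ) +ᵥ τ) = (c * cexp (-(2 * π * I * κ * n) / m)) * V τ := by
    intro τ hτ
    have hb := hB τ hτ
    have hb' : (B : ℍ → ℂ) ((n : ℝ) +ᵥ τ) ≠ 0 := hB _ (by rw [UpperHalfPlane.vadd_im]; exact hτ)
    show (G : ℍ → ℂ) ((n : ℝ) +ᵥ τ) / (B : ℍ → ℂ) ((n : ℝ) +ᵥ τ)
        * cexp (-(2 * π * I * κ * (((n : ℝ) +ᵥ τ : ℍ) : ℂ)) / m)
      = (c * cexp (-(2 * π * I * κ * n) / m))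
        * ((G : ℍ → ℂ) τ / (B : ℍ → ℂ) τ * cexp (-(2 * π * I * κ * τ) / m))
    have h1 : (G : ℍ → ℂ) ((n : ℝ) +ᵥ τ) / (B : ℍ → ℂ) ((n : ℝ) +ᵥ τ)
        = c * ((G : ℍ → ℂ) τ / (B : ℍ → ℂ) τ) := by
      rw [div_eq_iff hb']
      have := hrel2 τ
      field_simp
      linear_combination this
    have h2 : cexp (-(2 * π * I * κ * (((n : ℝ) +ᵥ τ : ℍ) : ℂ)) / m)
        = cexp (-(2 * π * I * κ * n) / m) * cexp (-(2 * π * I * κ * τ) / m) := by
      rw [← Complex.exp_add, UpperHalfPlane.coe_vadd]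
      congr 1
      push_cast
      ring
    rw [h1, h2]
    ring
  have hone := tdm_const_of_cusp m hm (n : ℝ) C V hVc w₀ hw₀ hVlim _ hVtr
  have h3 : cexp (2 * π * I * κ * n / m) * cexp (-(2 * π * I * κ * n) / m) = 1 := by
    rw [← Complex.exp_add]
    have : 2 * π * I * κ * n / m + -(2 * π * I * κ * n) / m = 0 := by ring
    rw [this, Complex.exp_zero]
  have h4 : cexp (-(2 * π * I * κ * n) / m) ≠ 0 := Complex.exp_ne_zero _
  apply mul_right_cancel₀ h4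
  rw [hone, h3]

end Fermat.Agent.T1
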