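/-
T1-D, WP-E: Eisenstein series with character (part 1: the general Eisenstein sum).

`tdmEisGen c k z = ∑' v : ℤ², c v * (v₀ z + v₁) ^ (-k)` for a bounded coefficient function `c`:
holomorphy, the slash action of `SL(2, ℤ)` (`tdmEisGen_slash`), boundedness at `i∞`.
The coefficient function `tdmEisCoeff N χ` (`χ(γ)⁻¹` on the bottom row of `γ ∈ Γ₀(N)`, `0` elsewhere)
for a character `χ` of `Γ₀(N)` trivial on the elements with `tr² = 4`, and the weight-`4`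
Eisenstein series `tdmEis N χ` with `tdmEis N χ (γ τ) = χ(γ) (cτ+d)⁴ tdmEis N χ τ`.
-/
import Mathlib
import Fermat.Agent.Lib.T1.Mono.Char

set_option autoImplicit false
set_option linter.unusedSectionVars false
set_option linter.unusedVariables false
set_option linter.style.haveILetI false

open UpperHalfPlane Filter Topology Matrix MatrixGroups CongruenceSubgroup ModularForm
  EisensteinSeries Complex
open scoped Manifold

namespace Fermat.Agent.T1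

noncomputable section

section General

/-- Eisenstein sum with coefficients -/
def tdmEisGen (c : (Fin 2 → ℤ) → ℂ) (k : ℤ) (z : ℍ) : ℂ :=
  ∑' v : Fin 2 → ℤ, c v * eisSummand k v z

variable {c : (Fin 2 → ℤ) → ℂ} (hc : ∀ v, ‖c v‖ ≤ 1) {k : ℤ} (hk : 3 ≤ k)

include hc in
lemma tdm_norm_term_le (v : Fin 2 → ℤ) (z : ℍ) :
    ‖c v * eisSummand k v z‖ ≤ ‖eisSummand k v z‖ := by
  rw [norm_mul]
  exact mul_le_of_le_one_left (norm_nonneg _) (hc v)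

include hc hk in
lemma tdmEisGen_summable (z : ℍ) : Summable (fun v => c v * eisSummand k v z) :=
  Summable.of_norm_bounded (summable_norm_eisSummand hk z) (fun v => tdm_norm_term_le hc v z)

include hc hk in
theorem tdmEisGen_tendstoLocallyUniformly :
    TendstoLocallyUniformly (fun (s : Finset (Fin 2 → ℤ)) ↦ (∑ x ∈ s, c x * eisSummand k x ·))
      (tdmEisGen c k ·) Filter.atTop := by
  have hk' : (2 : ℝ) < k := by norm_cast
  have p_sum : Summable fun x : Fin 2 → ℤ ↦ ‖x‖ ^ (-k) :=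
    mod_cast (summable_one_div_norm_rpow hk')
  simp only [tendstoLocallyUniformly_iff_forall_isCompact, tdmEisGen]
  intro K hK
  obtain ⟨A, B, hB, HABK⟩ := subset_verticalStrip_of_isCompact hK
  refine (tendstoUniformlyOn_tsum (hu := p_sum.mul_left <| r ⟨⟨A, B⟩, hB⟩ ^ (-k : ℝ))
    (fun p z hz ↦ ?_)).mono HABK
  refine (tdm_norm_term_le hc p z).trans ?_
  simpa only [eisSummand, one_div, ← _root_.zpow_neg, norm_zpow, ← Real.rpow_intCast,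
    Int.cast_neg] using summand_bound_of_mem_verticalStrip (by positivity) p hB hz

include hc hk in
lemma tdmEisGen_tendstoLocallyUniformlyOn :
    TendstoLocallyUniformlyOn (fun (s : Finset (Fin 2 → ℤ)) ↦
      ↑ₕ(fun (z : ℍ) ↦ ∑ x ∈ s, c x * eisSummand k x z)) (↑ₕ(tdmEisGen c k))
          Filter.atTop {z : ℂ | 0 < z.im} := by
  rw [← upperHalfPlaneSet, ← range_coe, ← Set.image_univ]
  apply TendstoLocallyUniformlyOn.comp (s := ⊤) _ _ _ (OpenPartialHomeomorph.continuousOn_symm _)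
  · simp only [Set.top_eq_univ, tendstoLocallyUniformlyOn_univ]
    apply tdmEisGen_tendstoLocallyUniformly hc hk
  · simp only [IsOpenEmbedding.toOpenPartialHomeomorph_target, Set.top_eq_univ, Set.mapsTo_range_iff,
    Set.mem_univ, forall_const]

include hc hk in
theorem tdmEisGen_mdiff : MDiff (tdmEisGen c k) := by
  intro τ
  suffices DifferentiableAt ℂ (↑ₕ(tdmEisGen c k)) τ.1 by
    convert!
      MDifferentiableAt.comp τ (DifferentiableAt.mdifferentiableAt this) τ.mdifferentiable_coe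
    exact funext fun z ↦ (comp_ofComplex (tdmEisGen c k) z).symm
  refine DifferentiableOn.differentiableAt ?_ (isOpen_upperHalfPlaneSet.mem_nhds τ.2)
  refine (tdmEisGen_tendstoLocallyUniformlyOn hc hk).differentiableOn
    (Eventually.of_forall fun s ↦ ?_) isOpen_upperHalfPlaneSet
  have : (↑ₕ(fun (z : ℍ) ↦ ∑ x ∈ s, c x * eisSummand k x z)) =
      fun w : ℂ => ∑ x ∈ s, c x * (↑ₕ(eisSummand k x)) w := by
    ext w
    simp
  rw [this]
  exact DifferentiableOn.fun_sum fun x _ ↦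
    (eisSummand_extension_differentiableOn k x).const_mul (c x)


/-- right multiplication by `σ ∈ SL(2, ℤ)` as a permutation of `ℤ²` -/
def tdmVecMulEquiv (σ : SL(2, ℤ)) : (Fin 2 → ℤ) ≃ (Fin 2 → ℤ) where
  toFun v := v ᵥ* σ
  invFun v := v ᵥ* ↑(σ⁻¹)
  left_inv v := by
    simp_rw [vecMul_vecMul, ← Matrix.SpecialLinearGroup.coe_mul, mul_inv_cancel,
      Matrix.SpecialLinearGroup.coe_one, vecMul_one]
  right_inv v := by
    simp_rw [vecMul_vecMul, ← Matrix.SpecialLinearGroup.coe_mul, inv_mul_cancel,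
      Matrix.SpecialLinearGroup.coe_one, vecMul_one]

lemma tdm_vecMul_inv_cancel (σ : SL(2, ℤ)) (v : Fin 2 → ℤ) :
    (v ᵥ* (σ : Matrix (Fin 2) (Fin 2) ℤ)) ᵥ* ((σ⁻¹ : SL(2, ℤ)) : Matrix (Fin 2) (Fin 2) ℤ) = v :=
  (tdmVecMulEquiv σ).left_inv v

lemma tdm_vecMul_inv_cancel' (σ : SL(2, ℤ)) (v : Fin 2 → ℤ) :
    (v ᵥ* ((σ⁻¹ : SL(2, ℤ)) : Matrix (Fin 2) (Fin 2) ℤ)) ᵥ* (σ : Matrix (Fin 2) (Fin 2) ℤ) = v :=
  (tdmVecMulEquiv σ).right_inv v

/-- the slash action of `SL(2, ℤ)` on Eisenstein sums with coefficients -/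
theorem tdmEisGen_slash (c : (Fin 2 → ℤ) → ℂ) (k : ℤ) (σ : SL(2, ℤ)) :
    tdmEisGen c k ∣[k] σ =
      tdmEisGen (fun w => c (w ᵥ* ((σ⁻¹ : SL(2, ℤ)) : Matrix (Fin 2) (Fin 2) ℤ))) k := by
  ext1 z
  rw [SL_slash_apply, _root_.zpow_neg,
    mul_inv_eq_iff_eq_mul₀ (zpow_ne_zero _ <| denom_ne_zero _ z)]
  unfold tdmEisGen
  have h1 : ∀ v : Fin 2 → ℤ, c v * eisSummand k v (σ • z) =
      denom σ z ^ k * (c v * eisSummand k (v ᵥ* σ) z) := by
    intro v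
    rw [eisSummand_SL2_apply]
    ring
  simp_rw [h1, tsum_mul_left, mul_comm (_ ^ k)]
  congr 1
  have h2 := (tdmVecMulEquiv σ).tsum_eq
    (fun w => c (w ᵥ* ((σ⁻¹ : SL(2, ℤ)) : Matrix (Fin 2) (Fin 2) ℤ)) * eisSummand k w z)
  rw [← h2]
  refine tsum_congr fun v => ?_
  change _ = c ((v ᵥ* (σ : Matrix (Fin 2) (Fin 2) ℤ)) ᵥ*
    ((σ⁻¹ : SL(2, ℤ)) : Matrix (Fin 2) (Fin 2) ℤ)) * eisSummand k (v ᵥ* σ) z
  rw [tdm_vecMul_inv_cancel]

lemma tdm_denom_T_zpow (n : ℤ) (z : ℍ) : denom ((ModularGroup.T ^ n : SL(2, ℤ))) z = 1 := by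
  rw [ModularGroup.denom_apply]
  have h : (ModularGroup.T ^ n).1 = !![1, n; 0, 1] := ModularGroup.coe_T_zpow n
  have h10 : (ModularGroup.T ^ n) 1 0 = 0 := by
    rw [h]; rfl
  have h11 : (ModularGroup.T ^ n) 1 1 = 1 := by
    rw [h]; rfl
  rw [h10, h11]
  simp

/-- the sum of the norms of all the summands is `T`-invariant -/
lemma tdm_tsum_norm_T_zpow (k : ℤ) (n : ℤ) (z : ℍ) :
    ∑' v : Fin 2 → ℤ, ‖eisSummand k v (ModularGroup.T ^ n • z)‖ =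
      ∑' v : Fin 2 → ℤ, ‖eisSummand k v z‖ := by
  have h1 : ∀ v : Fin 2 → ℤ, ‖eisSummand k v (ModularGroup.T ^ n • z)‖ =
      ‖eisSummand k (v ᵥ* ((ModularGroup.T ^ n : SL(2, ℤ)) : Matrix (Fin 2) (Fin 2) ℤ)) z‖ := by
    intro v
    rw [eisSummand_SL2_apply, tdm_denom_T_zpow, _root_.one_zpow, one_mul]
  simp_rw [h1]
  exact (tdmVecMulEquiv (ModularGroup.T ^ n)).tsum_eq (fun w => ‖eisSummand k w z‖)

include hc hk in
lemma tdmEisGen_norm_le (z : ℍ) : ‖tdmEisGen c k z‖ ≤ ∑' v : Fin 2 → ℤ, ‖eisSummand k v z‖ := by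
  unfold tdmEisGen
  refine (norm_tsum_le_tsum_norm ?_).trans ?_
  · exact (summable_norm_eisSummand hk z).of_nonneg_of_le (fun _ => norm_nonneg _)
      (fun v => tdm_norm_term_le hc v z)
  · exact Summable.tsum_le_tsum (fun v => tdm_norm_term_le hc v z)
      ((summable_norm_eisSummand hk z).of_nonneg_of_le (fun _ => norm_nonneg _)
        (fun v => tdm_norm_term_le hc v z)) (summable_norm_eisSummand hk z)

include hc hk in
/-- Eisenstein sums with bounded coefficients are bounded at `i∞` -/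
theorem tdmEisGen_isBoundedAtImInfty : IsBoundedAtImInfty (tdmEisGen c k) := by
  rw [UpperHalfPlane.isBoundedAtImInfty_iff]
  refine ⟨∑' (x : Fin 2 → ℤ), r ⟨⟨(1 : ℕ), 2⟩, Nat.ofNat_pos⟩ ^ (-k) * ‖x‖ ^ (-k), 2, ?_⟩
  intro z hz
  obtain ⟨n, hn⟩ := ModularGroup_T_zpow_mem_verticalStrip z (N := 1) one_pos
  refine (tdmEisGen_norm_le hc hk z).trans ?_
  rw [← tdm_tsum_norm_T_zpow k ((1 : ℕ) * n) z]
  have hk' : (2 : ℝ) < k := by norm_cast
  apply (summable_norm_eisSummand hk _).tsum_le_tsum _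
  · exact_mod_cast (summable_one_div_norm_rpow hk').mul_left <|
      r ⟨⟨(1 : ℕ), 2⟩, Nat.ofNat_pos⟩ ^ (-k)
  · intro x
    simp_rw [eisSummand, norm_zpow]
    exact_mod_cast
      summand_bound_of_mem_verticalStrip (lt_trans two_pos hk').le x two_pos
      (verticalStrip_anti_right (1 : ℕ) hz hn)

end General


section Coeff

variable (N : ℕ) (χ : Gamma0 N →* ℂˣ)

/-- the bottom row of `γ` -/
def tdmBot (γ : SL(2, ℤ)) : Fin 2 → ℤ := (γ : Matrix (Fin 2) (Fin 2) ℤ) 1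

lemma tdmBot_mul (γ δ : SL(2, ℤ)) :
    tdmBot (γ * δ) = tdmBot γ ᵥ* (δ : Matrix (Fin 2) (Fin 2) ℤ) := by
  unfold tdmBot
  rw [Matrix.SpecialLinearGroup.coe_mul, Matrix.mul_apply_eq_vecMul]

lemma tdmBot_one : tdmBot 1 = ![0, 1] := by
  unfold tdmBot
  rw [Matrix.SpecialLinearGroup.coe_one]
  ext i
  fin_cases i
  · simp
  · change (1 : Matrix (Fin 2) (Fin 2) ℤ) 1 1 = 1
    simp

open Classical in
/-- the coefficient `χ(γ)⁻¹` attached to the bottom row of `γ ∈ Γ₀(N)` -/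
def tdmEisCoeff (v : Fin 2 → ℤ) : ℂ :=
  if h : ∃ γ : Gamma0 N, tdmBot (γ : SL(2, ℤ)) = v then (((χ h.choose)⁻¹ : ℂˣ) : ℂ) else 0

variable {N χ}

/-- an element of `SL(2, ℤ)` with bottom row `(0, 1)` has `tr² = 4` -/
lemma tdm_trace_sq_of_bot (δ : SL(2, ℤ)) (h : tdmBot δ = ![0, 1]) :
    (δ : Matrix (Fin 2) (Fin 2) ℤ).trace ^ 2 = 4 := by
  have h10 : (δ : Matrix (Fin 2) (Fin 2) ℤ) 1 0 = 0 := by
    have := congrFun h 0
    simpa [tdmBot] using this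
  have h11 : (δ : Matrix (Fin 2) (Fin 2) ℤ) 1 1 = 1 := by
    have := congrFun h 1
    simpa [tdmBot] using this
  have hdet := δ.det_coe
  rw [Matrix.det_fin_two, h10, h11, mul_zero, sub_zero, mul_one] at hdet
  rw [Matrix.trace_fin_two, hdet, h11]
  norm_num

variable (hpar : ∀ γ : Gamma0 N,
  ((γ : SL(2, ℤ)) : Matrix (Fin 2) (Fin 2) ℤ).trace ^ 2 = 4 → χ γ = 1)

include hpar in
lemma tdm_chi_eq_of_bot_eq {γ γ' : Gamma0 N}
    (h : tdmBot (γ : SL(2, ℤ)) = tdmBot (γ' : SL(2, ℤ))) : χ γ = χ γ' := by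
  have h1 : tdmBot (((γ' * γ⁻¹ : Gamma0 N)) : SL(2, ℤ)) = ![0, 1] := by
    rw [Subgroup.coe_mul, tdmBot_mul, ← h, ← tdmBot_mul, Subgroup.coe_inv, mul_inv_cancel,
      tdmBot_one]
  have h2 := hpar (γ' * γ⁻¹) (tdm_trace_sq_of_bot _ h1)
  rw [map_mul, map_inv, mul_inv_eq_one] at h2
  exact h2.symm

include hpar in
lemma tdmEisCoeff_bot (γ : Gamma0 N) :
    tdmEisCoeff N χ (tdmBot (γ : SL(2, ℤ))) = (((χ γ)⁻¹ : ℂˣ) : ℂ) := by
  have h : ∃ γ' : Gamma0 N, tdmBot (γ' : SL(2, ℤ)) = tdmBot (γ : SL(2, ℤ)) := ⟨γ, rfl⟩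
  unfold tdmEisCoeff
  rw [dif_pos h, tdm_chi_eq_of_bot_eq hpar h.choose_spec]

lemma tdmEisCoeff_of_not {v : Fin 2 → ℤ} (h : ¬ ∃ γ : Gamma0 N, tdmBot (γ : SL(2, ℤ)) = v) :
    tdmEisCoeff N χ v = 0 := by
  unfold tdmEisCoeff
  rw [dif_neg h]

include hpar in
lemma tdmEisCoeff_vecMul_inv (γ : Gamma0 N) (w : Fin 2 → ℤ) :
    tdmEisCoeff N χ (w ᵥ* (((γ : SL(2, ℤ))⁻¹ : SL(2, ℤ)) : Matrix (Fin 2) (Fin 2) ℤ)) =
      ((χ γ : ℂˣ) : ℂ) * tdmEisCoeff N χ w := by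
  by_cases h : ∃ δ : Gamma0 N, tdmBot (δ : SL(2, ℤ)) = w
  · obtain ⟨δ, rfl⟩ := h
    have h1 : tdmBot (δ : SL(2, ℤ)) ᵥ* (((γ : SL(2, ℤ))⁻¹ : SL(2, ℤ)) : Matrix (Fin 2) (Fin 2) ℤ) =
        tdmBot (((δ * γ⁻¹ : Gamma0 N)) : SL(2, ℤ)) := by
      rw [Subgroup.coe_mul, tdmBot_mul, Subgroup.coe_inv]
    rw [h1, tdmEisCoeff_bot hpar, tdmEisCoeff_bot hpar, map_mul, map_inv, mul_inv, inv_inv,
      Units.val_mul, mul_comm]
  · have h' : ¬ ∃ δ : Gamma0 N, tdmBot (δ : SL(2, ℤ)) =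
        w ᵥ* (((γ : SL(2, ℤ))⁻¹ : SL(2, ℤ)) : Matrix (Fin 2) (Fin 2) ℤ) := by
      rintro ⟨δ, hδ⟩
      apply h
      refine ⟨δ * γ, ?_⟩
      rw [Subgroup.coe_mul, tdmBot_mul, hδ, tdm_vecMul_inv_cancel']
    rw [tdmEisCoeff_of_not h, tdmEisCoeff_of_not h', mul_zero]

lemma tdm_norm_eisCoeff_le {m : ℕ} (hm : m ≠ 0) (hfin : ∀ γ : Gamma0 N, χ γ ^ m = 1)
    (v : Fin 2 → ℤ) : ‖tdmEisCoeff N χ v‖ ≤ 1 := by
  unfold tdmEisCoeff
  split_ifs with h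
  · have h1 : (((χ h.choose)⁻¹ : ℂˣ) : ℂ) ^ m = 1 := by
      rw [← Units.val_pow_eq_pow_val, inv_pow, hfin, inv_one, Units.val_one]
    exact (Complex.norm_eq_one_of_pow_eq_one h1 hm).le
  · rw [norm_zero]
    exact zero_le_one

end Coeff


section Eis

variable {N : ℕ} {χ : Gamma0 N →* ℂˣ} {m : ℕ}

/-- the weight-`4` Eisenstein series with character `χ` -/
def tdmEis (N : ℕ) (χ : Gamma0 N →* ℂˣ) (τ : ℍ) : ℂ := tdmEisGen (tdmEisCoeff N χ) 4 τ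

theorem tdmEis_mdiff (hm : m ≠ 0) (hχ : χ ∈ tdmX N m) : MDiff (tdmEis N χ) :=
  tdmEisGen_mdiff (tdm_norm_eisCoeff_le hm hχ.1) (by norm_num)

theorem tdmEis_slash (hχ : χ ∈ tdmX N m) (γ : Gamma0 N) :
    tdmEis N χ ∣[(4 : ℤ)] (γ : SL(2, ℤ)) = ((χ γ : ℂˣ) : ℂ) • tdmEis N χ := by
  unfold tdmEis
  rw [tdmEisGen_slash]
  ext z
  rw [Pi.smul_apply, smul_eq_mul]
  unfold tdmEisGen
  rw [← tsum_mul_left]
  refine tsum_congr fun w => ?_
  change tdmEisCoeff N χ (w ᵥ* (((γ : SL(2, ℤ))⁻¹ : SL(2, ℤ)) : Matrix (Fin 2) (Fin 2) ℤ)) *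
    eisSummand 4 w z = _
  rw [tdmEisCoeff_vecMul_inv hχ.2.1, mul_assoc]

theorem tdmEis_smul (hχ : χ ∈ tdmX N m) (γ : Gamma0 N) (τ : ℍ) :
    tdmEis N χ ((γ : SL(2, ℤ)) • τ) =
      ((χ γ : ℂˣ) : ℂ) * denom (γ : SL(2, ℤ)) τ ^ (4 : ℤ) * tdmEis N χ τ := by
  have h := congrFun (tdmEis_slash hχ γ) τ
  rw [SL_slash_apply, Pi.smul_apply, smul_eq_mul, _root_.zpow_neg,
    mul_inv_eq_iff_eq_mul₀ (zpow_ne_zero _ <| denom_ne_zero _ τ)] at h
  rw [h]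
  ring

theorem tdmEis_bdd (hm : m ≠ 0) (hχ : χ ∈ tdmX N m) (σ : SL(2, ℤ)) :
    IsBoundedAtImInfty (tdmEis N χ ∣[(4 : ℤ)] σ) := by
  unfold tdmEis
  rw [tdmEisGen_slash]
  exact tdmEisGen_isBoundedAtImInfty (fun v => tdm_norm_eisCoeff_le hm hχ.1 _) (by norm_num)

end Eis

end

end Fermat.Agent.T1
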