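/-
T1-D, WP-E: Eisenstein series with character (part 2: the limit at `i∞` and the modular form).

`tdmEisGen_tendsto`: a `T`-invariant Eisenstein sum with bounded coefficients tends to
`∑' v, [v₀ = 0] c v * v₁ ^ (-k)` at `i∞` (dominated convergence on the strip `|Re z| ≤ 1`).
For `χ ∈ tdmX N m`, `m ≠ 0`: `tdmEis_tendsto` (the limit is `2`), `tdmEis_ne_zero`,
`tdmEisPow : ModularForm Γ₀(N) (4 m)` with underlying function `(tdmEis N χ) ^ m`, and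
`tdmEis_slash_conj` (the transformation law of `tdmEis N χ ∣[4] σ` under `σ⁻¹ Γ₀(N) σ`).
-/
import Mathlib
import Fermat.Agent.Lib.T1.Mono.Eis

set_option autoImplicit false
set_option linter.unusedSectionVars false
set_option linter.unusedVariables false
set_option linter.style.haveILetI false

open UpperHalfPlane Filter Topology Matrix MatrixGroups CongruenceSubgroup ModularForm
  EisensteinSeries Complex
open scoped Manifold

namespace Fermat.Agent.T1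

noncomputable section

section GeneralLimit

variable {c : (Fin 2 → ℤ) → ℂ} (hc : ∀ v, ‖c v‖ ≤ 1) {k : ℤ} (hk : 3 ≤ k)

/-- the limit of the summand at `i∞` -/
def tdmEisLimTerm (c : (Fin 2 → ℤ) → ℂ) (k : ℤ) (v : Fin 2 → ℤ) : ℂ :=
  if v 0 = 0 then c v * ((v 1 : ℤ) : ℂ) ^ (-k) else 0

lemma tdm_eisSummand_of_zero {v : Fin 2 → ℤ} (h : v 0 = 0) (z : ℍ) :
    eisSummand k v z = ((v 1 : ℤ) : ℂ) ^ (-k) := by
  unfold eisSummand
  rw [h]
  simp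

include hk in
lemma tdm_norm_eisSummand_le {v : Fin 2 → ℤ} (h : v 0 ≠ 0) (z : ℍ) :
    ‖eisSummand k v z‖ ≤ (z.im ^ k)⁻¹ := by
  unfold eisSummand
  rw [norm_zpow, _root_.zpow_neg]
  have hk0 : 0 ≤ k := by omega
  have him : z.im ≤ ‖((v 0 : ℤ) : ℂ) * (z : ℂ) + ((v 1 : ℤ) : ℂ)‖ := by
    have h1 : |(((v 0 : ℤ) : ℂ) * (z : ℂ) + ((v 1 : ℤ) : ℂ)).im| ≤
        ‖((v 0 : ℤ) : ℂ) * (z : ℂ) + ((v 1 : ℤ) : ℂ)‖ := Complex.abs_im_le_norm _
    have h2 : (((v 0 : ℤ) : ℂ) * (z : ℂ) + ((v 1 : ℤ) : ℂ)).im = (v 0 : ℝ) * z.im := by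
      simp
    rw [h2, abs_mul, abs_of_pos z.im_pos] at h1
    have h3 : (1 : ℝ) ≤ |((v 0 : ℤ) : ℝ)| := by
      have : (1 : ℤ) ≤ |v 0| := Int.one_le_abs h
      exact_mod_cast this
    calc z.im = 1 * z.im := (one_mul _).symm
      _ ≤ |((v 0 : ℤ) : ℝ)| * z.im := by
          exact mul_le_mul_of_nonneg_right h3 z.im_pos.le
      _ ≤ _ := h1
  have h4 : z.im ^ k ≤ ‖((v 0 : ℤ) : ℂ) * (z : ℂ) + ((v 1 : ℤ) : ℂ)‖ ^ k :=
    zpow_le_zpow_left₀ hk0 z.im_pos.le him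
  exact inv_anti₀ (zpow_pos z.im_pos k) h4

include hk in
lemma tdm_tendsto_term (c : (Fin 2 → ℤ) → ℂ) (v : Fin 2 → ℤ) :
    Tendsto (fun z : ℍ => c v * eisSummand k v z) atImInfty (𝓝 (tdmEisLimTerm c k v)) := by
  unfold tdmEisLimTerm
  split_ifs with h
  · simp_rw [tdm_eisSummand_of_zero h]
    exact tendsto_const_nhds
  · rw [← mul_zero (c v)]
    refine Tendsto.const_mul _ ?_
    rw [tendsto_zero_iff_norm_tendsto_zero]
    have h1 : Tendsto (fun z : ℍ => (z.im ^ k)⁻¹) atImInfty (𝓝 0) := by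
      have h2 : Tendsto (fun z : ℍ => z.im) atImInfty atTop := tendsto_comap
      have h3 : Tendsto (fun x : ℝ => x ^ k) atTop atTop :=
        tendsto_zpow_atTop_atTop (by omega)
      exact tendsto_inv_atTop_zero.comp (h3.comp h2)
    exact squeeze_zero (fun _ => norm_nonneg _) (fun z => tdm_norm_eisSummand_le hk h z) h1

include hc hk in
/-- the limit along the vertical strip `|Re z| ≤ 1` -/
lemma tdmEisGen_tendsto_strip :
    Tendsto (tdmEisGen c k) (atImInfty ⊓ 𝓟 (verticalStrip (1 : ℕ) 2))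
      (𝓝 (∑' v, tdmEisLimTerm c k v)) := by
  have hk' : (2 : ℝ) < k := by norm_cast
  unfold tdmEisGen
  refine tendsto_tsum_of_dominated_convergence
    (bound := fun x : Fin 2 → ℤ => r ⟨⟨(1 : ℕ), 2⟩, Nat.ofNat_pos⟩ ^ (-k) * ‖x‖ ^ (-k)) ?_ ?_ ?_
  · exact_mod_cast (summable_one_div_norm_rpow hk').mul_left <|
      r ⟨⟨(1 : ℕ), 2⟩, Nat.ofNat_pos⟩ ^ (-k)
  · intro v
    exact (tdm_tendsto_term hk c v).mono_left inf_le_left
  · rw [eventually_inf_principal]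
    refine Eventually.of_forall fun z hz x => ?_
    refine (tdm_norm_term_le hc x z).trans ?_
    simp_rw [eisSummand, norm_zpow]
    exact_mod_cast
      summand_bound_of_mem_verticalStrip (lt_trans two_pos hk').le x two_pos hz

include hc hk in
/-- a `T`-invariant Eisenstein sum has a limit at `i∞` -/
theorem tdmEisGen_tendsto
    (hT : ∀ (n : ℤ) (z : ℍ), tdmEisGen c k ((ModularGroup.T ^ n : SL(2, ℤ)) • z) = tdmEisGen c k z) :
    Tendsto (tdmEisGen c k) atImInfty (𝓝 (∑' v, tdmEisLimTerm c k v)) := by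
  have h := tdmEisGen_tendsto_strip hc hk
  rw [tendsto_def] at h ⊢
  intro U hU
  have h1 := h U hU
  rw [mem_inf_principal, atImInfty_mem] at h1
  obtain ⟨A, hA⟩ := h1
  rw [atImInfty_mem]
  refine ⟨max A 2, fun z hz => ?_⟩
  obtain ⟨n, hn⟩ := ModularGroup_T_zpow_mem_verticalStrip z (N := 1) one_pos
  have him : ((ModularGroup.T ^ ((1 : ℕ) * n) : SL(2, ℤ)) • z).im = z.im :=
    ModularGroup.im_T_zpow_smul z _
  have h2 := hA ((ModularGroup.T ^ ((1 : ℕ) * n) : SL(2, ℤ)) • z)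
    (by rw [him]; exact (le_max_left _ _).trans hz)
    (verticalStrip_anti_right (1 : ℕ) ((le_max_right _ _).trans hz) hn)
  rw [Set.mem_preimage, hT] at h2
  exact h2

end GeneralLimit

section EisLimit

variable {N : ℕ} {χ : Gamma0 N →* ℂˣ} {m : ℕ}

/-- `T ^ n` as an element of `Γ₀(N)` -/
def tdmTpow (N : ℕ) (n : ℤ) : Gamma0 N :=
  ⟨ModularGroup.T ^ n, by
    rw [Gamma0_mem]
    have h : (ModularGroup.T ^ n).1 = !![1, n; 0, 1] := ModularGroup.coe_T_zpow n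
    have h10 : (ModularGroup.T ^ n : SL(2, ℤ)) 1 0 = 0 := by
      rw [h]; rfl
    rw [h10]
    simp⟩

lemma tdm_trace_Tpow (N : ℕ) (n : ℤ) :
    (((tdmTpow N n : Gamma0 N) : SL(2, ℤ)) : Matrix (Fin 2) (Fin 2) ℤ).trace ^ 2 = 4 := by
  have h : (ModularGroup.T ^ n).1 = !![1, n; 0, 1] := ModularGroup.coe_T_zpow n
  change ((ModularGroup.T ^ n : SL(2, ℤ)) : Matrix (Fin 2) (Fin 2) ℤ).trace ^ 2 = 4
  rw [h, Matrix.trace_fin_two]
  norm_num

/-- `-1` as an element of `Γ₀(N)` -/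
def tdmNegOne (N : ℕ) : Gamma0 N :=
  ⟨-1, by
    rw [Gamma0_mem]
    simp⟩

lemma tdm_trace_negOne (N : ℕ) :
    (((tdmNegOne N : Gamma0 N) : SL(2, ℤ)) : Matrix (Fin 2) (Fin 2) ℤ).trace ^ 2 = 4 := by
  change ((-1 : SL(2, ℤ)) : Matrix (Fin 2) (Fin 2) ℤ).trace ^ 2 = 4
  rw [Matrix.SpecialLinearGroup.coe_neg, Matrix.SpecialLinearGroup.coe_one, Matrix.trace_fin_two]
  norm_num

lemma tdmBot_negOne (N : ℕ) : tdmBot ((tdmNegOne N : Gamma0 N) : SL(2, ℤ)) = ![0, -1] := by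
  change tdmBot (-1 : SL(2, ℤ)) = _
  unfold tdmBot
  rw [Matrix.SpecialLinearGroup.coe_neg, Matrix.SpecialLinearGroup.coe_one]
  ext i
  fin_cases i
  · simp
  · change (-(1 : Matrix (Fin 2) (Fin 2) ℤ)) 1 1 = -1
    simp

theorem tdmEis_T_zpow (hχ : χ ∈ tdmX N m) (n : ℤ) (z : ℍ) :
    tdmEis N χ ((ModularGroup.T ^ n : SL(2, ℤ)) • z) = tdmEis N χ z := by
  have h := tdmEis_smul hχ (tdmTpow N n) z
  have h1 : χ (tdmTpow N n) = 1 := hχ.2.1 _ (tdm_trace_Tpow N n)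
  have h2 : denom (((tdmTpow N n : Gamma0 N) : SL(2, ℤ))) z = 1 := tdm_denom_T_zpow n z
  rw [h1, h2, Units.val_one, _root_.one_zpow, one_mul, one_mul] at h
  exact h

lemma tdmEisCoeff_zero_one (hχ : χ ∈ tdmX N m) : tdmEisCoeff N χ ![0, 1] = 1 := by
  have h := tdmEisCoeff_bot hχ.2.1 (1 : Gamma0 N)
  rw [Subgroup.coe_one, tdmBot_one, map_one, inv_one, Units.val_one] at h
  exact h

lemma tdmEisCoeff_zero_negOne (hχ : χ ∈ tdmX N m) : tdmEisCoeff N χ ![0, -1] = 1 := by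
  have h := tdmEisCoeff_bot hχ.2.1 (tdmNegOne N)
  rw [tdmBot_negOne, hχ.2.1 _ (tdm_trace_negOne N), inv_one, Units.val_one] at h
  exact h

/-- a bottom row `(0, d)` has `d = ± 1` -/
lemma tdm_bot_zero (γ : SL(2, ℤ)) (h : tdmBot γ 0 = 0) :
    tdmBot γ = ![0, 1] ∨ tdmBot γ = ![0, -1] := by
  have h10 : (γ : Matrix (Fin 2) (Fin 2) ℤ) 1 0 = 0 := h
  have hdet := γ.det_coe
  rw [Matrix.det_fin_two, h10, mul_zero, sub_zero] at hdet
  have h11 : (γ : Matrix (Fin 2) (Fin 2) ℤ) 1 1 = 1 ∨ (γ : Matrix (Fin 2) (Fin 2) ℤ) 1 1 = -1 :=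
    Int.isUnit_iff.mp (IsUnit.of_mul_eq_one _ (by rw [mul_comm]; exact hdet))
  rcases h11 with h11 | h11
  · left
    ext i
    fin_cases i
    · exact h10
    · exact h11
  · right
    ext i
    fin_cases i
    · exact h10
    · exact h11

theorem tdm_tsum_limTerm (hχ : χ ∈ tdmX N m) :
    ∑' v, tdmEisLimTerm (tdmEisCoeff N χ) 4 v = 2 := by
  have hne : (![0, 1] : Fin 2 → ℤ) ≠ ![0, -1] := by
    intro h
    have := congrFun h 1
    simp at this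
  rw [tsum_eq_sum (s := {![0, 1], ![0, -1]})]
  · rw [Finset.sum_pair hne]
    unfold tdmEisLimTerm
    rw [if_pos (by simp), if_pos (by simp), tdmEisCoeff_zero_one hχ, tdmEisCoeff_zero_negOne hχ]
    norm_num
  · intro v hv
    unfold tdmEisLimTerm
    split_ifs with h0
    · by_cases hex : ∃ γ : Gamma0 N, tdmBot (γ : SL(2, ℤ)) = v
      · exfalso
        obtain ⟨γ, rfl⟩ := hex
        apply hv
        rcases tdm_bot_zero _ h0 with h | h
        · rw [h]; simp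
        · rw [h]; simp
      · rw [tdmEisCoeff_of_not hex, zero_mul]
    · rfl

theorem tdmEis_tendsto (hm : m ≠ 0) (hχ : χ ∈ tdmX N m) :
    Tendsto (tdmEis N χ) atImInfty (𝓝 2) := by
  rw [← tdm_tsum_limTerm hχ]
  exact tdmEisGen_tendsto (tdm_norm_eisCoeff_le hm hχ.1) (by norm_num)
    (fun n z => tdmEis_T_zpow hχ n z)

theorem tdmEis_ne_zero (hm : m ≠ 0) (hχ : χ ∈ tdmX N m) : tdmEis N χ ≠ 0 := by
  intro h
  have h1 := tdmEis_tendsto hm hχ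
  rw [h] at h1
  have h2 : Tendsto (0 : ℍ → ℂ) atImInfty (𝓝 0) := tendsto_const_nhds
  have := tendsto_nhds_unique h1 h2
  norm_num at this

end EisLimit

section EisPow

variable {N : ℕ} {χ : Gamma0 N →* ℂˣ} {m : ℕ}

lemma tdm_pow_slash (f : ℍ → ℂ) (m : ℕ) (σ : SL(2, ℤ)) :
    (f ^ m) ∣[(4 * (m : ℤ))] σ = (f ∣[(4 : ℤ)] σ) ^ m := by
  ext z
  rw [SL_slash_apply, Pi.pow_apply, Pi.pow_apply, SL_slash_apply, mul_pow,
    ← zpow_natCast (_ ^ (-4 : ℤ)), ← _root_.zpow_mul]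
  congr 2

lemma tdm_isBoundedAtImInfty_pow {f : ℍ → ℂ} (hf : IsBoundedAtImInfty f) (m : ℕ) :
    IsBoundedAtImInfty (f ^ m) := by
  rw [UpperHalfPlane.isBoundedAtImInfty_iff] at hf ⊢
  obtain ⟨M, A, h⟩ := hf
  refine ⟨M ^ m, A, fun z hz => ?_⟩
  rw [Pi.pow_apply, norm_pow]
  exact pow_le_pow_left₀ (norm_nonneg _) (h z hz) m

theorem tdmEis_pow_slash (hχ : χ ∈ tdmX N m) (γ : Gamma0 N) :
    (tdmEis N χ ^ m) ∣[(4 * (m : ℤ))] (γ : SL(2, ℤ)) = tdmEis N χ ^ m := by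
  rw [tdm_pow_slash, tdmEis_slash hχ, smul_pow, ← Units.val_pow_eq_pow_val, hχ.1, Units.val_one,
    one_smul]

/-- the `m`-th power of the Eisenstein series with character `χ ∈ X_m` is a modular form of
weight `4 m` for `Γ₀(N)` -/
def tdmEisPow [NeZero N] (hm : m ≠ 0) (hχ : χ ∈ tdmX N m) :
    ModularForm (Gamma0 N) (4 * (m : ℤ)) where
  toFun := tdmEis N χ ^ m
  slash_action_eq' A hA := by
    obtain ⟨A, (hA : A ∈ Gamma0 N), rfl⟩ := hA
    exact tdmEis_pow_slash hχ ⟨A, hA⟩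
  holo' := by
    have h := tdmEis_mdiff hm hχ
    change MDiff (tdmEis N χ ^ m)
    exact h.pow m
  bdd_at_cusps' {c} hc := by
    rw [Subgroup.IsArithmetic.isCusp_iff_isCusp_SL2Z] at hc
    rw [OnePoint.isBoundedAt_iff_forall_SL2Z hc]
    intro γ hγ
    rw [tdm_pow_slash]
    exact tdm_isBoundedAtImInfty_pow (tdmEis_bdd hm hχ γ) m

@[simp]
lemma tdmEisPow_apply [NeZero N] (hm : m ≠ 0) (hχ : χ ∈ tdmX N m) (τ : ℍ) :
    tdmEisPow hm hχ τ = tdmEis N χ τ ^ m := rfl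

lemma coe_tdmEisPow [NeZero N] (hm : m ≠ 0) (hχ : χ ∈ tdmX N m) :
    (tdmEisPow hm hχ : ℍ → ℂ) = tdmEis N χ ^ m := rfl

/-- the behaviour of `tdmEis N χ ∣[4] σ` under the conjugate group `σ⁻¹ Γ₀(N) σ` (used at the
cusps: `δ = T ^ h`) -/
theorem tdmEis_slash_conj (hχ : χ ∈ tdmX N m) (σ δ : SL(2, ℤ))
    (hδ : σ * δ * σ⁻¹ ∈ Gamma0 N) :
    (tdmEis N χ ∣[(4 : ℤ)] σ) ∣[(4 : ℤ)] δ =
      ((χ ⟨σ * δ * σ⁻¹, hδ⟩ : ℂˣ) : ℂ) • (tdmEis N χ ∣[(4 : ℤ)] σ) := by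
  have h := tdmEis_slash hχ ⟨σ * δ * σ⁻¹, hδ⟩
  have h1 : (tdmEis N χ ∣[(4 : ℤ)] σ) ∣[(4 : ℤ)] δ =
      (tdmEis N χ ∣[(4 : ℤ)] (σ * δ * σ⁻¹)) ∣[(4 : ℤ)] σ := by
    rw [← SlashAction.slash_mul, ← SlashAction.slash_mul]
    congr 1
    group
  rw [h1]
  change (tdmEis N χ ∣[(4 : ℤ)] (((⟨σ * δ * σ⁻¹, hδ⟩ : Gamma0 N)) : SL(2, ℤ))) ∣[(4 : ℤ)] σ = _
  rw [h]
  exact ModularForm.SL_smul_slash _ _ _ _

end EisPow

end

end Fermat.Agent.T1
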