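/-
T1-D (WP-Ψ, surjectivity side): the meromorphic function `g_χ = E^χ / E^1` with character `χ`,
and finiteness of the order of elements fixing a point.
-/
import Mathlib
import Fermat.Agent.Lib.T1.Mono.EisForm
import Fermat.Agent.Lib.T1.Mono.CharOf

set_option autoImplicit false

namespace Fermat.Agent.T1

open Complex Set Filter Topology Matrix MatrixGroups CongruenceSubgroup
open UpperHalfPlane hiding I
open scoped Manifold
open Fermat.Agent.S24Lib (holH)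

/-! ### Elements fixing a point have finite order -/

theorem tdm_isOfFinOrder_of_fixed (γ : SL(2, ℤ)) (τ₀ : ℍ) (h : γ • τ₀ = τ₀) : IsOfFinOrder γ := by
  let γs : MulAction.stabilizer SL(2, ℤ) τ₀ := ⟨γ, h⟩
  have hfin : Finite (MonoidHom.range (tdmMu τ₀)) := by
    apply Set.Finite.to_subtype
    exact tdm_finite_range_mu τ₀
  have h1 : IsOfFinOrder (⟨tdmMu τ₀ γs, γs, rfl⟩ : MonoidHom.range (tdmMu τ₀)) :=
    isOfFinOrder_of_finite _
  obtain ⟨k, hk, hpow⟩ := isOfFinOrder_iff_pow_eq_one.mp h1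
  have h2 : tdmMu τ₀ (γs ^ k) = 1 := by
    rw [map_pow]
    have := congrArg Subtype.val hpow
    simpa using this
  rw [isOfFinOrder_iff_pow_eq_one]
  rcases (tdmMu_eq_one_iff τ₀ (γs ^ k)).mp h2 with h3 | h3
  · refine ⟨k, hk, ?_⟩
    have : ((γs ^ k : MulAction.stabilizer SL(2, ℤ) τ₀) : SL(2, ℤ)) = γ ^ k := by
      rw [SubgroupClass.coe_pow]
    rw [← this, h3]
  · refine ⟨2 * k, by omega, ?_⟩
    have : ((γs ^ k : MulAction.stabilizer SL(2, ℤ) τ₀) : SL(2, ℤ)) = γ ^ k := by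
      rw [SubgroupClass.coe_pow]
    rw [mul_comm, pow_mul, ← this, h3]
    simp

/-! ### The function `g_χ` -/

section

variable {N : ℕ} {χ : Gamma0 N →* ℂˣ} {m : ℕ}

/-- `E^χ` as a holomorphic function -/
noncomputable def tdmEisHol (hm : m ≠ 0) (hχ : χ ∈ tdmX N m) : holH :=
  ⟨tdmEis N χ, tdmEis_mdiff hm hχ⟩

theorem tdmEisHol_ne_zero (hm : m ≠ 0) (hχ : χ ∈ tdmX N m) : tdmEisHol hm hχ ≠ 0 := by
  intro h
  apply tdmEis_ne_zero hm hχ
  exact congrArg Subtype.val h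

/-- the automorphy factor `(c τ + d)^4` as a holomorphic function -/
noncomputable def tdmDenomHol (γ : SL(2, ℤ)) : holH :=
  ⟨fun τ => denom γ τ ^ (4 : ℤ), mdifferentiable_denom_zpow _ 4⟩

theorem tdmDenomHol_ne_zero (γ : SL(2, ℤ)) : tdmDenomHol γ ≠ 0 := by
  intro h
  have := congrArg (fun x : holH => (x : ℍ → ℂ) UpperHalfPlane.I) h
  exact zpow_ne_zero _ (denom_ne_zero _ _) this

theorem tdmHolSL_eisHol (hm : m ≠ 0) (hχ : χ ∈ tdmX N m) (γ : Gamma0 N) :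
    tdmHolSL (γ : SL(2, ℤ)) (tdmEisHol hm hχ)
      = algebraMap ℂ holH ((χ γ : ℂˣ) : ℂ) * (tdmDenomHol (γ : SL(2, ℤ)) * tdmEisHol hm hχ) := by
  apply Subtype.ext
  funext τ
  show tdmEis N χ ((γ : SL(2, ℤ)) • τ)
    = ((χ γ : ℂˣ) : ℂ) * (denom (γ : SL(2, ℤ)) τ ^ (4 : ℤ) * tdmEis N χ τ)
  rw [tdmEis_smul hχ γ τ]
  ring

/-- `g_χ = E^χ / E^1` -/
noncomputable def tdmEisRatio (hm : m ≠ 0) (hχ : χ ∈ tdmX N m) : tdmMer :=
  tdmOfHol (tdmEisHol hm hχ) / tdmOfHol (tdmEisHol hm (one_mem (tdmX N m)))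

theorem tdmEisRatio_ne_zero (hm : m ≠ 0) (hχ : χ ∈ tdmX N m) : tdmEisRatio hm hχ ≠ 0 := by
  apply div_ne_zero
  · exact fun h => tdmEisHol_ne_zero hm hχ (tdmOfHol_injective (h.trans (map_zero _).symm))
  · exact fun h => tdmEisHol_ne_zero hm (one_mem _)
      (tdmOfHol_injective (h.trans (map_zero _).symm))

/-- **`g_χ` has character `χ`** -/
theorem tdmEisRatio_hasChar (hm : m ≠ 0) (hχ : χ ∈ tdmX N m) :
    tdmHasChar (Gamma0 N) (tdmEisRatio hm hχ) χ := by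
  intro γ
  have hD : tdmOfHol (tdmDenomHol (γ : SL(2, ℤ))) ≠ 0 := fun h =>
    tdmDenomHol_ne_zero _ (tdmOfHol_injective (h.trans (map_zero _).symm))
  have hE1 : tdmOfHol (tdmEisHol hm (one_mem (tdmX N m))) ≠ 0 := fun h =>
    tdmEisHol_ne_zero hm (one_mem _) (tdmOfHol_injective (h.trans (map_zero _).symm))
  rw [tdmEisRatio, map_div₀, tdmSL_ofHol, tdmSL_ofHol, tdmHolSL_eisHol hm hχ γ,
    tdmHolSL_eisHol hm (one_mem _) γ, MonoidHom.one_apply, Units.val_one, map_one, one_mul,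
    map_mul, map_mul, map_mul, Algebra.smul_def, IsScalarTower.algebraMap_apply ℂ holH tdmMer]
  field_simp

/-- `g_χ ^ m` is a quotient of two modular forms of weight `4 m` -/
theorem tdmEisRatio_pow [NeZero N] (hm : m ≠ 0) (hχ : χ ∈ tdmX N m) :
    tdmEisRatio hm hχ ^ m
      = tdmOfHol ⟨(tdmEisPow hm hχ : ℍ → ℂ), (tdmEisPow hm hχ).holo'⟩
        / tdmOfHol ⟨(tdmEisPow hm (one_mem (tdmX N m)) : ℍ → ℂ),
            (tdmEisPow hm (one_mem (tdmX N m))).holo'⟩ := by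
  rw [tdmEisRatio, div_pow, ← map_pow, ← map_pow]
  rfl

end

end Fermat.Agent.T1
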