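/-
T1-D (WP-Ψ, group theory): parabolic elements of `SL(2, ℤ)` as conjugates of translations
(matrix form), and the standard parabolic elements of `Γ₀(N)`.
-/
import Mathlib
import Fermat.Agent.Lib.ES.Parabolic
import Fermat.Agent.Lib.T1.Mono.Mer

set_option autoImplicit false

namespace Fermat.Agent.T1

open Matrix MatrixGroups CongruenceSubgroup ModularGroup

/-- an element of `SL(2, ℤ)` with vanishing lower left entry is `± T ^ n` -/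
theorem tdm_eq_T_zpow_of_c_eq_zero (h : SL(2, ℤ)) (hc : h 1 0 = 0) :
    ∃ n : ℤ, h = T ^ n ∨ h = -(T ^ n) := by
  have hdet := h.det_coe
  rw [Matrix.det_fin_two, hc, mul_zero, sub_zero] at hdet
  rcases Int.eq_one_or_neg_one_of_mul_eq_one' hdet with ⟨h0, h1⟩ | ⟨h0, h1⟩
  · refine ⟨h 0 1, Or.inl ?_⟩
    apply Subtype.ext
    rw [coe_T_zpow]
    ext i j
    fin_cases i <;> fin_cases j <;> simp [h0, h1, hc]
  · refine ⟨-h 0 1, Or.inr ?_⟩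
    apply Subtype.ext
    rw [Matrix.SpecialLinearGroup.coe_neg, coe_T_zpow]
    ext i j
    fin_cases i <;> fin_cases j <;> simp [h0, h1, hc]

/-- **parabolic elements are conjugate to `± T ^ n`** -/
theorem tdm_parabolic_conj (γ : SL(2, ℤ))
    (h : (γ : Matrix (Fin 2) (Fin 2) ℤ).trace ^ 2 = 4) :
    ∃ (σ : SL(2, ℤ)) (n : ℤ), γ = σ⁻¹ * T ^ n * σ ∨ γ = -(σ⁻¹ * T ^ n * σ) := by
  obtain ⟨g, hg⟩ := Fermat.Agent.ES.exists_conj_lower_left_eq_zero γ h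
  obtain ⟨n, hn | hn⟩ := tdm_eq_T_zpow_of_c_eq_zero (g * γ * g⁻¹) hg
  · refine ⟨g, n, Or.inl ?_⟩
    rw [← hn]
    group
  · refine ⟨g, n, Or.inr ?_⟩
    have : T ^ n = -(g * γ * g⁻¹) := by rw [hn, neg_neg]
    rw [this]
    simp only [mul_neg, neg_mul, neg_neg]
    group

/-- `σ⁻¹ T^N σ ∈ Γ₀(N)` for every `σ` -/
theorem tdm_conj_T_pow_mem_Gamma0 (N : ℕ) (σ : SL(2, ℤ)) (k : ℤ) :
    σ⁻¹ * T ^ ((N : ℤ) * k) * σ ∈ Gamma0 N := by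
  rw [Gamma0_mem]
  have h1 : ((σ⁻¹ * T ^ ((N : ℤ) * k) * σ : SL(2, ℤ)) : Matrix (Fin 2) (Fin 2) ℤ) 1 0
      = -((N : ℤ) * k * σ 1 0 * σ 1 0) := by
    rw [Matrix.SpecialLinearGroup.coe_mul, Matrix.SpecialLinearGroup.coe_mul, coe_T_zpow,
      Matrix.SpecialLinearGroup.coe_inv, Matrix.adjugate_fin_two]
    simp [Matrix.mul_apply, Fin.sum_univ_two]
    ring
  have h2 : (σ⁻¹ * T ^ ((N : ℤ) * k) * σ : SL(2, ℤ)) 1 0
      = ((σ⁻¹ * T ^ ((N : ℤ) * k) * σ : SL(2, ℤ)) : Matrix (Fin 2) (Fin 2) ℤ) 1 0 := rfl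
  rw [h2, h1]
  push_cast
  simp

/-- `-γ ∈ Γ₀(N)` iff `γ ∈ Γ₀(N)` -/
theorem tdm_neg_mem_Gamma0 (N : ℕ) {γ : SL(2, ℤ)} (h : γ ∈ Gamma0 N) : -γ ∈ Gamma0 N := by
  rw [Gamma0_mem] at h ⊢
  have : (-γ : SL(2, ℤ)) 1 0 = -(γ 1 0) := by
    simp
  rw [this]
  push_cast
  rw [h, neg_zero]

/-- the trace of a conjugate of a translation -/
theorem tdm_trace_conj_T (σ : SL(2, ℤ)) (n : ℤ) :
    ((σ⁻¹ * T ^ n * σ : SL(2, ℤ)) : Matrix (Fin 2) (Fin 2) ℤ).trace ^ 2 = 4 := by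
  have h1 : ((σ⁻¹ * T ^ n * σ : SL(2, ℤ)) : Matrix (Fin 2) (Fin 2) ℤ).trace = 2 := by
    rw [Matrix.SpecialLinearGroup.coe_mul, Matrix.trace_mul_comm,
      Matrix.SpecialLinearGroup.coe_mul, ← Matrix.mul_assoc, ← Matrix.SpecialLinearGroup.coe_mul,
      mul_inv_cancel, Matrix.SpecialLinearGroup.coe_one, Matrix.one_mul, coe_T_zpow,
      Matrix.trace_fin_two]
    simp
  rw [h1]
  norm_num

end Fermat.Agent.T1
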