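/-
T1-D (WP-Ψ): the monodromy character of an element of the Kummer group `tWsub 𝕜 N m`.

The analytic dictionary between the function field of `X₀(N)` over `𝕜` and meromorphic functions
on the upper half plane (provided by `Lib/T1/Dict`) enters through the structure `TdmDict`.
Main results: for `y` in the function field with analytic function `Y`, a root `g ^ m = Y` and its
character `χ`:   `y ∈ tWsub 𝕜 N m ↔ χ ∈ tdmX N m`.
-/
import Mathlib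
import Fermat.Agent.Lib.T1.Defs
import Fermat.Agent.Lib.T1.Dict.KMod.Gen
import Fermat.Agent.Lib.T1.Mono.Parab
import Fermat.Agent.Lib.T1.Mono.Cusp
import Fermat.Agent.Lib.T1.Mono.EisChar

set_option autoImplicit false

namespace Fermat.Agent.T1

open Complex Set Filter Topology Matrix MatrixGroups CongruenceSubgroup ModularCurve
open UpperHalfPlane hiding I
open scoped Manifold Real
open Fermat.Agent.S24Lib (holH)
open ModularGroup (T)

/-- **the analytic dictionary** for the function field of `X₀(N)` over `𝕜` -/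
structure TdmDict (𝕜 : Type) [Field 𝕜] [IsAlgClosed 𝕜] [Algebra 𝕜 ℂ] [Algebra ℚ 𝕜] (N : ℕ)
    [NeZero N] where
  /-- modular functions as meromorphic functions on `ℍ` -/
  toMer : KMod.ModField 𝕜 N →+* tdmMer
  toMer_modRep : ∀ (γ : SL(2, ℤ)) (X : KMod.ModField 𝕜 N),
    toMer (KMod.modRep 𝕜 N γ X) = tdmSL γ⁻¹ (toMer X)
  /-- places of the function field versus points of `ℍ` and cusps -/
  dict : ∀ (m : ℕ) (y : (↥(KMod.barField 𝕜 N))ˣ), y ∈ tWsub 𝕜 N m ↔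
    (∀ τ : ℍ, ∃ n : ℤ,
      tdmOrd τ (toMer ((KMod.modIso 𝕜 N (y : ↥(KMod.barField 𝕜 N)) : KMod.anField 𝕜 N) :
        KMod.ModField 𝕜 N)) = m * n ∧
      ∀ γ : SL(2, ℤ), γ ∈ Gamma0 N → γ • τ = τ → (denom γ τ ^ (-2 : ℤ)) ^ n = 1) ∧
    (∀ σ : SL(2, ℤ), ∃ n : ℤ,
      (KMod.modFieldQL 𝕜 N (KMod.modRep 𝕜 N σ
        ((KMod.modIso 𝕜 N (y : ↥(KMod.barField 𝕜 N)) : KMod.anField 𝕜 N) :
          KMod.ModField 𝕜 N))).order = m * n ∧
      ∀ h : ℤ, σ⁻¹ * T ^ h * σ ∈ Gamma0 N → (N : ℤ) ∣ h * n)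
  /-- the analytic meaning of the order of the `q_N`-expansion -/
  cusp : ∀ X : KMod.ModField 𝕜 N, X ≠ 0 → ∃ (A B : holH) (C : ℝ) (w₀ : ℂ), w₀ ≠ 0 ∧
    toMer X = tdmOfHol A / tdmOfHol B ∧ (∀ τ : ℍ, C < τ.im → (B : ℍ → ℂ) τ ≠ 0) ∧
    Tendsto (fun τ : ℍ => (A : ℍ → ℂ) τ / (B : ℍ → ℂ) τ *
      cexp (-(2 * π * I * ((((KMod.modFieldQL 𝕜 N X).order : ℤ) : ℝ) / N : ℝ) * τ)))
      atImInfty (𝓝 w₀)

namespace TdmDict

variable {𝕜 : Type} [Field 𝕜] [IsAlgClosed 𝕜] [Algebra 𝕜 ℂ] [Algebra ℚ 𝕜] {N : ℕ} [NeZero N]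
  (D : TdmDict 𝕜 N)

/-- the element of the analytic model attached to a function -/
noncomputable def md (y : ↥(KMod.barField 𝕜 N)) : KMod.ModField 𝕜 N :=
  ((KMod.modIso 𝕜 N y : KMod.anField 𝕜 N) : KMod.ModField 𝕜 N)

/-- the meromorphic function on `ℍ` attached to a function -/
noncomputable def fn : ↥(KMod.barField 𝕜 N) →+* tdmMer :=
  D.toMer.comp ((algebraMap (KMod.anField 𝕜 N) (KMod.ModField 𝕜 N)).comp
    ((KMod.modIso 𝕜 N : ↥(KMod.barField 𝕜 N) ≃ₐ[𝕜] KMod.anField 𝕜 N) :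
      ↥(KMod.barField 𝕜 N) →+* KMod.anField 𝕜 N))

theorem fn_apply (y : ↥(KMod.barField 𝕜 N)) : D.fn y = D.toMer (md y) := rfl

theorem fn_injective : Function.Injective D.fn := D.fn.injective

theorem md_ne_zero {y : ↥(KMod.barField 𝕜 N)} (hy : y ≠ 0) : md y ≠ 0 := by
  intro h
  apply hy
  have h1 : (KMod.modIso 𝕜 N y : KMod.anField 𝕜 N) = 0 := Subtype.ext h
  exact (map_eq_zero_iff _ (KMod.modIso 𝕜 N).injective).mp h1

theorem md_fixed (y : ↥(KMod.barField 𝕜 N)) {γ : SL(2, ℤ)} (hγ : γ ∈ Gamma0 N) :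
    KMod.modRep 𝕜 N γ (md y) = md y := by
  have h2 : md y ∈ KMod.anField 𝕜 N := SetLike.coe_mem _
  rw [KMod.anField_eq_fixedField] at h2
  exact h2 ⟨KMod.modRep 𝕜 N γ, γ, hγ, rfl⟩

/-- the function of `y` is `Γ₀(N)`-invariant -/
theorem fn_inv (y : ↥(KMod.barField 𝕜 N)) : tdmIsInv (Gamma0 N) (D.fn y) := by
  intro γ
  have h1 := D.toMer_modRep ((γ : SL(2, ℤ))⁻¹) (md y)
  rw [inv_inv, md_fixed y ((Gamma0 N).inv_mem γ.2)] at h1
  exact h1.symm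

end TdmDict

/-! ### Auxiliary lemmas -/

theorem tdm_exp_eq_one_iff (x : ℝ) : cexp (2 * π * I * x) = 1 ↔ ∃ j : ℤ, x = j := by
  rw [Complex.exp_eq_one_iff]
  constructor
  · rintro ⟨j, hj⟩
    refine ⟨j, ?_⟩
    have h2 : (2 * (π : ℂ) * I) ≠ 0 := by
      simp [Real.pi_ne_zero, Complex.I_ne_zero]
    have h3 : (x : ℂ) = (j : ℂ) := by
      apply mul_left_cancel₀ h2
      rw [hj]; ring
    exact_mod_cast h3
  · rintro ⟨j, hj⟩
    refine ⟨j, ?_⟩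
    rw [hj]
    push_cast
    ring

/-- behaviour of a function with character under `σ⁻¹` at a conjugate of a translation -/
theorem tdm_conj_translate (N : ℕ) {g : tdmMer} {χ : Gamma0 N →* ℂˣ}
    (hχ : tdmHasChar (Gamma0 N) g χ) (σ : SL(2, ℤ)) (n : ℤ) (γ : Gamma0 N)
    (hγ : (γ : SL(2, ℤ)) = σ⁻¹ * T ^ n * σ ∨ (γ : SL(2, ℤ)) = -(σ⁻¹ * T ^ n * σ)) :
    tdmSL (T ^ n) (tdmSL σ⁻¹ g) = ((χ γ : ℂˣ) : ℂ) • tdmSL σ⁻¹ g := by
  have h1 : tdmSL (T ^ n) (tdmSL σ⁻¹ g) = tdmSL (σ⁻¹ * T ^ n) g := (tdmSL_mul _ _ _).symm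
  have h2 : tdmSL (σ⁻¹ * T ^ n) g = tdmSL ((γ : SL(2, ℤ)) * σ⁻¹) g := by
    rcases hγ with h | h
    · rw [h]
      congr 2
      group
    · rw [h, neg_mul, tdmSL_neg]
      congr 2
      group
  rw [h1, h2, tdmSL_mul, hχ γ, map_smul]

variable {𝕜 : Type} [Field 𝕜] [IsAlgClosed 𝕜] [Algebra 𝕜 ℂ] [Algebra ℚ 𝕜] {N : ℕ} [NeZero N]
  (D : TdmDict 𝕜 N)

/-- the multiplier at the cusp `σ⁻¹ ∞` of a root of the function of `y` -/
theorem TdmDict.mult_at_cusp {m : ℕ} (hm : m ≠ 0) (y : (↥(KMod.barField 𝕜 N))ˣ) {g : tdmMer}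
    (hg : g ^ m = D.fn (y : ↥(KMod.barField 𝕜 N))) (σ : SL(2, ℤ)) (n : ℤ) (c : ℂ)
    (hc : tdmSL (T ^ n) (tdmSL σ⁻¹ g) = c • tdmSL σ⁻¹ g) (K : ℤ)
    (hK : (KMod.modFieldQL 𝕜 N (KMod.modRep 𝕜 N σ
      ((KMod.modIso 𝕜 N (y : ↥(KMod.barField 𝕜 N)) : KMod.anField 𝕜 N) :
        KMod.ModField 𝕜 N))).order = K) :
    c = cexp (2 * π * I * (((K : ℝ) * (n : ℝ) / ((N : ℝ) * (m : ℝ)) : ℝ) : ℂ)) := by
  set X : KMod.ModField 𝕜 N := KMod.modRep 𝕜 N σ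
    ((KMod.modIso 𝕜 N (y : ↥(KMod.barField 𝕜 N)) : KMod.anField 𝕜 N) : KMod.ModField 𝕜 N) with hX
  have hX0 : X ≠ 0 := (map_ne_zero _).mpr (TdmDict.md_ne_zero y.ne_zero)
  obtain ⟨A, B, C, w₀, hw₀, hAB, hB, hlim⟩ := D.cusp X hX0
  have hpow : (tdmSL σ⁻¹ g) ^ m = tdmOfHol A / tdmOfHol B := by
    rw [← map_pow, hg, TdmDict.fn_apply, ← hAB, hX, D.toMer_modRep]
    rfl
  rw [hK] at hlim
  have h1 := tdm_mult_of_cusp m (Nat.pos_of_ne_zero hm) (tdmSL σ⁻¹ g) n c hc A B hpow C hB _ w₀ hw₀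
    hlim
  rw [h1]
  congr 1
  have hN : ((N : ℝ) : ℂ) ≠ 0 := by exact_mod_cast (NeZero.ne N)
  have hmC : (m : ℂ) ≠ 0 := by exact_mod_cast hm
  push_cast
  field_simp

/-- **the character of a root lies in `X_m`** -/
theorem TdmDict.char_mem {m : ℕ} (hm : m ≠ 0) {y : (↥(KMod.barField 𝕜 N))ˣ}
    (hy : y ∈ tWsub 𝕜 N m) {g : tdmMer} (hg : g ^ m = D.fn (y : ↥(KMod.barField 𝕜 N)))
    {χ : Gamma0 N →* ℂˣ} (hχ : tdmHasChar (Gamma0 N) g χ) : χ ∈ tdmX N m := by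
  have hfn0 : D.fn (y : ↥(KMod.barField 𝕜 N)) ≠ 0 := (map_ne_zero _).mpr y.ne_zero
  have hg0 : g ≠ 0 := by
    rintro rfl
    rw [zero_pow hm] at hg
    exact hfn0 hg.symm
  obtain ⟨hτ, hσ⟩ := (D.dict m y).mp hy
  have hmZ : (m : ℤ) ≠ 0 := by exact_mod_cast hm
  refine ⟨fun γ => ?_, fun γ hγ => ?_, fun γ hγ => ?_⟩
  · -- `χ ^ m = 1`
    have h1 := congrArg (fun x => x ^ m) (hχ γ)
    beta_reduce at h1
    rw [← map_pow, hg, D.fn_inv _ γ, smul_pow, hg] at h1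
    have h2 : (1 : ℂ) • D.fn (y : ↥(KMod.barField 𝕜 N))
        = (((χ γ : ℂˣ) : ℂ) ^ m) • D.fn (y : ↥(KMod.barField 𝕜 N)) := by
      rw [one_smul]; exact h1
    apply Units.ext
    rw [Units.val_pow_eq_pow_val, Units.val_one]
    exact (tdm_smul_left_injective hfn0 h2).symm
  · -- parabolic elements
    obtain ⟨σ, n, hσn⟩ := tdm_parabolic_conj (γ : SL(2, ℤ)) hγ
    have hmem : σ⁻¹ * T ^ n * σ ∈ Gamma0 N := by
      rcases hσn with h | h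
      · rw [← h]; exact γ.2
      · have := tdm_neg_mem_Gamma0 N γ.2
        rw [h, neg_neg] at this
        exact this
    obtain ⟨n₀, hn₀, hdiv⟩ := hσ σ
    obtain ⟨j, hj⟩ := hdiv n hmem
    have h1 := D.mult_at_cusp hm y hg σ n _ (tdm_conj_translate N hχ σ n γ hσn) _ hn₀
    apply Units.ext
    rw [h1, Units.val_one, tdm_exp_eq_one_iff]
    refine ⟨j, ?_⟩
    have hN : (N : ℝ) ≠ 0 := by exact_mod_cast (NeZero.ne N)
    have hmR : (m : ℝ) ≠ 0 := by exact_mod_cast hm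
    have hj' : ((n : ℝ) * (n₀ : ℝ)) = (N : ℝ) * (j : ℝ) := by exact_mod_cast hj
    push_cast
    field_simp
    linear_combination hj'
  · -- elements of finite order
    have hγ' : IsOfFinOrder (γ : SL(2, ℤ)) := by
      rw [isOfFinOrder_iff_pow_eq_one] at hγ ⊢
      obtain ⟨k, hk, hpow⟩ := hγ
      refine ⟨k, hk, ?_⟩
      have := congrArg (fun x : Gamma0 N => (x : SL(2, ℤ))) hpow
      simpa using this
    have hγg := hχ γ
    rcases tdm_finOrder_cases (γ : SL(2, ℤ)) hγ' with h1 | h1 | ⟨τ₀, hτ₀⟩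
    · rw [h1, tdmSL_one] at hγg
      apply Units.ext
      have h2 : (1 : ℂ) • g = ((χ γ : ℂˣ) : ℂ) • g := by rw [one_smul]; exact hγg
      exact (tdm_smul_left_injective hg0 h2).symm
    · rw [h1, tdmSL_neg, tdmSL_one] at hγg
      apply Units.ext
      have h2 : (1 : ℂ) • g = ((χ γ : ℂˣ) : ℂ) • g := by rw [one_smul]; exact hγg
      exact (tdm_smul_left_injective hg0 h2).symm
    · obtain ⟨n, hn, hfix⟩ := hτ τ₀
      have hord : tdmOrd τ₀ g = n := by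
        have h3 : tdmOrd τ₀ (g ^ m) = m * n := by rw [hg]; exact hn
        rw [tdmOrd_pow] at h3
        exact mul_left_cancel₀ hmZ h3
      have h4 := tdm_const_of_fixed (γ : SL(2, ℤ)) τ₀ hτ₀ g hg0 _ hγg
      rw [hord] at h4
      have h5 := hfix (γ : SL(2, ℤ)) γ.2 hτ₀
      have h6 : (1 : ℂ) / denom (γ : SL(2, ℤ)) τ₀ ^ 2 = denom (γ : SL(2, ℤ)) τ₀ ^ (-2 : ℤ) := by
        rw [_root_.zpow_neg, one_div]
        norm_cast
      apply Units.ext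
      rw [h4, h6, h5, Units.val_one]

/-- **converse**: if a root of the function of `y` has a character in `X_m`, then
`y ∈ tWsub 𝕜 N m` -/
theorem TdmDict.mem_of_char {m : ℕ} (hm : m ≠ 0) (y : (↥(KMod.barField 𝕜 N))ˣ) {g : tdmMer}
    (hg : g ^ m = D.fn (y : ↥(KMod.barField 𝕜 N))) {χ : Gamma0 N →* ℂˣ}
    (hχ : tdmHasChar (Gamma0 N) g χ) (hX : χ ∈ tdmX N m) : y ∈ tWsub 𝕜 N m := by
  have hfn0 : D.fn (y : ↥(KMod.barField 𝕜 N)) ≠ 0 := (map_ne_zero _).mpr y.ne_zero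
  have hg0 : g ≠ 0 := by
    rintro rfl
    rw [zero_pow hm] at hg
    exact hfn0 hg.symm
  have hmZ : (m : ℤ) ≠ 0 := by exact_mod_cast hm
  have hN : (N : ℝ) ≠ 0 := by exact_mod_cast (NeZero.ne N)
  have hmR : (m : ℝ) ≠ 0 := by exact_mod_cast hm
  rw [D.dict m y]
  constructor
  · intro τ
    refine ⟨tdmOrd τ g, ?_, fun γ hγ hfix => ?_⟩
    · show tdmOrd τ (D.fn (y : ↥(KMod.barField 𝕜 N))) = _
      rw [← hg, tdmOrd_pow]
    · have hfin : IsOfFinOrder (⟨γ, hγ⟩ : Gamma0 N) := by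
        have := tdm_isOfFinOrder_of_fixed γ τ hfix
        rw [isOfFinOrder_iff_pow_eq_one] at this ⊢
        obtain ⟨k, hk, hpow⟩ := this
        exact ⟨k, hk, Subtype.ext (by simpa using hpow)⟩
      have h1 := hχ ⟨γ, hγ⟩
      rw [hX.2.2 _ hfin, Units.val_one] at h1
      have h2 := tdm_const_of_fixed γ τ hfix g hg0 1 h1
      have h6 : (1 : ℂ) / denom γ τ ^ 2 = denom γ τ ^ (-2 : ℤ) := by
        rw [_root_.zpow_neg, one_div]
        norm_cast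
      rw [← h6]
      exact h2.symm
  · intro σ
    set K : ℤ := (KMod.modFieldQL 𝕜 N (KMod.modRep 𝕜 N σ
      ((KMod.modIso 𝕜 N (y : ↥(KMod.barField 𝕜 N)) : KMod.anField 𝕜 N) :
        KMod.ModField 𝕜 N))).order with hK
    -- the basic relation
    have key : ∀ h : ℤ, σ⁻¹ * T ^ h * σ ∈ Gamma0 N → ∃ j : ℤ, K * h = N * m * j := by
      intro h hmem
      have h1 : tdmSL (T ^ h) (tdmSL σ⁻¹ g)
          = ((χ ⟨σ⁻¹ * T ^ h * σ, hmem⟩ : ℂˣ) : ℂ) • tdmSL σ⁻¹ g :=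
        tdm_conj_translate N hχ σ h ⟨σ⁻¹ * T ^ h * σ, hmem⟩ (Or.inl rfl)
      rw [hX.2.1 _ (tdm_trace_conj_T σ h), Units.val_one] at h1
      have h2 := D.mult_at_cusp hm y hg σ h 1 h1 K hK.symm
      have h3 := (tdm_exp_eq_one_iff _).mp h2.symm
      obtain ⟨j, hj⟩ := h3
      refine ⟨j, ?_⟩
      have hj' : ((K : ℝ) * (h : ℝ)) = (N : ℝ) * (m : ℝ) * (j : ℝ) := by
        field_simp at hj
        linear_combination hj
      exact_mod_cast hj'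
    have hNmem : σ⁻¹ * T ^ (N : ℤ) * σ ∈ Gamma0 N := by
      have := tdm_conj_T_pow_mem_Gamma0 N σ 1
      rwa [mul_one] at this
    obtain ⟨n, hn⟩ := key N hNmem
    have hNZ : (N : ℤ) ≠ 0 := by exact_mod_cast (NeZero.ne N)
    have hKn : K = m * n := by
      apply mul_right_cancel₀ hNZ
      rw [hn]; ring
    refine ⟨n, hKn, fun h hmem => ?_⟩
    obtain ⟨j, hj⟩ := key h hmem
    refine ⟨j, ?_⟩
    apply mul_left_cancel₀ hmZ
    rw [hKn] at hj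
    linear_combination hj

end Fermat.Agent.T1
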