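/-
T1-D (WP-Ψ): the monodromy homomorphism `Ψ : tWsub 𝕜 N m →* tdmX N m`, its kernel and image.
-/
import Mathlib
import Fermat.Agent.Lib.T1.Mono.Monodromy
import Fermat.Agent.Lib.T1.Mono.Limit

set_option autoImplicit false
set_option linter.unusedSectionVars false

namespace Fermat.Agent.T1

open Complex Set Filter Topology Matrix MatrixGroups CongruenceSubgroup ModularCurve
open UpperHalfPlane hiding I
open scoped Manifold Real
open Fermat.Agent.S24Lib (holH)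

theorem tdmHasChar_npow {Γ : Subgroup SL(2, ℤ)} {g : tdmMer} {χ : Γ →* ℂˣ}
    (h : tdmHasChar Γ g χ) (n : ℕ) : tdmHasChar Γ (g ^ n) (χ ^ n) := by
  intro γ
  rw [map_pow, h γ, smul_pow, MonoidHom.pow_apply, Units.val_pow_eq_pow_val]

section Generic

variable {𝕜 : Type} [Field 𝕜] [IsAlgClosed 𝕜] [Algebra 𝕜 ℂ] [Algebra ℚ 𝕜] {N : ℕ} [NeZero N]
  (D : TdmDict 𝕜 N)

/-- existence of an `m`-th root of the function of `y ∈ tWsub 𝕜 N m` -/
theorem TdmDict.exists_root {m : ℕ} (hm : m ≠ 0) {y : (↥(KMod.barField 𝕜 N))ˣ}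
    (hy : y ∈ tWsub 𝕜 N m) : ∃ g : tdmMer, g ^ m = D.fn (y : ↥(KMod.barField 𝕜 N)) := by
  have hfn0 : D.fn (y : ↥(KMod.barField 𝕜 N)) ≠ 0 := (map_ne_zero _).mpr y.ne_zero
  obtain ⟨hτ, -⟩ := (D.dict m y).mp hy
  apply tdm_exists_root m (Nat.pos_of_ne_zero hm) _ hfn0
  intro τ
  obtain ⟨n, hn, -⟩ := hτ τ
  exact ⟨n, hn⟩

theorem TdmDict.root_ne_zero {m : ℕ} (hm : m ≠ 0) (y : (↥(KMod.barField 𝕜 N))ˣ) {g : tdmMer}
    (hg : g ^ m = D.fn (y : ↥(KMod.barField 𝕜 N))) : g ≠ 0 := by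
  have hfn0 : D.fn (y : ↥(KMod.barField 𝕜 N)) ≠ 0 := (map_ne_zero _).mpr y.ne_zero
  rintro rfl
  rw [zero_pow hm] at hg
  exact hfn0 hg.symm

theorem TdmDict.root_inv {m : ℕ} (y : (↥(KMod.barField 𝕜 N))ˣ) {g : tdmMer}
    (hg : g ^ m = D.fn (y : ↥(KMod.barField 𝕜 N))) : tdmIsInv (Gamma0 N) (g ^ m) := by
  rw [hg]
  exact D.fn_inv _

/-- the character of (any) root of the function of `y` -/
noncomputable def TdmDict.psiChar {m : ℕ} (hm : m ≠ 0) (y : tWsub 𝕜 N m) : Gamma0 N →* ℂˣ :=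
  tdmCharOf (Gamma0 N) hm (D.root_ne_zero hm y.1 (D.exists_root hm y.2).choose_spec)
    (D.root_inv y.1 (D.exists_root hm y.2).choose_spec)

/-- the character does not depend on the root -/
theorem TdmDict.psiChar_eq {m : ℕ} (hm : m ≠ 0) (y : tWsub 𝕜 N m) {g : tdmMer}
    (hg : g ^ m = D.fn ((y : (↥(KMod.barField 𝕜 N))ˣ) : ↥(KMod.barField 𝕜 N)))
    {χ : Gamma0 N →* ℂˣ} (hχ : tdmHasChar (Gamma0 N) g χ) : D.psiChar hm y = χ := by
  have h0 := D.root_ne_zero hm y.1 hg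
  have h1 := tdmCharOf_spec (Gamma0 N) hm
    (D.root_ne_zero hm y.1 (D.exists_root hm y.2).choose_spec)
    (D.root_inv y.1 (D.exists_root hm y.2).choose_spec)
  have h2 : tdmHasChar (Gamma0 N) g (D.psiChar hm y) :=
    tdmHasChar_of_pow_eq hm (D.root_ne_zero hm y.1 (D.exists_root hm y.2).choose_spec)
      (hg.trans (D.exists_root hm y.2).choose_spec.symm) h1
  exact tdmHasChar_unique h0 h2 hχ

theorem TdmDict.psiChar_spec {m : ℕ} (hm : m ≠ 0) (y : tWsub 𝕜 N m) {g : tdmMer}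
    (hg : g ^ m = D.fn ((y : (↥(KMod.barField 𝕜 N))ˣ) : ↥(KMod.barField 𝕜 N))) :
    tdmHasChar (Gamma0 N) g (D.psiChar hm y) := by
  have h0 := D.root_ne_zero hm y.1 hg
  have h1 := tdmCharOf_spec (Gamma0 N) hm h0 (D.root_inv y.1 hg)
  rw [D.psiChar_eq hm y hg h1]
  exact h1

theorem TdmDict.psiChar_mem {m : ℕ} (hm : m ≠ 0) (y : tWsub 𝕜 N m) :
    D.psiChar hm y ∈ tdmX N m := by
  obtain ⟨g, hg⟩ := D.exists_root hm y.2
  exact D.char_mem hm y.2 hg (D.psiChar_spec hm y hg)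

/-- **the monodromy homomorphism** -/
noncomputable def TdmDict.psi {m : ℕ} (hm : m ≠ 0) : tWsub 𝕜 N m →* tdmX N m where
  toFun y := ⟨D.psiChar hm y, D.psiChar_mem hm y⟩
  map_one' := by
    apply Subtype.ext
    apply D.psiChar_eq hm 1 (g := 1)
    · rw [one_pow]
      exact (map_one D.fn).symm
    · show tdmHasChar (Gamma0 N) 1 1
      rw [tdmHasChar_one_iff]
      intro γ
      exact map_one _
  map_mul' y z := by
    apply Subtype.ext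
    obtain ⟨g, hg⟩ := D.exists_root hm y.2
    obtain ⟨g', hg'⟩ := D.exists_root hm z.2
    apply D.psiChar_eq hm (y * z) (g := g * g')
    · rw [mul_pow, hg, hg']
      exact (map_mul D.fn _ _).symm
    · exact tdmHasChar_mul (D.psiChar_spec hm y hg) (D.psiChar_spec hm z hg')

theorem TdmDict.psi_coe {m : ℕ} (hm : m ≠ 0) (y : tWsub 𝕜 N m) :
    ((D.psi hm y : tdmX N m) : Gamma0 N →* ℂˣ) = D.psiChar hm y := rfl

/-- `Ψ y = 1` iff the function of `y` has an invariant `m`-th root -/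
theorem TdmDict.psi_eq_one_iff {m : ℕ} (hm : m ≠ 0) (y : tWsub 𝕜 N m) :
    D.psi hm y = 1 ↔ ∃ g : tdmMer,
      g ^ m = D.fn ((y : (↥(KMod.barField 𝕜 N))ˣ) : ↥(KMod.barField 𝕜 N)) ∧
        tdmIsInv (Gamma0 N) g := by
  constructor
  · intro h
    obtain ⟨g, hg⟩ := D.exists_root hm y.2
    refine ⟨g, hg, ?_⟩
    have h1 := D.psiChar_spec hm y hg
    have h2 : D.psiChar hm y = 1 := congrArg Subtype.val h
    rw [h2] at h1
    exact tdmHasChar_one_iff.mp h1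
  · rintro ⟨g, hg, hinv⟩
    apply Subtype.ext
    exact D.psiChar_eq hm y hg (tdmHasChar_one_iff.mpr hinv)

/-- `m`-th powers are in the kernel -/
theorem TdmDict.psi_pow {m : ℕ} (hm : m ≠ 0) (y : tWsub 𝕜 N m) (t : (↥(KMod.barField 𝕜 N))ˣ)
    (h : (y : (↥(KMod.barField 𝕜 N))ˣ) = t ^ m) : D.psi hm y = 1 := by
  rw [D.psi_eq_one_iff hm y]
  refine ⟨D.fn (t : ↥(KMod.barField 𝕜 N)), ?_, D.fn_inv _⟩
  rw [h, ← map_pow, Units.val_pow_eq_pow_val]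

/-- `tWsub 𝕜 N (p m) ≤ tWsub 𝕜 N m` -/
theorem tdm_tWsub_mul_le (p m : ℕ) : tWsub 𝕜 N (p * m) ≤ tWsub 𝕜 N m := by
  intro y hy P
  have := hy P
  exact Dvd.dvd.trans ⟨(p : ℤ), by push_cast; ring⟩ this

/-- **naturality in `m`**: `Ψ_m y = (Ψ_{p m} y) ^ p` -/
theorem TdmDict.psi_mul {p m : ℕ} (hp : p ≠ 0) (hm : m ≠ 0) (y : tWsub 𝕜 N (p * m)) :
    ((D.psi hm ⟨y.1, tdm_tWsub_mul_le p m y.2⟩ : tdmX N m) : Gamma0 N →* ℂˣ)
      = ((D.psi (Nat.mul_ne_zero hp hm) y : tdmX N (p * m)) : Gamma0 N →* ℂˣ) ^ p := by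
  obtain ⟨g, hg⟩ := D.exists_root (Nat.mul_ne_zero hp hm) y.2
  rw [D.psi_coe, D.psi_coe]
  apply D.psiChar_eq hm ⟨y.1, tdm_tWsub_mul_le p m y.2⟩ (g := g ^ p)
  · rw [← pow_mul]
    exact hg
  · exact tdmHasChar_npow (D.psiChar_spec (Nat.mul_ne_zero hp hm) y hg) p

end Generic

end Fermat.Agent.T1
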