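/-
T1-D (WP-F): Hecke operators and complex conjugation on functions versus characters.

For a coset system `S` of `Γ` and `g` with character `χ`, the product `∏ i, g ∘ α_i` has character
`S.homMul χ`.  Consequently the monodromy map `Ψ` intertwines the functional Hecke operators with
the abstract Hecke operators on characters, and complex conjugation with `χ ↦ conj ∘ χ ∘ jConj`.
-/
import Mathlib
import Fermat.Agent.Lib.T1.Mono.Coset
import Fermat.Agent.Lib.T1.Mono.Conj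
import Fermat.Agent.Lib.T1.Mono.Psi

set_option autoImplicit false
set_option linter.unusedSectionVars false

namespace Fermat.Agent.T1

open Complex Set Filter Topology Matrix MatrixGroups CongruenceSubgroup ModularCurve
open UpperHalfPlane hiding I
open scoped Manifold Real ComplexConjugate
open Fermat.Agent.S24Lib (holH)
open Fermat.Agent.S22Lib (intGL intGL_det_pos intGL_mul intGL_coe_SL)
open ModularCurve.Period (jConjSL jConjSL_jConjSL jConjGamma0 jConjGamma0_coe)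

/-! ### Precomposition with integral matrices and the action of `SL(2, ℤ)` -/

theorem tdm_det_mul_SL (A : Matrix (Fin 2) (Fin 2) ℤ) (δ : SL(2, ℤ)) :
    (A * (δ : Matrix (Fin 2) (Fin 2) ℤ)).det = A.det := by
  rw [Matrix.det_mul, δ.det_coe, mul_one]

theorem tdm_det_SL_mul (A : Matrix (Fin 2) (Fin 2) ℤ) (δ : SL(2, ℤ)) :
    ((δ : Matrix (Fin 2) (Fin 2) ℤ) * A).det = A.det := by
  rw [Matrix.det_mul, δ.det_coe, one_mul]

theorem tdm_intGL_SL (δ : SL(2, ℤ)) (h : 0 < (δ : Matrix (Fin 2) (Fin 2) ℤ).det) :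
    intGL (δ : Matrix (Fin 2) (Fin 2) ℤ) h = (δ : GL (Fin 2) ℝ) := intGL_coe_SL δ h

theorem tdmCompInt_congr {A B : Matrix (Fin 2) (Fin 2) ℤ} (e : A = B) (hA : 0 < A.det)
    (hB : 0 < B.det) : tdmCompInt A hA = tdmCompInt B hB := by
  subst e; rfl

theorem tdmSL_eq_comp (γ : SL(2, ℤ)) (y : tdmMer) :
    tdmSL γ y = tdmComp (γ : GL (Fin 2) ℝ) (tdm_det_SL_pos γ) y := rfl

theorem tdmCompInt_eq_comp (A : Matrix (Fin 2) (Fin 2) ℤ) (hA : 0 < A.det) (y : tdmMer) :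
    tdmCompInt A hA y = tdmComp (intGL A hA) (intGL_det_pos A hA) y := rfl

/-- `(y ∘ A) ∘ δ = y ∘ (A δ)` -/
theorem tdmSL_compInt (δ : SL(2, ℤ)) (A : Matrix (Fin 2) (Fin 2) ℤ) (hA : 0 < A.det)
    (hAδ : 0 < (A * (δ : Matrix (Fin 2) (Fin 2) ℤ)).det) (g : tdmMer) :
    tdmSL δ (tdmCompInt A hA g) = tdmCompInt (A * (δ : Matrix (Fin 2) (Fin 2) ℤ)) hAδ g := by
  have hδ : 0 < (δ : Matrix (Fin 2) (Fin 2) ℤ).det := by rw [δ.det_coe]; exact one_pos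
  have h1 : intGL (A * (δ : Matrix (Fin 2) (Fin 2) ℤ)) hAδ = intGL A hA * (δ : GL (Fin 2) ℝ) := by
    rw [intGL_mul A _ hA hδ hAδ, tdm_intGL_SL]
  have h2 := tdmComp_mul (intGL A hA) (δ : GL (Fin 2) ℝ) (intGL_det_pos A hA) (tdm_det_SL_pos δ)
  have h3 := tdmComp_congr h1 (intGL_det_pos _ hAδ)
    (tdm_det_mul_pos (intGL_det_pos A hA) (tdm_det_SL_pos δ))
  rw [tdmSL_eq_comp, tdmCompInt_eq_comp, tdmCompInt_eq_comp, h3, h2, AlgHom.comp_apply]

/-- `y ∘ (ε B) = (y ∘ ε) ∘ B` -/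
theorem tdmCompInt_SL_mul (ε : SL(2, ℤ)) (B : Matrix (Fin 2) (Fin 2) ℤ) (hB : 0 < B.det)
    (hεB : 0 < ((ε : Matrix (Fin 2) (Fin 2) ℤ) * B).det) (g : tdmMer) :
    tdmCompInt ((ε : Matrix (Fin 2) (Fin 2) ℤ) * B) hεB g = tdmCompInt B hB (tdmSL ε g) := by
  have hε : 0 < (ε : Matrix (Fin 2) (Fin 2) ℤ).det := by rw [ε.det_coe]; exact one_pos
  have h1 : intGL ((ε : Matrix (Fin 2) (Fin 2) ℤ) * B) hεB = (ε : GL (Fin 2) ℝ) * intGL B hB := by
    rw [intGL_mul _ B hε hB hεB, tdm_intGL_SL]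
  have h2 := tdmComp_mul (ε : GL (Fin 2) ℝ) (intGL B hB) (tdm_det_SL_pos ε) (intGL_det_pos B hB)
  have h3 := tdmComp_congr h1 (intGL_det_pos _ hεB)
    (tdm_det_mul_pos (tdm_det_SL_pos ε) (intGL_det_pos B hB))
  rw [tdmSL_eq_comp, tdmCompInt_eq_comp, tdmCompInt_eq_comp, h3, h2, AlgHom.comp_apply]

/-! ### The product over a coset system -/

namespace tdmCosetSys

variable {Γ : Subgroup SL(2, ℤ)} {ι : Type} [Fintype ι] (S : tdmCosetSys Γ ι)

/-- `g ↦ ∏ i, g ∘ α_i` -/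
noncomputable def prodFn : tdmMer →* tdmMer where
  toFun g := ∏ i, tdmCompInt (S.rep i) (S.det_pos i) g
  map_one' := by simp
  map_mul' a b := by
    simp only [map_mul]
    exact Finset.prod_mul_distrib

theorem prodFn_apply (g : tdmMer) : S.prodFn g = ∏ i, tdmCompInt (S.rep i) (S.det_pos i) g := rfl

theorem prodFn_ne_zero {g : tdmMer} (hg : g ≠ 0) : S.prodFn g ≠ 0 := by
  rw [prodFn_apply, Finset.prod_ne_zero_iff]
  intro i _
  exact (map_ne_zero _).mpr hg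

theorem prodFn_smul (c : ℂ) (g : tdmMer) :
    S.prodFn (c • g) = c ^ (Fintype.card ι) • S.prodFn g := by
  rw [prodFn_apply, prodFn_apply]
  simp only [map_smul]
  rw [Finset.prod_smul, Finset.prod_const]
  rfl

/-- the translate of one factor -/
theorem tdmSL_factor {g : tdmMer} {χ : Γ →* ℂˣ} (h : tdmHasChar Γ g χ) (δ : Γ) (i : ι) :
    tdmSL (δ : SL(2, ℤ)) (tdmCompInt (S.rep i) (S.det_pos i) g)
      = ((χ (S.eps δ i) : ℂˣ) : ℂ) • tdmCompInt (S.rep (S.sigma δ i)) (S.det_pos _) g := by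
  have h1 : 0 < (S.rep i * ((δ : SL(2, ℤ)) : Matrix (Fin 2) (Fin 2) ℤ)).det := by
    rw [tdm_det_mul_SL]; exact S.det_pos i
  have h2 : 0 < (((S.eps δ i : SL(2, ℤ)) : Matrix (Fin 2) (Fin 2) ℤ) * S.rep (S.sigma δ i)).det := by
    rw [tdm_det_SL_mul]; exact S.det_pos _
  rw [tdmSL_compInt _ _ _ h1, tdmCompInt_congr (S.rep_mul δ i) h1 h2,
    tdmCompInt_SL_mul _ _ (S.det_pos _) h2, h (S.eps δ i), map_smul]

/-- **the product has character `S.homMul χ`** -/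
theorem prodFn_hasChar {g : tdmMer} {χ : Γ →* ℂˣ} (h : tdmHasChar Γ g χ) :
    tdmHasChar Γ (S.prodFn g) (S.homMul ℂˣ χ) := by
  intro δ
  rw [prodFn_apply, map_prod]
  simp only [S.tdmSL_factor h δ]
  rw [Finset.prod_smul, S.homMul_apply, Units.coe_prod]
  congr 1
  exact Equiv.prod_comp (S.sigma δ) (fun j => tdmCompInt (S.rep j) (S.det_pos j) g)

end tdmCosetSys

/-! ### Equivariance of the monodromy map -/

section Generic

variable {𝕜 : Type} [Field 𝕜] [IsAlgClosed 𝕜] [Algebra 𝕜 ℂ] [Algebra ℚ 𝕜] {N : ℕ} [NeZero N]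
  (D : TdmDict 𝕜 N)

/-- **Hecke equivariance**: if the function of `z` is `∏ i, Y ∘ α_i`, `Y` the function of
`y ∈ tWsub 𝕜 N m`, then `z ∈ tWsub 𝕜 N m` and `Ψ z = S.homMul (Ψ y)`. -/
theorem TdmDict.psi_hecke {ι : Type} [Fintype ι] (S : tdmCosetSys (Gamma0 N) ι) {m : ℕ}
    (hm : m ≠ 0) (y : tWsub 𝕜 N m) (z : (↥(KMod.barField 𝕜 N))ˣ)
    (hz : D.fn (z : ↥(KMod.barField 𝕜 N))
      = S.prodFn (D.fn ((y : (↥(KMod.barField 𝕜 N))ˣ) : ↥(KMod.barField 𝕜 N)))) :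
    ∃ hz' : z ∈ tWsub 𝕜 N m,
      ((D.psi hm ⟨z, hz'⟩ : tdmX N m) : Gamma0 N →* ℂˣ)
        = S.homMul ℂˣ ((D.psi hm y : tdmX N m) : Gamma0 N →* ℂˣ) := by
  obtain ⟨g, hg⟩ := D.exists_root hm y.2
  have hχ := D.psiChar_spec hm y hg
  have hG : (S.prodFn g) ^ m = D.fn (z : ↥(KMod.barField 𝕜 N)) := by
    rw [hz, ← map_pow, hg]
  have hGχ := S.prodFn_hasChar hχ
  have hmem := S.homMul_mem_tdmX (D.psiChar_mem hm y)
  have hz' : z ∈ tWsub 𝕜 N m := D.mem_of_char hm z hG hGχ hmem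
  refine ⟨hz', ?_⟩
  rw [D.psi_coe, D.psi_coe]
  exact D.psiChar_eq hm ⟨z, hz'⟩ hG hGχ

end Generic

/-! ### Complex conjugation -/

/-- `χ ↦ conj ∘ χ ∘ jConj` on characters of `Γ₀(N)` -/
noncomputable def tdmConjChar (N : ℕ) : (Gamma0 N →* ℂˣ) →* (Gamma0 N →* ℂˣ) where
  toFun χ := ((Units.map (starRingEnd ℂ : ℂ →* ℂ)).comp χ).comp (jConjGamma0 N)
  map_one' := by
    ext γ
    simp
  map_mul' χ ψ := by
    ext γ
    simp

theorem tdmConjChar_apply (N : ℕ) (χ : Gamma0 N →* ℂˣ) (γ : Gamma0 N) :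
    ((tdmConjChar N χ γ : ℂˣ) : ℂ) = conj ((χ (jConjGamma0 N γ) : ℂˣ) : ℂ) := rfl

theorem tdm_trace_jConj (γ : SL(2, ℤ)) :
    ((jConjSL γ : SL(2, ℤ)) : Matrix (Fin 2) (Fin 2) ℤ).trace
      = (γ : Matrix (Fin 2) (Fin 2) ℤ).trace := by
  rw [ModularCurve.Period.jConjSL_coe, Matrix.trace_fin_two, Matrix.trace_fin_two]
  simp [ModularCurve.Period.jConjMat]

theorem tdmConjChar_mem {N m : ℕ} {χ : Gamma0 N →* ℂˣ} (hχ : χ ∈ tdmX N m) :
    tdmConjChar N χ ∈ tdmX N m := by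
  obtain ⟨h1, h2, h3⟩ := hχ
  refine ⟨fun γ => ?_, fun γ hγ => ?_, fun γ hγ => ?_⟩
  · apply Units.ext
    rw [Units.val_pow_eq_pow_val, tdmConjChar_apply, ← map_pow, ← Units.val_pow_eq_pow_val, h1]
    simp
  · apply Units.ext
    rw [tdmConjChar_apply, h2 (jConjGamma0 N γ) (by
      rw [jConjGamma0_coe, tdm_trace_jConj]; exact hγ)]
    simp
  · apply Units.ext
    rw [tdmConjChar_apply, h3 (jConjGamma0 N γ) ((jConjGamma0 N).isOfFinOrder hγ)]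
    simp

section GenericConj

variable {𝕜 : Type} [Field 𝕜] [IsAlgClosed 𝕜] [Algebra 𝕜 ℂ] [Algebra ℚ 𝕜] {N : ℕ} [NeZero N]
  (D : TdmDict 𝕜 N)

/-- **conjugation equivariance**: if the function of `z` is the conjugate of the function of
`y ∈ tWsub 𝕜 N m`, then `z ∈ tWsub 𝕜 N m` and `Ψ z = conj ∘ Ψ y ∘ jConj`. -/
theorem TdmDict.psi_conj {m : ℕ} (hm : m ≠ 0) (y : tWsub 𝕜 N m) (z : (↥(KMod.barField 𝕜 N))ˣ)
    (hz : D.fn (z : ↥(KMod.barField 𝕜 N))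
      = tdmConj (D.fn ((y : (↥(KMod.barField 𝕜 N))ˣ) : ↥(KMod.barField 𝕜 N)))) :
    ∃ hz' : z ∈ tWsub 𝕜 N m,
      ((D.psi hm ⟨z, hz'⟩ : tdmX N m) : Gamma0 N →* ℂˣ)
        = tdmConjChar N ((D.psi hm y : tdmX N m) : Gamma0 N →* ℂˣ) := by
  obtain ⟨g, hg⟩ := D.exists_root hm y.2
  have hχ := D.psiChar_spec hm y hg
  have hG : (tdmConj g) ^ m = D.fn (z : ↥(KMod.barField 𝕜 N)) := by
    rw [hz, ← map_pow, hg]
  have hGχ : tdmHasChar (Gamma0 N) (tdmConj g) (tdmConjChar N (D.psiChar hm y)) := by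
    intro γ
    rw [tdmConjChar_apply]
    exact tdmHasChar_conj N g _ hχ γ
  have hmem := tdmConjChar_mem (D.psiChar_mem hm y)
  have hz' : z ∈ tWsub 𝕜 N m := D.mem_of_char hm z hG hGχ hmem
  refine ⟨hz', ?_⟩
  rw [D.psi_coe, D.psi_coe]
  exact D.psiChar_eq hm ⟨z, hz'⟩ hG hGχ

end GenericConj

end Fermat.Agent.T1
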