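/-
T1-D (WP-Ψ): the monodromy isomorphism over `ℂ` (kernel = `m`-th powers, surjectivity through the
Eisenstein series with character) and its descent to `ℚ̄`.
-/
import Mathlib
import Fermat.Agent.Lib.T1.Mono.Psi

set_option autoImplicit false
set_option linter.unusedSectionVars false

namespace Fermat.Agent.T1

open Complex Set Filter Topology Matrix MatrixGroups CongruenceSubgroup ModularCurve
open UpperHalfPlane hiding I
open scoped Manifold Real
open Fermat.Agent.S24Lib (holH)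
open Fermat.Agent.S24Lib

local notation "Kbar" => AlgebraicClosure ℚ

/-! ### Finiteness of the character group -/

instance tdm_finite_X (N m : ℕ) [NeZero N] [NeZero m] : Finite (tdmX N m) := by
  classical
  obtain ⟨S, hS⟩ := (Group.fg_iff (G := Gamma0 N)).mp inferInstance
  obtain ⟨S, hS, hfin⟩ := S, hS.1, hS.2
  have : Finite S := hfin.to_subtype
  let f : tdmX N m → (S → rootsOfUnity m ℂ) := fun χ s =>
    ⟨(χ : Gamma0 N →* ℂˣ) s, by
      rw [_root_.mem_rootsOfUnity]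
      exact χ.2.1 s⟩
  have hf : Function.Injective f := by
    intro χ ψ h
    apply Subtype.ext
    apply MonoidHom.eq_of_eqOn_dense (s := S)
    · exact hS
    · intro s hs
      have := congrFun h ⟨s, hs⟩
      exact congrArg Subtype.val this
  exact Finite.of_injective f hf

/-! ### The subgroup of `m`-th powers -/

/-- the `m`-th powers, as a subgroup of `tWsub 𝕜 N m` -/
noncomputable def tdmPowSub (𝕜 : Type) [Field 𝕜] [Algebra ℚ 𝕜] (N m : ℕ) : Subgroup (tWsub 𝕜 N m) :=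
  ((powMonoidHom m : (↥(laurentBaseChange 𝕜 (modularFunctionFieldFull N)))ˣ →* _).range).subgroupOf
    (tWsub 𝕜 N m)

theorem mem_tdmPowSub {𝕜 : Type} [Field 𝕜] [Algebra ℚ 𝕜] {N m : ℕ} {y : tWsub 𝕜 N m} :
    y ∈ tdmPowSub 𝕜 N m ↔ ∃ t : (↥(laurentBaseChange 𝕜 (modularFunctionFieldFull N)))ˣ,
      t ^ m = (y : (↥(laurentBaseChange 𝕜 (modularFunctionFieldFull N)))ˣ) := by
  rw [tdmPowSub, Subgroup.mem_subgroupOf, MonoidHom.mem_range]
  rfl

/-! ### The analytic dictionary over `ℂ` -/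

/-- the additional analytic inputs over `ℂ` -/
structure TdmDictC (N : ℕ) [NeZero N] extends TdmDict ℂ N where
  /-- quotients of modular forms of equal weight are in the function field -/
  automorphic : ∀ (k : ℤ) (A B : ModularForm (Gamma0 N) k), B ≠ 0 →
    ∃ X : KMod.ModField ℂ N, X ∈ KMod.anField ℂ N ∧
      toMer X = tdmOfHol ⟨(A : ℍ → ℂ), A.holo'⟩ / tdmOfHol ⟨(B : ℍ → ℂ), B.holo'⟩
  /-- invariant roots of elements of the function field are in the function field -/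
  root_mem : ∀ (g : tdmMer) (m : ℕ), m ≠ 0 → tdmIsInv (Gamma0 N) g →
    (∃ X : KMod.ModField ℂ N, X ∈ KMod.anField ℂ N ∧ toMer X = g ^ m) →
    ∃ X : KMod.ModField ℂ N, X ∈ KMod.anField ℂ N ∧ toMer X = g

namespace TdmDictC

variable {N : ℕ} [NeZero N] (D : TdmDictC N)

/-- every element of the analytic model comes from the function field -/
theorem exists_fn_eq {X : KMod.ModField ℂ N} (hX : X ∈ KMod.anField ℂ N) :
    ∃ z : ↥(KMod.barField ℂ N), D.toTdmDict.fn z = D.toMer X := by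
  refine ⟨(KMod.modIso ℂ N).symm ⟨X, hX⟩, ?_⟩
  rw [TdmDict.fn_apply, TdmDict.md, AlgEquiv.apply_symm_apply]

/-- **the kernel of `Ψ` over `ℂ` consists of the `m`-th powers** -/
theorem psi_ker {m : ℕ} (hm : m ≠ 0) (y : tWsub ℂ N m) (h : D.toTdmDict.psi hm y = 1) :
    y ∈ tdmPowSub ℂ N m := by
  obtain ⟨g, hg, hinv⟩ := (D.toTdmDict.psi_eq_one_iff hm y).mp h
  obtain ⟨X, hX, hXg⟩ := D.root_mem g m hm hinv
    ⟨TdmDict.md ((y : (↥(KMod.barField ℂ N))ˣ) : ↥(KMod.barField ℂ N)), SetLike.coe_mem _,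
      hg.symm⟩
  obtain ⟨z, hz⟩ := D.exists_fn_eq hX
  have hzy : z ^ m = ((y : (↥(KMod.barField ℂ N))ˣ) : ↥(KMod.barField ℂ N)) := by
    apply D.toTdmDict.fn_injective
    rw [map_pow, hz, hXg, hg]
  have hz0 : z ≠ 0 := by
    rintro rfl
    rw [zero_pow hm] at hzy
    exact (y : (↥(KMod.barField ℂ N))ˣ).ne_zero hzy.symm
  rw [mem_tdmPowSub]
  refine ⟨Units.mk0 z hz0, ?_⟩
  apply Units.ext
  rw [Units.val_pow_eq_pow_val, Units.val_mk0]
  exact hzy

theorem psi_ker_eq {m : ℕ} (hm : m ≠ 0) : (D.toTdmDict.psi hm).ker = tdmPowSub ℂ N m := by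
  ext y
  rw [MonoidHom.mem_ker]
  constructor
  · exact D.psi_ker hm y
  · intro h
    obtain ⟨t, ht⟩ := mem_tdmPowSub.mp h
    exact D.toTdmDict.psi_pow hm y t ht.symm

/-- **`Ψ` over `ℂ` is surjective** -/
theorem psi_surjective {m : ℕ} (hm : m ≠ 0) : Function.Surjective (D.toTdmDict.psi hm) := by
  rintro ⟨χ, hχ⟩
  have hB : tdmEisPow hm (one_mem (tdmX N m)) ≠ 0 := by
    intro h
    have h1 : (tdmEisPow hm (one_mem (tdmX N m)) : ℍ → ℂ) = 0 := by
      rw [h]; rfl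
    rw [coe_tdmEisPow] at h1
    exact tdmEis_ne_zero hm (one_mem (tdmX N m)) (pow_eq_zero_iff hm |>.mp h1)
  obtain ⟨X, hX, hXe⟩ := D.automorphic _ (tdmEisPow hm hχ) (tdmEisPow hm (one_mem (tdmX N m))) hB
  rw [← tdmEisRatio_pow hm hχ] at hXe
  obtain ⟨z, hz⟩ := D.exists_fn_eq hX
  have hz0 : z ≠ 0 := by
    rintro rfl
    rw [map_zero, hXe] at hz
    exact pow_ne_zero m (tdmEisRatio_ne_zero hm hχ) hz.symm
  have hfn : tdmEisRatio hm hχ ^ m
      = D.toTdmDict.fn ((Units.mk0 z hz0 : (↥(KMod.barField ℂ N))ˣ) : ↥(KMod.barField ℂ N)) := by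
    rw [Units.val_mk0, hz, hXe]
  have hmem : Units.mk0 z hz0 ∈ tWsub ℂ N m :=
    D.toTdmDict.mem_of_char hm _ hfn (tdmEisRatio_hasChar hm hχ) hχ
  refine ⟨⟨Units.mk0 z hz0, hmem⟩, ?_⟩
  apply Subtype.ext
  exact D.toTdmDict.psiChar_eq hm ⟨_, hmem⟩ hfn (tdmEisRatio_hasChar hm hχ)

/-- **the monodromy isomorphism over `ℂ`** -/
noncomputable def psiEquiv {m : ℕ} (hm : m ≠ 0) : tWsub ℂ N m ⧸ tdmPowSub ℂ N m ≃* tdmX N m :=
  (QuotientGroup.quotientMulEquivOfEq (D.psi_ker_eq hm).symm).trans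
    (QuotientGroup.quotientKerEquivOfSurjective _ (D.psi_surjective hm))

include D in
theorem finite_quotient {m : ℕ} [NeZero m] : Finite (tWsub ℂ N m ⧸ tdmPowSub ℂ N m) :=
  Finite.of_equiv _ (D.psiEquiv (NeZero.ne m)).symm.toEquiv

end TdmDictC

end Fermat.Agent.T1
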