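/-
T1-D (WP-Ψ): descent of the monodromy isomorphism from `ℂ` to `ℚ̄`.
-/
import Mathlib
import Fermat.Agent.Lib.T1.Mono.PsiC

set_option autoImplicit false
set_option linter.unusedSectionVars false

namespace Fermat.Agent.T1

open Complex Set Filter Topology Matrix MatrixGroups CongruenceSubgroup ModularCurve
open UpperHalfPlane hiding I
open scoped Manifold Real
open Fermat.Agent.S24Lib (holH)
open Fermat.Agent.S24Lib

local notation "Kbar" => AlgebraicClosure ℚ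

/-- **descent data** between the function fields of `X₀(N)` over `ℚ̄` and over `ℂ` -/
structure TdmDescent (N : ℕ) [NeZero N] (DK : TdmDict Kbar N) (DC : TdmDictC N) where
  /-- base change of coefficients -/
  bc : ↥(KMod.barField Kbar N) →+* ↥(KMod.barField ℂ N)
  fn_bc : ∀ y, DC.toTdmDict.fn (bc y) = DK.fn y
  /-- injectivity modulo `m`-th powers -/
  pow_desc : ∀ (m : ℕ), m ≠ 0 → ∀ y : ↥(KMod.barField Kbar N),
    (∃ z : ↥(KMod.barField ℂ N), bc y = z ^ m) → ∃ t : ↥(KMod.barField Kbar N), y = t ^ m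
  /-- surjectivity modulo `m`-th powers -/
  surj : ∀ (m : ℕ), m ≠ 0 → Finite (tWsub ℂ N m ⧸ tdmPowSub ℂ N m) →
    ∀ z : (↥(KMod.barField ℂ N))ˣ, z ∈ tWsub ℂ N m →
      ∃ (y : ↥(KMod.barField Kbar N)) (t : ↥(KMod.barField ℂ N)), t ≠ 0 ∧ bc y = z * t ^ m

namespace TdmDescent

variable {N : ℕ} [NeZero N] {DK : TdmDict Kbar N} {DC : TdmDictC N} (E : TdmDescent N DK DC)

/-- base change on units -/
noncomputable def bcU : (↥(KMod.barField Kbar N))ˣ →* (↥(KMod.barField ℂ N))ˣ :=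
  Units.map (E.bc : ↥(KMod.barField Kbar N) →* ↥(KMod.barField ℂ N))

theorem bcU_coe (y : (↥(KMod.barField Kbar N))ˣ) :
    ((E.bcU y : (↥(KMod.barField ℂ N))ˣ) : ↥(KMod.barField ℂ N))
      = E.bc (y : ↥(KMod.barField Kbar N)) := rfl

theorem fn_bcU (y : (↥(KMod.barField Kbar N))ˣ) :
    DC.toTdmDict.fn ((E.bcU y : (↥(KMod.barField ℂ N))ˣ) : ↥(KMod.barField ℂ N))
      = DK.fn (y : ↥(KMod.barField Kbar N)) := by
  rw [bcU_coe, E.fn_bc]

/-- base change preserves and reflects the Kummer groups -/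
theorem mem_iff {m : ℕ} (hm : m ≠ 0) (y : (↥(KMod.barField Kbar N))ˣ) :
    y ∈ tWsub Kbar N m ↔ E.bcU y ∈ tWsub ℂ N m := by
  constructor
  · intro hy
    obtain ⟨g, hg⟩ := DK.exists_root hm hy
    have h1 := DK.psiChar_spec hm ⟨y, hy⟩ hg
    have h2 := DK.psiChar_mem hm ⟨y, hy⟩
    exact DC.toTdmDict.mem_of_char hm _ (hg.trans (E.fn_bcU y).symm) h1 h2
  · intro hy
    obtain ⟨g, hg⟩ := DC.toTdmDict.exists_root hm hy
    have h1 := DC.toTdmDict.psiChar_spec hm ⟨_, hy⟩ hg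
    have h2 := DC.toTdmDict.psiChar_mem hm ⟨_, hy⟩
    exact DK.mem_of_char hm _ (hg.trans (E.fn_bcU y)) h1 h2

/-- `Ψ` commutes with base change -/
theorem psi_bc {m : ℕ} (hm : m ≠ 0) (y : tWsub Kbar N m) :
    DC.toTdmDict.psi hm ⟨E.bcU y.1, (E.mem_iff hm y.1).mp y.2⟩ = DK.psi hm y := by
  obtain ⟨g, hg⟩ := DK.exists_root hm y.2
  apply Subtype.ext
  rw [TdmDict.psi_coe, TdmDict.psi_coe]
  apply DC.toTdmDict.psiChar_eq hm _ (g := g)
  · exact hg.trans (E.fn_bcU y.1).symm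
  · exact DK.psiChar_spec hm y hg

include E in
/-- **the kernel of `Ψ` over `ℚ̄` consists of the `m`-th powers** -/
theorem psi_ker {m : ℕ} (hm : m ≠ 0) (y : tWsub Kbar N m) (h : DK.psi hm y = 1) :
    y ∈ tdmPowSub Kbar N m := by
  have h1 : DC.toTdmDict.psi hm ⟨E.bcU y.1, (E.mem_iff hm y.1).mp y.2⟩ = 1 := by
    rw [E.psi_bc hm y, h]
  obtain ⟨z, hz⟩ := mem_tdmPowSub.mp (DC.psi_ker hm _ h1)
  obtain ⟨t, ht⟩ := E.pow_desc m hm ((y : (↥(KMod.barField Kbar N))ˣ) : ↥(KMod.barField Kbar N))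
    ⟨(z : ↥(KMod.barField ℂ N)), by
      have := congrArg (fun u : (↥(KMod.barField ℂ N))ˣ => (u : ↥(KMod.barField ℂ N))) hz
      simp only [Units.val_pow_eq_pow_val] at this
      rw [this]
      rfl⟩
  have ht0 : t ≠ 0 := by
    rintro rfl
    rw [zero_pow hm] at ht
    exact (y : (↥(KMod.barField Kbar N))ˣ).ne_zero ht
  rw [mem_tdmPowSub]
  refine ⟨Units.mk0 t ht0, ?_⟩
  apply Units.ext
  rw [Units.val_pow_eq_pow_val, Units.val_mk0]
  exact ht.symm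

include E in
theorem psi_ker_eq {m : ℕ} (hm : m ≠ 0) : (DK.psi hm).ker = tdmPowSub Kbar N m := by
  ext y
  rw [MonoidHom.mem_ker]
  constructor
  · exact E.psi_ker hm y
  · intro h
    obtain ⟨t, ht⟩ := mem_tdmPowSub.mp h
    exact DK.psi_pow hm y t ht.symm

include E in
/-- **`Ψ` over `ℚ̄` is surjective** -/
theorem psi_surjective {m : ℕ} (hm : m ≠ 0) : Function.Surjective (DK.psi hm) := by
  intro χ
  have : NeZero m := ⟨hm⟩
  obtain ⟨z, hz⟩ := DC.psi_surjective hm χ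
  obtain ⟨y, t, ht0, hyt⟩ := E.surj m hm DC.finite_quotient z.1 z.2
  have hy0 : y ≠ 0 := by
    rintro rfl
    rw [map_zero] at hyt
    have h1 : ((z : (↥(KMod.barField ℂ N))ˣ) : ↥(KMod.barField ℂ N)) ≠ 0 := Units.ne_zero _
    exact mul_ne_zero h1 (pow_ne_zero m ht0) hyt.symm
  have hbc : E.bcU (Units.mk0 y hy0) = (z : (↥(KMod.barField ℂ N))ˣ) * (Units.mk0 t ht0) ^ m := by
    apply Units.ext
    rw [bcU_coe, Units.val_mk0, hyt, Units.val_mul, Units.val_pow_eq_pow_val, Units.val_mk0]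
  have hpow : (Units.mk0 t ht0) ^ m ∈ tWsub ℂ N m := by
    intro P
    rw [Units.val_pow_eq_pow_val, ← zpow_natCast, AlgebraicCurve.Place.ord_zpow]
    exact dvd_mul_right _ _
  have hmemC : E.bcU (Units.mk0 y hy0) ∈ tWsub ℂ N m := by
    rw [hbc]
    exact (tWsub ℂ N m).mul_mem z.2 hpow
  have hmem : Units.mk0 y hy0 ∈ tWsub Kbar N m := (E.mem_iff hm _).mpr hmemC
  refine ⟨⟨Units.mk0 y hy0, hmem⟩, ?_⟩
  rw [← E.psi_bc hm ⟨_, hmem⟩, ← hz]
  have h2 : (⟨E.bcU (Units.mk0 y hy0), hmemC⟩ : tWsub ℂ N m) = z * ⟨(Units.mk0 t ht0) ^ m, hpow⟩ :=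
    Subtype.ext hbc
  rw [h2, map_mul, DC.toTdmDict.psi_pow hm ⟨(Units.mk0 t ht0) ^ m, hpow⟩ (Units.mk0 t ht0) rfl,
    mul_one]

/-- **the monodromy isomorphism over `ℚ̄`** -/
noncomputable def psiEquiv {m : ℕ} (hm : m ≠ 0) :
    tWsub Kbar N m ⧸ tdmPowSub Kbar N m ≃* tdmX N m :=
  (QuotientGroup.quotientMulEquivOfEq (E.psi_ker_eq hm).symm).trans
    (QuotientGroup.quotientKerEquivOfSurjective _ (E.psi_surjective hm))

theorem psiEquiv_mk {m : ℕ} (hm : m ≠ 0) (y : tWsub Kbar N m) :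
    E.psiEquiv hm (QuotientGroup.mk y) = DK.psi hm y := rfl

end TdmDescent

end Fermat.Agent.T1
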