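/-
T1-D (WP-Z, part 1): the Galois action on the character groups `X_m`, transported from the Kummer
groups `tWsub ℚ̄ N m` through the monodromy isomorphism.
-/
import Mathlib
import Fermat.Agent.Lib.T1.Mono.PsiK
import Fermat.Agent.Lib.T1.Mono.HeckeFun
import Fermat.Agent.Lib.T1.Kron.Assembly

set_option autoImplicit false
set_option linter.unusedSectionVars false

namespace Fermat.Agent.T1

open Complex Set Filter Topology Matrix MatrixGroups CongruenceSubgroup ModularCurve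
open UpperHalfPlane hiding I
open Fermat.Agent.S24Lib

local notation "Kbar" => AlgebraicClosure ℚ
local notation "GQ" => (AlgebraicClosure ℚ ≃ₐ[ℚ] AlgebraicClosure ℚ)

/-! ### Divisibility of the exponent -/

section Generic

variable {𝕜 : Type} [Field 𝕜] [IsAlgClosed 𝕜] [Algebra 𝕜 ℂ] [Algebra ℚ 𝕜] {N : ℕ} [NeZero N]
  (D : TdmDict 𝕜 N)

theorem tdm_tWsub_le_of_eq_mul {m M d : ℕ} (hd : M = m * d) : tWsub 𝕜 N M ≤ tWsub 𝕜 N m := by
  intro y hy P
  have := hy P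
  exact Dvd.dvd.trans ⟨(d : ℤ), by rw [hd]; push_cast; ring⟩ this

/-- `Ψ_m y = (Ψ_M y) ^ d` for `M = m d` -/
theorem TdmDict.psi_of_eq_mul {m M d : ℕ} (hm : m ≠ 0) (hM : M ≠ 0) (hd : M = m * d)
    (y : tWsub 𝕜 N M) :
    ((D.psi hm ⟨y.1, tdm_tWsub_le_of_eq_mul hd y.2⟩ : tdmX N m) : Gamma0 N →* ℂˣ)
      = ((D.psi hM y : tdmX N M) : Gamma0 N →* ℂˣ) ^ d := by
  obtain ⟨g, hg⟩ := D.exists_root hM y.2
  rw [D.psi_coe, D.psi_coe]
  apply D.psiChar_eq hm ⟨y.1, tdm_tWsub_le_of_eq_mul hd y.2⟩ (g := g ^ d)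
  · rw [← pow_mul, mul_comm, ← hd]
    exact hg
  · exact tdmHasChar_npow (D.psiChar_spec hM y hg) d

end Generic

/-! ### The Galois action on `tWsub ℚ̄ N m` -/

theorem tkrSig_mul (N : ℕ) (σ τ : GQ) (y : (↥(modularFunctionFieldBar N))ˣ) :
    tkrSig N (σ * τ) y = tkrSig N σ (tkrSig N τ y) := by
  apply Units.ext
  apply Subtype.ext
  rw [tkrSig_coe, tkrSig_coe, tkrSig_coe, coeffMap_coeffMap]
  exact coeffMap_congr (RingHom.ext fun _ => rfl) _

theorem tkrSig_one (N : ℕ) (y : (↥(modularFunctionFieldBar N))ˣ) : tkrSig N 1 y = y := by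
  apply Units.ext
  apply Subtype.ext
  rw [tkrSig_coe]
  rw [show ((1 : GQ) : Kbar →+* Kbar) = RingHom.id Kbar from RingHom.ext fun _ => rfl,
    coeffMap_id]

/-- the Galois action restricted to the Kummer group -/
noncomputable def tdmSigW (N m : ℕ) (σ : GQ) : tWsub Kbar N m →* tWsub Kbar N m :=
  ((tkrSig N σ).comp (tWsub Kbar N m).subtype).codRestrict (tWsub Kbar N m)
    (fun y => tkrSig_mem_tWsub N m σ y.2)

theorem tdmSigW_coe (N m : ℕ) (σ : GQ) (y : tWsub Kbar N m) :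
    ((tdmSigW N m σ y : tWsub Kbar N m) : (↥(modularFunctionFieldBar N))ˣ) = tkrSig N σ y.1 := rfl

section Gal

variable {N : ℕ} [NeZero N] {DK : TdmDict Kbar N} {DC : TdmDictC N} (E : TdmDescent N DK DC)

include E in
theorem TdmDescent.ker_le {m : ℕ} (hm : m ≠ 0) (σ : GQ) :
    (DK.psi hm).ker ≤ ((DK.psi hm).comp (tdmSigW N m σ)).ker := by
  intro y hy
  rw [E.psi_ker_eq hm] at hy
  obtain ⟨t, ht⟩ := mem_tdmPowSub.mp hy
  rw [MonoidHom.mem_ker, MonoidHom.comp_apply]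
  apply DK.psi_pow hm _ (tkrSig N σ t)
  rw [tdmSigW_coe, ← ht, map_pow]

/-- **the Galois action on `X_m`** -/
noncomputable def TdmDescent.galX {m : ℕ} (hm : m ≠ 0) (σ : GQ) : tdmX N m →* tdmX N m :=
  (DK.psi hm).liftOfSurjective (E.psi_surjective hm)
    ⟨(DK.psi hm).comp (tdmSigW N m σ), E.ker_le hm σ⟩

theorem TdmDescent.galX_psi {m : ℕ} (hm : m ≠ 0) (σ : GQ) (y : tWsub Kbar N m) :
    E.galX hm σ (DK.psi hm y) = DK.psi hm (tdmSigW N m σ y) :=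
  MonoidHom.liftOfRightInverse_comp_apply _ _ _ _ y

theorem TdmDescent.galX_mul {m : ℕ} (hm : m ≠ 0) (σ τ : GQ) (χ : tdmX N m) :
    E.galX hm (σ * τ) χ = E.galX hm σ (E.galX hm τ χ) := by
  obtain ⟨y, rfl⟩ := E.psi_surjective hm χ
  rw [E.galX_psi, E.galX_psi, E.galX_psi]
  have h : tdmSigW N m (σ * τ) y = tdmSigW N m σ (tdmSigW N m τ y) :=
    Subtype.ext (tkrSig_mul N σ τ y.1)
  rw [h]

theorem TdmDescent.galX_one {m : ℕ} (hm : m ≠ 0) (χ : tdmX N m) : E.galX hm 1 χ = χ := by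
  obtain ⟨y, rfl⟩ := E.psi_surjective hm χ
  rw [E.galX_psi]
  have h : tdmSigW N m 1 y = y := Subtype.ext (tkrSig_one N y.1)
  rw [h]

/-- compatibility with the transition maps `χ ↦ χ ^ d` -/
theorem TdmDescent.galX_pow {m M d : ℕ} (hm : m ≠ 0) (hM : M ≠ 0) (hd : M = m * d) (σ : GQ)
    (χ : tdmX N M) (χ' : tdmX N m)
    (h : (χ' : Gamma0 N →* ℂˣ) = (χ : Gamma0 N →* ℂˣ) ^ d) :
    ((E.galX hm σ χ' : tdmX N m) : Gamma0 N →* ℂˣ)
      = ((E.galX hM σ χ : tdmX N M) : Gamma0 N →* ℂˣ) ^ d := by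
  obtain ⟨y, rfl⟩ := E.psi_surjective hM χ
  have h1 : χ' = DK.psi hm ⟨y.1, tdm_tWsub_le_of_eq_mul hd y.2⟩ := by
    apply Subtype.ext
    rw [h, DK.psi_of_eq_mul hm hM hd y]
  rw [h1, E.galX_psi, E.galX_psi, ← DK.psi_of_eq_mul hm hM hd (tdmSigW N M σ y)]
  rfl

end Gal

end Fermat.Agent.T1
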