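/-
T1-D WP-P: the period map intertwines the Hecke operators `T_r`, `U_r` on weight two cusp forms
with the abstract Hecke operators of the coset systems `tdmSysT`, `tdmSysU` on `Hom(Γ₀(N), ℂ)`.
-/
import Mathlib
import Fermat.Prelude.Def_ModularCurve_PeriodHomPair
import Fermat.Prelude.Def_ModularForm_HeckeOperatorForms
import Fermat.Agent.Lib.ES.PeriodMap
import Fermat.Agent.Lib.T1.Mono.Coset

set_option autoImplicit false

namespace Fermat.Agent.T1

open UpperHalfPlane hiding I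
open Complex Filter Function CongruenceSubgroup Matrix
open scoped Manifold Topology Real ModularForm MatrixGroups
open Fermat.Agent.S22Lib Fermat.Agent.ES ModularCurve ModularCurve.Period

noncomputable section

/-! ### The action of integral matrices on the upper half plane -/

/-- the action of an integral matrix of positive determinant on `ℍ` -/
def tdmAct (A : Matrix (Fin 2) (Fin 2) ℤ) (hA : 0 < A.det) (τ : ℍ) : ℍ := intGL A hA • τ

theorem tdmAct_congr {A B : Matrix (Fin 2) (Fin 2) ℤ} (h : A = B) (hA : 0 < A.det)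
    (hB : 0 < B.det) (τ : ℍ) : tdmAct A hA τ = tdmAct B hB τ := by
  subst h; rfl

theorem tdm_det_mul_SL_pos {A : Matrix (Fin 2) (Fin 2) ℤ} (hA : 0 < A.det) (δ : SL(2, ℤ)) :
    0 < (A * (δ : Matrix (Fin 2) (Fin 2) ℤ)).det := by
  rw [Matrix.det_mul, δ.2, mul_one]; exact hA

theorem tdm_det_SL_mul_pos {A : Matrix (Fin 2) (Fin 2) ℤ} (hA : 0 < A.det) (δ : SL(2, ℤ)) :
    0 < ((δ : Matrix (Fin 2) (Fin 2) ℤ) * A).det := by
  rw [Matrix.det_mul, δ.2, one_mul]; exact hA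

theorem tdm_SL_det_pos (δ : SL(2, ℤ)) : 0 < (δ : Matrix (Fin 2) (Fin 2) ℤ).det := by
  rw [δ.2]; exact one_pos

theorem tdmAct_mul_SL (A : Matrix (Fin 2) (Fin 2) ℤ) (hA : 0 < A.det) (δ : SL(2, ℤ)) (τ : ℍ) :
    tdmAct (A * (δ : Matrix (Fin 2) (Fin 2) ℤ)) (tdm_det_mul_SL_pos hA δ) τ
      = tdmAct A hA (δ • τ) := by
  rw [tdmAct, tdmAct, intGL_mul A _ hA (tdm_SL_det_pos δ), intGL_coe_SL, mul_smul]
  rfl

theorem tdmAct_SL_mul (A : Matrix (Fin 2) (Fin 2) ℤ) (hA : 0 < A.det) (ε : SL(2, ℤ)) (τ : ℍ) :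
    tdmAct ((ε : Matrix (Fin 2) (Fin 2) ℤ) * A) (tdm_det_SL_mul_pos hA ε) τ
      = ε • tdmAct A hA τ := by
  rw [tdmAct, tdmAct, intGL_mul _ A (tdm_SL_det_pos ε) hA, intGL_coe_SL, mul_smul]
  rfl

/-- the coset relation on the upper half plane -/
theorem tdmCosetSys.act_smul {Γ : Subgroup SL(2, ℤ)} {ι : Type} [Fintype ι] (S : tdmCosetSys Γ ι)
    (δ : Γ) (i : ι) (τ : ℍ) :
    tdmAct (S.rep i) (S.det_pos i) ((δ : SL(2, ℤ)) • τ)
      = (S.eps δ i : SL(2, ℤ)) • tdmAct (S.rep (S.sigma δ i)) (S.det_pos _) τ := by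
  rw [← tdmAct_mul_SL, ← tdmAct_SL_mul]
  exact tdmAct_congr (S.rep_mul δ i) _ _ τ

/-! ### The general comparison -/

variable {N : ℕ} [NeZero N]

/-- if the primitive of `g` is the sum of the translates of the primitive of `f` under a coset
system, then the period homomorphism of `g` is the abstract Hecke operator applied to that of `f` -/
theorem tdm_periodMap_of_prim {ι : Type} [Fintype ι] (S : tdmCosetSys (Gamma0 N) ι)
    (f g : CuspForm (Gamma0 N) 2)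
    (hprim : ∀ τ : ℍ, prim ⇑g τ = ∑ i, prim ⇑f (tdmAct (S.rep i) (S.det_pos i) τ)) :
    periodMap N g = S.hom ℂ (periodMap N f) := by
  refine AddMonoidHom.ext fun δ' => ?_
  obtain ⟨δ, rfl⟩ : ∃ δ : Gamma0 N, Additive.ofMul δ = δ' := ⟨Additive.toMul δ', rfl⟩
  rw [periodMap_apply N g δ UpperHalfPlane.I, hprim, hprim, S.hom_apply, ← Finset.sum_sub_distrib]
  have h1 : ∀ i, prim ⇑f (tdmAct (S.rep i) (S.det_pos i) ((δ : SL(2, ℤ)) • UpperHalfPlane.I))
      - prim ⇑f (tdmAct (S.rep i) (S.det_pos i) UpperHalfPlane.I)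
      = periodMap N f (Additive.ofMul (S.eps δ i))
        + (prim ⇑f (tdmAct (S.rep (S.sigma δ i)) (S.det_pos _) UpperHalfPlane.I)
          - prim ⇑f (tdmAct (S.rep i) (S.det_pos i) UpperHalfPlane.I)) := by
    intro i
    rw [S.act_smul, periodMap_apply N f (S.eps δ i)
      (tdmAct (S.rep (S.sigma δ i)) (S.det_pos _) UpperHalfPlane.I)]
    ring
  rw [Finset.sum_congr rfl fun i _ => h1 i, Finset.sum_add_distrib, Finset.sum_sub_distrib,
    Equiv.sum_comp (S.sigma δ)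
      (fun i => prim ⇑f (tdmAct (S.rep i) (S.det_pos i) UpperHalfPlane.I)),
    sub_self, add_zero]

/-! ### Upper triangular matrices -/

theorem tdmAct_upper_coe (a b d : ℤ) (hA : 0 < (!![a, b; 0, d] : Matrix (Fin 2) (Fin 2) ℤ).det)
    (τ : ℍ) : ((tdmAct !![a, b; 0, d] hA τ : ℍ) : ℂ) = ((a : ℂ) * τ + b) / d := by
  rw [tdmAct, UpperHalfPlane.coe_smul_of_det_pos (intGL_det_pos _ hA)]
  simp [UpperHalfPlane.num, UpperHalfPlane.denom, intGL_val]

theorem tdm_upper_pos {a b d : ℤ} (hA : 0 < (!![a, b; 0, d] : Matrix (Fin 2) (Fin 2) ℤ).det) :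
    0 < a * d := by
  simpa [Matrix.det_fin_two_of] using hA

theorem tdmAct_upper_im (a b d : ℤ) (hA : 0 < (!![a, b; 0, d] : Matrix (Fin 2) (Fin 2) ℤ).det)
    (τ : ℍ) : (tdmAct !![a, b; 0, d] hA τ).im = ((a : ℝ) / d) * τ.im := by
  have h := congrArg Complex.im (tdmAct_upper_coe a b d hA τ)
  rw [UpperHalfPlane.coe_im] at h
  rw [h]
  have hd : (d : ℝ) ≠ 0 := by
    have := tdm_upper_pos hA
    intro h0
    have : d = 0 := by exact_mod_cast h0
    simp [this] at *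
  have : (((a : ℂ) * τ + b) / d) = ((((a : ℝ) / d : ℝ) : ℂ) * τ + (((b : ℝ) / d : ℝ) : ℂ)) := by
    push_cast
    field_simp
  rw [this]
  simp

theorem tdm_upper_ratio_pos {a b d : ℤ}
    (hA : 0 < (!![a, b; 0, d] : Matrix (Fin 2) (Fin 2) ℤ).det) : 0 < (a : ℝ) / d := by
  have h := tdm_upper_pos hA
  have h' : (0 : ℝ) < a * d := by exact_mod_cast h
  rcases lt_trichotomy (d : ℝ) 0 with hd | hd | hd
  · have ha : (a : ℝ) < 0 := by nlinarith
    exact div_pos_of_neg_of_neg ha hd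
  · rw [hd, mul_zero] at h'; exact absurd h' (lt_irrefl _)
  · have ha : (0 : ℝ) < a := by nlinarith
    exact div_pos ha hd

theorem tdmAct_upper_tendsto (a b d : ℤ)
    (hA : 0 < (!![a, b; 0, d] : Matrix (Fin 2) (Fin 2) ℤ).det) :
    Tendsto (tdmAct !![a, b; 0, d] hA) atImInfty atImInfty := by
  rw [atImInfty, tendsto_comap_iff]
  have : (UpperHalfPlane.im ∘ tdmAct !![a, b; 0, d] hA) = fun τ : ℍ => ((a : ℝ) / d) * τ.im :=
    funext fun τ => tdmAct_upper_im a b d hA τ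
  rw [this]
  exact Tendsto.const_mul_atTop (tdm_upper_ratio_pos hA) tendsto_comap

/-- chain rule for precomposition with an upper triangular matrix -/
theorem tdm_hasDerivAt_comp_upper (a b d : ℤ)
    (hA : 0 < (!![a, b; 0, d] : Matrix (Fin 2) (Fin 2) ℤ).det) {F f : ℍ → ℂ}
    (hF : ∀ τ : ℍ, HasDerivAt (F ∘ ofComplex) (f τ) ↑τ) (τ : ℍ) :
    HasDerivAt ((fun w : ℍ => F (tdmAct !![a, b; 0, d] hA w)) ∘ ofComplex)
      (((a : ℂ) / d) * f (tdmAct !![a, b; 0, d] hA τ)) ↑τ := by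
  have hrat := tdm_upper_ratio_pos hA
  have hd : (d : ℂ) ≠ 0 := by
    have := tdm_upper_pos hA
    intro h0
    have : d = 0 := by exact_mod_cast h0
    simp [this] at *
  have haff : HasDerivAt (fun z : ℂ => ((a : ℂ) * z + b) / d) ((a : ℂ) / d) (τ : ℂ) := by
    have := ((hasDerivAt_id (τ : ℂ)).const_mul (a : ℂ)).add_const (b : ℂ)
    have h2 := this.div_const (d : ℂ)
    simpa using h2
  have hpt : ((a : ℂ) * τ + b) / d = ((tdmAct !![a, b; 0, d] hA τ : ℍ) : ℂ) :=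
    (tdmAct_upper_coe a b d hA τ).symm
  have h1 : HasDerivAt (F ∘ ofComplex) (f (tdmAct !![a, b; 0, d] hA τ))
      (((a : ℂ) * τ + b) / d) := by
    rw [hpt]; exact hF _
  have h2 := h1.comp (τ : ℂ) haff
  have hev : ((fun w : ℍ => F (tdmAct !![a, b; 0, d] hA w)) ∘ ofComplex)
      =ᶠ[𝓝 (τ : ℂ)] ((F ∘ ofComplex) ∘ fun z : ℂ => ((a : ℂ) * z + b) / d) := by
    have hopen : {z : ℂ | 0 < z.im} ∈ 𝓝 (τ : ℂ) :=
      (isOpen_lt continuous_const Complex.continuous_im).mem_nhds τ.im_pos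
    filter_upwards [hopen] with z hz
    simp only [Function.comp_apply]
    congr 1
    apply UpperHalfPlane.ext
    rw [tdmAct_upper_coe, ofComplex_apply_of_im_pos hz]
    have him : 0 < (((a : ℂ) * z + b) / d).im := by
      have := (tdmAct !![a, b; 0, d] hA ⟨z, hz⟩).im_pos
      rw [← UpperHalfPlane.coe_im, tdmAct_upper_coe] at this
      exact this
    rw [ofComplex_apply_of_im_pos him]
  refine (h2.congr_of_eventuallyEq hev).congr_deriv ?_
  ring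

/-! ### Comparison with the Hecke matrices of the Prelude -/

theorem tdm_aff_det_pos {r : ℕ} (hr0 : r ≠ 0) (j : ℤ) :
    0 < (!![1, j; 0, (r : ℤ)] : Matrix (Fin 2) (Fin 2) ℤ).det := by
  rw [Matrix.det_fin_two_of]
  have : (0 : ℤ) < r := by exact_mod_cast Nat.pos_of_ne_zero hr0
  linarith

theorem tdm_diag_det_pos {r : ℕ} (hr0 : r ≠ 0) :
    0 < (!![(r : ℤ), 0; 0, 1] : Matrix (Fin 2) (Fin 2) ℤ).det := by
  rw [Matrix.det_fin_two_of]
  have : (0 : ℤ) < r := by exact_mod_cast Nat.pos_of_ne_zero hr0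
  linarith

theorem tdmAct_aff_eq {r : ℕ} (hr0 : r ≠ 0) (j : ℕ) (τ : ℍ) :
    tdmAct !![1, (j : ℤ); 0, (r : ℤ)] (tdm_aff_det_pos hr0 j) τ = ModularForm.heckeMatrix r j • τ := by
  apply UpperHalfPlane.ext
  rw [tdmAct_upper_coe, ModularForm.coe_heckeMatrix_smul hr0]
  push_cast
  ring

theorem tdmAct_diag_eq {r : ℕ} (hr0 : r ≠ 0) (τ : ℍ) :
    tdmAct !![(r : ℤ), 0; 0, 1] (tdm_diag_det_pos hr0) τ = ModularForm.heckeDiagMatrix r • τ := by
  apply UpperHalfPlane.ext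
  rw [tdmAct_upper_coe, ModularForm.coe_heckeDiagMatrix_smul hr0]
  push_cast
  ring


/-- the primitive of `U_r f`-type sums: derivative -/
theorem tdm_hasDerivAt_sum_aff {r : ℕ} (hr0 : r ≠ 0) (f : CuspForm (Gamma0 N) 2) (τ : ℍ) :
    HasDerivAt ((fun w : ℍ => ∑ b : Fin r,
        prim ⇑f (tdmAct !![1, ((b : ℕ) : ℤ); 0, (r : ℤ)] (tdm_aff_det_pos hr0 _) w)) ∘ ofComplex)
      (ModularForm.heckeU 2 r ⇑f τ) ↑τ := by
  have hf := isCuspidalAll_two N f
  have h : ∀ b : Fin r, HasDerivAt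
      ((fun w : ℍ => prim ⇑f (tdmAct !![1, ((b : ℕ) : ℤ); 0, (r : ℤ)] (tdm_aff_det_pos hr0 _) w))
        ∘ ofComplex)
      ((((1 : ℤ) : ℂ) / ((r : ℤ) : ℂ)) * f (ModularForm.heckeMatrix r b • τ)) ↑τ := by
    intro b
    have := tdm_hasDerivAt_comp_upper 1 ((b : ℕ) : ℤ) (r : ℤ) (tdm_aff_det_pos hr0 _)
      (hasDerivAt_prim hf) τ
    rwa [tdmAct_aff_eq hr0] at this
  have hsum := HasDerivAt.sum (u := Finset.univ) fun b _ => h b
  have e1 : (∑ b : Fin r, (fun w : ℍ => prim ⇑f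
      (tdmAct !![1, ((b : ℕ) : ℤ); 0, (r : ℤ)] (tdm_aff_det_pos hr0 _) w)) ∘ ofComplex)
      = ((fun w : ℍ => ∑ b : Fin r,
        prim ⇑f (tdmAct !![1, ((b : ℕ) : ℤ); 0, (r : ℤ)] (tdm_aff_det_pos hr0 _) w)) ∘ ofComplex) := by
    funext z
    simp [Finset.sum_apply]
  rw [e1] at hsum
  refine hsum.congr_deriv ?_
  rw [ModularForm.heckeU_apply 2 hr0, ← Fin.sum_univ_eq_sum_range (fun j => f (ModularForm.heckeMatrix r j • τ)),
    Finset.mul_sum]
  refine Finset.sum_congr rfl fun b _ => ?_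
  push_cast
  rw [one_div]

theorem tdm_tendsto_sum_aff {r : ℕ} (hr0 : r ≠ 0) (f : CuspForm (Gamma0 N) 2) :
    Tendsto (fun w : ℍ => ∑ b : Fin r,
        prim ⇑f (tdmAct !![1, ((b : ℕ) : ℤ); 0, (r : ℤ)] (tdm_aff_det_pos hr0 _) w))
      atImInfty (𝓝 0) := by
  have hf := isCuspidalAll_two N f
  have : Tendsto (fun w : ℍ => ∑ b : Fin r,
        prim ⇑f (tdmAct !![1, ((b : ℕ) : ℤ); 0, (r : ℤ)] (tdm_aff_det_pos hr0 _) w))
      atImInfty (𝓝 (∑ _b : Fin r, (0 : ℂ))) :=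
    tendsto_finsetSum _ fun b _ =>
      (tendsto_prim_atImInfty hf).comp (tdmAct_upper_tendsto 1 _ _ (tdm_aff_det_pos hr0 _))
  simpa using this

theorem tdm_hasDerivAt_diag {r : ℕ} (hr0 : r ≠ 0) (f : CuspForm (Gamma0 N) 2) (τ : ℍ) :
    HasDerivAt ((fun w : ℍ => prim ⇑f (tdmAct !![(r : ℤ), 0; 0, 1] (tdm_diag_det_pos hr0) w))
        ∘ ofComplex)
      ((⇑f ∣[(2 : ℤ)] ModularForm.heckeDiagMatrix r) τ) ↑τ := by
  have hf := isCuspidalAll_two N f
  have := tdm_hasDerivAt_comp_upper (r : ℤ) 0 1 (tdm_diag_det_pos hr0) (hasDerivAt_prim hf) τ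
  rw [tdmAct_diag_eq hr0] at this
  refine this.congr_deriv ?_
  rw [ModularForm.slash_heckeDiagMatrix_apply 2 hr0]
  norm_num

/-- the primitive of `U_r f` -/
theorem tdm_prim_heckeU {r : ℕ} (hrN : r ∣ N) (hr0 : r ≠ 0) (f : CuspForm (Gamma0 N) 2) (τ : ℍ) :
    prim ⇑(CuspForm.heckeULin 2 hrN f) τ
      = ∑ b : Fin r, prim ⇑f (tdmAct !![1, ((b : ℕ) : ℤ); 0, (r : ℤ)] (tdm_aff_det_pos hr0 _) τ) := by
  have h := eq_prim_of_hasDerivAt (isCuspidalAll_two N (CuspForm.heckeULin 2 hrN f))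
    (F := fun w : ℍ => ∑ b : Fin r,
        prim ⇑f (tdmAct !![1, ((b : ℕ) : ℤ); 0, (r : ℤ)] (tdm_aff_det_pos hr0 _) w))
    (fun τ => tdm_hasDerivAt_sum_aff hr0 f τ) (tdm_tendsto_sum_aff hr0 f)
  exact (congrFun h τ).symm

/-- the primitive of `T_r f` -/
theorem tdm_prim_heckeT {r : ℕ} (hr : r.Prime) (hrN : ¬ r ∣ N) (f : CuspForm (Gamma0 N) 2) (τ : ℍ) :
    prim ⇑(CuspForm.heckeTLin 2 hr hrN f) τ
      = (∑ b : Fin r, prim ⇑f (tdmAct !![1, ((b : ℕ) : ℤ); 0, (r : ℤ)]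
          (tdm_aff_det_pos hr.ne_zero _) τ))
        + prim ⇑f (tdmAct !![(r : ℤ), 0; 0, 1] (tdm_diag_det_pos hr.ne_zero) τ) := by
  have hf := isCuspidalAll_two N f
  have hr0 := hr.ne_zero
  have h := eq_prim_of_hasDerivAt (isCuspidalAll_two N (CuspForm.heckeTLin 2 hr hrN f))
    (F := fun w : ℍ => (∑ b : Fin r,
        prim ⇑f (tdmAct !![1, ((b : ℕ) : ℤ); 0, (r : ℤ)] (tdm_aff_det_pos hr0 _) w))
        + prim ⇑f (tdmAct !![(r : ℤ), 0; 0, 1] (tdm_diag_det_pos hr0) w))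
    (fun τ => (tdm_hasDerivAt_sum_aff hr0 f τ).add (tdm_hasDerivAt_diag hr0 f τ))
    (by
      have := (tdm_tendsto_sum_aff hr0 f).add
        ((tendsto_prim_atImInfty hf).comp (tdmAct_upper_tendsto (r : ℤ) 0 1 (tdm_diag_det_pos hr0)))
      simpa using this)
  exact (congrFun h τ).symm

/-- **WP-P**: the period map intertwines `U_r` with the abstract Hecke operator of `tdmSysU` -/
theorem tdm_periodMap_heckeU {r : ℕ} (hrN : r ∣ N) (hr0 : r ≠ 0) (f : CuspForm (Gamma0 N) 2) :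
    periodMap N (CuspForm.heckeULin 2 hrN f) = (tdmSysU N r hrN hr0).hom ℂ (periodMap N f) := by
  refine tdm_periodMap_of_prim (tdmSysU N r hrN hr0) f _ fun τ => ?_
  rw [tdm_prim_heckeU hrN hr0]
  rfl

/-- **WP-P**: the period map intertwines `T_r` with the abstract Hecke operator of `tdmSysT` -/
theorem tdm_periodMap_heckeT {r : ℕ} (hr : r.Prime) (hrN : ¬ r ∣ N) (f : CuspForm (Gamma0 N) 2) :
    periodMap N (CuspForm.heckeTLin 2 hr hrN f) = (tdmSysT N r hr hrN).hom ℂ (periodMap N f) := by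
  refine tdm_periodMap_of_prim (tdmSysT N r hr hrN) f _ fun τ => ?_
  rw [tdm_prim_heckeT hr hrN, Fintype.sum_option, add_comm]
  rfl

end

end Fermat.Agent.T1
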