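/-
T1-D WP-P (c): the lattice `L = parabolicHoms ℤ Γ₀(N) ℤ`, its base change to torsion free rings,
the Hecke action `tdmHecke : 𝕋 →+* End_ℤ(L)` and the comparison with the period map.
-/
import Mathlib
import Fermat.Prelude.Def_ModularCurve_PeriodHomPair
import Fermat.Prelude.Def_CuspForm_HeckeAlgebra
import Fermat.Agent.Lib.ES.DimLower
import Fermat.Agent.Lib.T1.Mono.Limit
import Fermat.Agent.Lib.T1.Mono.Coset
import Fermat.Agent.Lib.T1.Mono.Period

set_option autoImplicit false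

namespace Fermat.Agent.T1

open Matrix MatrixGroups CongruenceSubgroup ModularCurve ModularCurve.Period
open scoped TensorProduct

noncomputable section

/-! ### Abstract construction of the Hecke action on a lattice -/

section Abstract

variable {V : Type*} [AddCommGroup V] [Module ℂ V] {L : Type*} [AddCommGroup L]
  (Φ : (V × V) ≃ₗ[ℂ] ℂ ⊗[ℤ] L)

/-- the endomorphism `s` of the lattice `L` induces `t × t` under `Φ : V × V ≃ ℂ ⊗ L` -/
def TdmLat (t : Module.End ℂ V) (s : Module.End ℤ L) : Prop :=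
  ∀ f h : V, s.baseChange ℂ (Φ (f, h)) = Φ (t f, t h)

variable {Φ}

theorem tdm_tmul_one_injective [Module.Free ℤ L] :
    Function.Injective fun l : L => (1 : ℂ) ⊗ₜ[ℤ] l := by
  intro l l' h
  let b := Module.Free.chooseBasis ℤ L
  apply b.repr.injective
  ext i
  have h1 := congrArg (fun x => (b.baseChange ℂ).repr x i) h
  simp only [Module.Basis.baseChange_repr_tmul] at h1
  have h2 : ((b.repr l i : ℤ) : ℂ) = ((b.repr l' i : ℤ) : ℂ) := by
    simpa [zsmul_eq_mul] using h1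
  exact_mod_cast h2

theorem TdmLat.unique [Module.Free ℤ L] {t : Module.End ℂ V} {s s' : Module.End ℤ L}
    (h : TdmLat Φ t s) (h' : TdmLat Φ t s') : s = s' := by
  refine LinearMap.ext fun l => ?_
  apply tdm_tmul_one_injective
  show (1 : ℂ) ⊗ₜ[ℤ] s l = (1 : ℂ) ⊗ₜ[ℤ] s' l
  obtain ⟨⟨f, g⟩, hfg⟩ := Φ.surjective ((1 : ℂ) ⊗ₜ[ℤ] l)
  rw [← LinearMap.baseChange_tmul, ← LinearMap.baseChange_tmul, ← hfg, h f g, h' f g]

theorem TdmLat.add {t t' : Module.End ℂ V} {s s' : Module.End ℤ L}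
    (h : TdmLat Φ t s) (h' : TdmLat Φ t' s') : TdmLat Φ (t + t') (s + s') := by
  intro f g
  rw [LinearMap.baseChange_add, LinearMap.add_apply, h f g, h' f g, ← map_add]
  rfl

theorem TdmLat.mul {t t' : Module.End ℂ V} {s s' : Module.End ℤ L}
    (h : TdmLat Φ t s) (h' : TdmLat Φ t' s') : TdmLat Φ (t * t') (s * s') := by
  intro f g
  rw [Module.End.mul_eq_comp, LinearMap.baseChange_comp, LinearMap.comp_apply, h' f g, h _ _]
  rfl

theorem TdmLat.algMap (n : ℤ) :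
    TdmLat Φ (algebraMap ℤ (Module.End ℂ V) n) (algebraMap ℤ (Module.End ℤ L) n) := by
  intro f g
  have h1 : (algebraMap ℤ (Module.End ℤ L) n) = n • (LinearMap.id : L →ₗ[ℤ] L) := by
    ext l; simp
  have h2 : ∀ v : V, (algebraMap ℤ (Module.End ℂ V) n) v = n • v := by
    intro v; simp
  rw [h1, LinearMap.baseChange_smul, LinearMap.baseChange_id, LinearMap.smul_apply,
    LinearMap.id_apply, h2, h2, ← Prod.smul_mk, map_zsmul]

theorem tdm_exists_lat (G : Set (Module.End ℂ V)) (hG : ∀ g ∈ G, ∃ s, TdmLat Φ g s)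
    (t : Module.End ℂ V) (ht : t ∈ Algebra.adjoin ℤ G) : ∃ s, TdmLat Φ t s := by
  induction ht using Algebra.adjoin_induction with
  | mem x hx => exact hG x hx
  | algebraMap n => exact ⟨_, TdmLat.algMap n⟩
  | add x y _ _ hx hy =>
    obtain ⟨s, hs⟩ := hx
    obtain ⟨s', hs'⟩ := hy
    exact ⟨s + s', hs.add hs'⟩
  | mul x y _ _ hx hy =>
    obtain ⟨s, hs⟩ := hx
    obtain ⟨s', hs'⟩ := hy
    exact ⟨s * s', hs.mul hs'⟩

variable [Module.Free ℤ L] {A : Type*} [Semiring A] (j : A →+* Module.End ℂ V)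
  (hA : ∀ a : A, ∃ s, TdmLat Φ (j a) s)

/-- the ring homomorphism from a ring `A` of endomorphisms of `V` preserving the lattice to the
endomorphisms of the lattice -/
def tdmHeckeAbs : A →+* Module.End ℤ L where
  toFun a := (hA a).choose
  map_one' := by
    have h1 := (hA 1).choose_spec
    have h2 : TdmLat Φ (j 1) (1 : Module.End ℤ L) := by
      have := TdmLat.algMap (Φ := Φ) 1
      simpa using this
    exact h1.unique h2
  map_mul' a b := by
    have h1 := (hA (a * b)).choose_spec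
    have h2 := ((hA a).choose_spec).mul ((hA b).choose_spec)
    rw [← map_mul] at h2
    exact h1.unique h2
  map_zero' := by
    have h1 := (hA 0).choose_spec
    have h2 : TdmLat Φ (j 0) (0 : Module.End ℤ L) := by
      have := TdmLat.algMap (Φ := Φ) 0
      simpa using this
    exact h1.unique h2
  map_add' a b := by
    have h1 := (hA (a + b)).choose_spec
    have h2 := ((hA a).choose_spec).add ((hA b).choose_spec)
    rw [← map_add] at h2
    exact h1.unique h2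

theorem tdmHeckeAbs_spec (a : A) : TdmLat Φ (j a) (tdmHeckeAbs j hA a) :=
  (hA a).choose_spec

theorem tdmHeckeAbs_eq {a : A} {s : Module.End ℤ L} (h : TdmLat Φ (j a) s) :
    tdmHeckeAbs j hA a = s :=
  (tdmHeckeAbs_spec j hA a).unique h

end Abstract

/-! ### Homomorphisms of a finitely generated group -/

section General

variable {G : Type*} [Group G] (R : Type*) [CommRing R]

/-- evaluation on a finite set -/
def tdmEvalG (S : Finset G) : (Additive G →+ R) →ₗ[R] (S → R) where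
  toFun φ s := φ (Additive.ofMul s.1)
  map_add' _ _ := rfl
  map_smul' _ _ := rfl

theorem tdmEvalG_injective {S : Finset G} (hS : Subgroup.closure (S : Set G) = ⊤) :
    Function.Injective (tdmEvalG R S) := by
  rw [injective_iff_map_eq_zero]
  intro φ hφ
  have h1 : ∀ γ ∈ Subgroup.closure (S : Set G), φ (Additive.ofMul γ) = 0 := by
    intro γ hγ
    induction hγ using Subgroup.closure_induction with
    | mem x hx => exact congrFun hφ ⟨x, hx⟩
    | one => rw [ofMul_one, map_zero]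
    | mul x y _ _ hx hy => rw [ofMul_mul, map_add, hx, hy, add_zero]
    | inv x _ hx => rw [ofMul_inv, map_neg, hx, neg_zero]
  apply AddMonoidHom.ext
  intro x
  exact h1 (Additive.toMul x) (by rw [hS]; exact Subgroup.mem_top _)

theorem tdm_isNoetherian_homG [Group.FG G] [IsNoetherianRing R] :
    IsNoetherian R (Additive G →+ R) := by
  obtain ⟨S, hS⟩ := Group.fg_def.1 (inferInstance : Group.FG G)
  exact isNoetherian_of_injective (tdmEvalG R S) (tdmEvalG_injective R hS)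

theorem tdm_isTorsionFree_homG [Group.FG G] [IsDomain R] :
    Module.IsTorsionFree R (Additive G →+ R) := by
  obtain ⟨S, hS⟩ := Group.fg_def.1 (inferInstance : Group.FG G)
  exact Function.Injective.moduleIsTorsionFree (tdmEvalG R S) (tdmEvalG_injective R hS)
    (fun r m => map_smul _ r m)

end General

/-! ### The lattice `L = parabolicHoms ℤ Γ₀(N) ℤ` -/

variable (N : ℕ) [NeZero N]

/-- the lattice of integral parabolic homomorphisms -/
abbrev tdmL : Submodule ℤ (Additive (Gamma0 N) →+ ℤ) := parabolicHoms ℤ (Gamma0 N) ℤ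

instance tdm_finite_L : Module.Finite ℤ ↥(tdmL N) := by
  haveI := tdm_isNoetherian_homG (G := Gamma0 N) ℤ
  infer_instance

instance tdm_free_L : Module.Free ℤ ↥(tdmL N) := by
  haveI := tdm_isTorsionFree_homG (G := Gamma0 N) ℤ
  haveI : Module.IsTorsionFree ℤ ↥(tdmL N) := inferInstance
  exact Module.free_of_finite_type_torsion_free'

/-! ### Base change of the lattice -/

variable (R : Type*) [CommRing R]

/-- `φ ↦ cast ∘ φ` -/
def tdmCastHom : (Additive (Gamma0 N) →+ ℤ) →ₗ[ℤ] (Additive (Gamma0 N) →+ R) where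
  toFun φ := (Int.castAddHom R).comp φ
  map_add' φ ψ := by ext; simp
  map_smul' c φ := by ext; simp

@[simp] theorem tdmCastHom_apply (φ : Additive (Gamma0 N) →+ ℤ) (γ : Additive (Gamma0 N)) :
    tdmCastHom N R φ γ = ((φ γ : ℤ) : R) := rfl

theorem tdmCastHom_mem {φ : Additive (Gamma0 N) →+ ℤ} (hφ : φ ∈ tdmL N) :
    tdmCastHom N R φ ∈ parabolicHoms R (Gamma0 N) R := by
  intro γ hγ
  show ((φ (Additive.ofMul γ) : ℤ) : R) = 0
  rw [hφ γ hγ, Int.cast_zero]

/-- `L → parabolicHoms R Γ R` -/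
def tdmCastL : ↥(tdmL N) →ₗ[ℤ] ↥(parabolicHoms R (Gamma0 N) R) where
  toFun φ := ⟨tdmCastHom N R φ, tdmCastHom_mem N R φ.2⟩
  map_add' φ ψ := by apply Subtype.ext; simp
  map_smul' c φ := by apply Subtype.ext; simp

@[simp] theorem tdmCastL_coe (φ : ↥(tdmL N)) :
    ((tdmCastL N R φ : ↥(parabolicHoms R (Gamma0 N) R)) : Additive (Gamma0 N) →+ R)
      = tdmCastHom N R φ := rfl

/-- the base change map `R ⊗ L → parabolicHoms R Γ R`, `a ⊗ φ ↦ a • (cast ∘ φ)` -/
def tdmBCmap : R ⊗[ℤ] ↥(tdmL N) →ₗ[R] ↥(parabolicHoms R (Gamma0 N) R) :=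
  LinearMap.liftBaseChange R (tdmCastL N R)

@[simp] theorem tdmBCmap_tmul (a : R) (φ : ↥(tdmL N)) :
    tdmBCmap N R (a ⊗ₜ[ℤ] φ) = a • tdmCastL N R φ := by
  rw [tdmBCmap, LinearMap.liftBaseChange_tmul]

theorem tdmBCmap_tmul_apply (a : R) (φ : ↥(tdmL N)) (γ : Additive (Gamma0 N)) :
    ((tdmBCmap N R (a ⊗ₜ[ℤ] φ) : ↥(parabolicHoms R (Gamma0 N) R)) : Additive (Gamma0 N) →+ R) γ
      = a * ((φ.1 γ : ℤ) : R) := by
  rw [tdmBCmap_tmul]; rfl

section Inj

variable [IsDomain R] [CharZero R]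

theorem tdmBCmap_injective : Function.Injective (tdmBCmap N R) := by
  classical
  obtain ⟨S, hS⟩ := Group.fg_def.1 (inferInstance : Group.FG (Gamma0 N))
  -- `e : L → ℤ^S` injective
  let e : ↥(tdmL N) →ₗ[ℤ] (S → ℤ) := (tdmEvalG ℤ S).comp (tdmL N).subtype
  have he : Function.Injective e :=
    (tdmEvalG_injective ℤ hS).comp (Submodule.subtype_injective _)
  have h1 : Function.Injective (LinearMap.lTensor R e) :=
    Module.Flat.lTensor_preserves_injective_linearMap e he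
  have key : ∀ x : R ⊗[ℤ] ↥(tdmL N),
      tdmEvalG R S ((tdmBCmap N R x : ↥(parabolicHoms R (Gamma0 N) R)) : Additive (Gamma0 N) →+ R)
        = TensorProduct.piScalarRight ℤ R R S (LinearMap.lTensor R e x) := by
    intro x
    induction x using TensorProduct.induction_on with
    | zero => simp
    | tmul a φ =>
      rw [LinearMap.lTensor_tmul, TensorProduct.piScalarRight_apply]
      funext s
      show ((tdmBCmap N R (a ⊗ₜ[ℤ] φ) : ↥(parabolicHoms R (Gamma0 N) R)) :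
        Additive (Gamma0 N) →+ R) (Additive.ofMul s.1) = _
      rw [tdmBCmap_tmul_apply]
      simp [e, tdmEvalG, mul_comm]
    | add x y hx hy =>
      rw [map_add, Submodule.coe_add, map_add, hx, hy, map_add, map_add]
  intro x y hxy
  apply h1
  apply (TensorProduct.piScalarRight ℤ R R S).injective
  rw [← key, ← key, hxy]

theorem tdmBCmap_surjective : Function.Surjective (tdmBCmap N R) := by
  classical
  rintro ⟨ψ, hψ⟩
  -- the image of `ψ` is a free `ℤ`-module of finite rank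
  let M : AddSubgroup R := ψ.range
  let ψ' : Additive (Gamma0 N) →+ M := ψ.rangeRestrict
  haveI : Module.Finite ℤ M := inferInstance
  haveI : Module.Free ℤ M := inferInstance
  let b := Module.finBasis ℤ M
  let c : Fin (Module.finrank ℤ M) → (Additive (Gamma0 N) →+ ℤ) := fun j =>
    ((b.coord j : M →ₗ[ℤ] ℤ).toAddMonoidHom).comp ψ'
  have hc : ∀ j, c j ∈ tdmL N := by
    intro j γ hγ
    have h0 : ψ' (Additive.ofMul γ) = 0 := Subtype.ext (hψ γ hγ)
    show b.coord j (ψ' (Additive.ofMul γ)) = 0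
    rw [h0, map_zero]
  refine ⟨∑ j, ((b j : M) : R) ⊗ₜ[ℤ] (⟨c j, hc j⟩ : ↥(tdmL N)), ?_⟩
  apply Subtype.ext
  refine AddMonoidHom.ext fun γ => ?_
  rw [map_sum, Submodule.coe_sum, AddMonoidHom.finsetSum_apply]
  simp only [tdmBCmap_tmul_apply]
  have h1 := b.sum_repr (ψ' γ)
  have h2 : ψ γ = ((ψ' γ : M) : R) := rfl
  show _ = ψ γ
  rw [h2, ← h1, AddSubgroup.val_finsetSum]
  refine Finset.sum_congr rfl fun j _ => ?_
  rw [AddSubgroup.coe_zsmul, zsmul_eq_mul, mul_comm]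
  rfl

end Inj

/-! ### Compatibilities of the base change map -/

/-- a pair of endomorphisms of `Hom(Γ, ℤ)` and `Hom(Γ, R)` which are compatible with `ℤ → R` and
preserve parabolic homomorphisms is compatible with the base change map -/
theorem tdmBCmap_baseChange (s : ↥(tdmL N) →ₗ[ℤ] ↥(tdmL N))
    (sR : ↥(parabolicHoms R (Gamma0 N) R) →ₗ[R] ↥(parabolicHoms R (Gamma0 N) R))
    (h : ∀ φ : ↥(tdmL N), sR (tdmCastL N R φ) = tdmCastL N R (s φ)) (x : R ⊗[ℤ] ↥(tdmL N)) :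
    tdmBCmap N R (s.baseChange R x) = sR (tdmBCmap N R x) := by
  induction x using TensorProduct.induction_on with
  | zero => simp
  | tmul a φ =>
    rw [LinearMap.baseChange_tmul, tdmBCmap_tmul, tdmBCmap_tmul, map_smul, h]
  | add x y hx hy => rw [map_add, map_add, hx, hy, map_add, map_add]

/-- the involution `φ ↦ φ ∘ J` on the parabolic homomorphisms -/
def tdmW (R' : Type*) [Semiring R'] (A : Type*) [AddCommGroup A] [Module R' A] :
    ↥(parabolicHoms R' (Gamma0 N) A) →ₗ[R'] ↥(parabolicHoms R' (Gamma0 N) A) :=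
  (charInvolution N R' A).restrict fun _ hφ => charInvolution_mem_parabolicHoms N R' A hφ

@[simp] theorem tdmW_coe (R' : Type*) [Semiring R'] (A : Type*) [AddCommGroup A] [Module R' A]
    (φ : ↥(parabolicHoms R' (Gamma0 N) A)) :
    ((tdmW N R' A φ : ↥(parabolicHoms R' (Gamma0 N) A)) : Additive (Gamma0 N) →+ A)
      = charInvolution N R' A φ := rfl

theorem tdmBCmap_homPar {ι : Type} [Fintype ι] (S : tdmCosetSys (Gamma0 N) ι)
    (x : R ⊗[ℤ] ↥(tdmL N)) :
    tdmBCmap N R ((S.homPar ℤ ℤ).baseChange R x) = S.homPar R R (tdmBCmap N R x) := by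
  refine tdmBCmap_baseChange N R _ _ (fun φ => ?_) x
  apply Subtype.ext
  rw [tdmCosetSys.homPar_coe, tdmCastL_coe, tdmCastL_coe, tdmCosetSys.homPar_coe]
  exact S.hom_comp (Int.castAddHom R) φ.1

theorem tdmBCmap_tdmW (x : R ⊗[ℤ] ↥(tdmL N)) :
    tdmBCmap N R ((tdmW N ℤ ℤ).baseChange R x) = tdmW N R R (tdmBCmap N R x) := by
  refine tdmBCmap_baseChange N R _ _ (fun φ => ?_) x
  apply Subtype.ext
  rfl

open Fermat.Agent.ES

/-! ### The base change isomorphism -/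

/-- **(M6)** `R ⊗ L ≃ parabolicHoms R Γ₀(N) R` for a domain `R` of characteristic zero -/
def tdmBC (R : Type*) [CommRing R] [IsDomain R] [CharZero R] :
    R ⊗[ℤ] ↥(tdmL N) ≃ₗ[R] ↥(parabolicHoms R (Gamma0 N) R) :=
  LinearEquiv.ofBijective (tdmBCmap N R) ⟨tdmBCmap_injective N R, tdmBCmap_surjective N R⟩

section BC

variable (R : Type*) [CommRing R] [IsDomain R] [CharZero R]

@[simp] theorem tdmBC_apply (x : R ⊗[ℤ] ↥(tdmL N)) : tdmBC N R x = tdmBCmap N R x := rfl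

theorem tdmBC_tmul (a : R) (φ : ↥(tdmL N)) : tdmBC N R (a ⊗ₜ[ℤ] φ) = a • tdmCastL N R φ :=
  tdmBCmap_tmul N R a φ

theorem tdmBC_tmul_apply (a : R) (φ : ↥(tdmL N)) (γ : Additive (Gamma0 N)) :
    ((tdmBC N R (a ⊗ₜ[ℤ] φ) : ↥(parabolicHoms R (Gamma0 N) R)) : Additive (Gamma0 N) →+ R) γ
      = a * ((φ.1 γ : ℤ) : R) :=
  tdmBCmap_tmul_apply N R a φ γ

theorem tdmBC_homPar {ι : Type} [Fintype ι] (S : tdmCosetSys (Gamma0 N) ι)
    (x : R ⊗[ℤ] ↥(tdmL N)) :
    tdmBC N R ((S.homPar ℤ ℤ).baseChange R x) = S.homPar R R (tdmBC N R x) :=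
  tdmBCmap_homPar N R S x

theorem tdmBC_tdmW (x : R ⊗[ℤ] ↥(tdmL N)) :
    tdmBC N R ((tdmW N ℤ ℤ).baseChange R x) = tdmW N R R (tdmBC N R x) :=
  tdmBCmap_tdmW N R x

end BC

/-! ### Eichler–Shimura: `S₂ × S₂ ≃ ℂ ⊗ L` -/

theorem tdm_periodHomPair_mem (x : CuspForm (Gamma0 N) 2 × CuspForm (Gamma0 N) 2) :
    periodHomPair N x ∈ parabolicHoms ℂ (Gamma0 N) ℂ :=
  range_periodHomPair_le N (LinearMap.mem_range_self _ x)

/-- the period isomorphism `S₂ × S₂ ≃ parabolicHoms ℂ Γ₀(N) ℂ` (Eichler–Shimura, S21) -/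
def tdmPeriodEquiv :
    (CuspForm (Gamma0 N) 2 × CuspForm (Gamma0 N) 2) ≃ₗ[ℂ] ↥(parabolicHoms ℂ (Gamma0 N) ℂ) :=
  LinearEquiv.ofBijective
    ((periodHomPair N).codRestrict (parabolicHoms ℂ (Gamma0 N) ℂ) (tdm_periodHomPair_mem N))
    (by
      have h := periodHomPair_range_eq_of_le N (genusFormula_le_finrank_cuspForm N)
      refine ⟨fun x y hxy => h.1 (congrArg Subtype.val hxy), fun ψ => ?_⟩
      have : (ψ : Additive (Gamma0 N) →+ ℂ) ∈ LinearMap.range (periodHomPair N) := by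
        rw [h.2]; exact ψ.2
      obtain ⟨x, hx⟩ := this
      exact ⟨x, Subtype.ext hx⟩)

@[simp] theorem tdmPeriodEquiv_coe (x : CuspForm (Gamma0 N) 2 × CuspForm (Gamma0 N) 2) :
    ((tdmPeriodEquiv N x : ↥(parabolicHoms ℂ (Gamma0 N) ℂ)) : Additive (Gamma0 N) →+ ℂ)
      = periodHomPair N x := rfl

/-- `Φ : S₂ × S₂ ≃ ℂ ⊗ L` -/
def tdmPhi : (CuspForm (Gamma0 N) 2 × CuspForm (Gamma0 N) 2) ≃ₗ[ℂ] ℂ ⊗[ℤ] ↥(tdmL N) :=
  (tdmPeriodEquiv N).trans (tdmBC N ℂ).symm

theorem tdmBC_tdmPhi (x : CuspForm (Gamma0 N) 2 × CuspForm (Gamma0 N) 2) :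
    tdmBC N ℂ (tdmPhi N x) = tdmPeriodEquiv N x := by
  rw [tdmPhi, LinearEquiv.trans_apply, LinearEquiv.apply_symm_apply]

theorem tdmBC_tdmPhi_coe (x : CuspForm (Gamma0 N) 2 × CuspForm (Gamma0 N) 2) :
    ((tdmBC N ℂ (tdmPhi N x) : ↥(parabolicHoms ℂ (Gamma0 N) ℂ)) : Additive (Gamma0 N) →+ ℂ)
      = periodHomPair N x := by
  rw [tdmBC_tdmPhi]; rfl

theorem tdm_periodHomPair_apply (f g : CuspForm (Gamma0 N) 2) :
    periodHomPair N (f, g)
      = (periodMap N f + charInvolution N ℂ ℂ (periodMap N f))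
        + (periodMap N g - charInvolution N ℂ ℂ (periodMap N g)) := by
  rw [periodHomPair_eq]
  simp [LinearMap.coprod_apply]

/-- a Hecke operator `(T, s)` (on cusp forms, resp. on `Hom(Γ, ℂ)`) which is compatible with the
period map and commutes with the involution is compatible with `periodHomPair` -/
theorem tdm_periodHomPair_of_comm (T : CuspForm (Gamma0 N) 2 → CuspForm (Gamma0 N) 2)
    (s : (Additive (Gamma0 N) →+ ℂ) →+ (Additive (Gamma0 N) →+ ℂ))
    (h1 : ∀ f, periodMap N (T f) = s (periodMap N f))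
    (h2 : ∀ φ, charInvolution N ℂ ℂ (s φ) = s (charInvolution N ℂ ℂ φ))
    (f g : CuspForm (Gamma0 N) 2) :
    s (periodHomPair N (f, g)) = periodHomPair N (T f, T g) := by
  rw [tdm_periodHomPair_apply, tdm_periodHomPair_apply, map_add, map_add, map_sub, h1, h1,
    ← h2, ← h2]

theorem tdmLat_of_comm {ι : Type} [Fintype ι] (S : tdmCosetSys (Gamma0 N) ι)
    (T : Module.End ℂ (CuspForm (Gamma0 N) 2))
    (h1 : ∀ f, periodMap N (T f) = S.hom ℂ (periodMap N f))
    (h2 : ∀ φ, charInvolution N ℂ ℂ (S.hom ℂ φ) = S.hom ℂ (charInvolution N ℂ ℂ φ)) :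
    TdmLat (tdmPhi N) T (S.homPar ℤ ℤ) := by
  intro f g
  apply (tdmBC N ℂ).injective
  rw [tdmBC_homPar]
  apply Subtype.ext
  rw [tdmCosetSys.homPar_coe, tdmBC_tdmPhi_coe, tdmBC_tdmPhi_coe]
  exact tdm_periodHomPair_of_comm N T (S.hom ℂ) h1 h2 f g

theorem tdmLat_T {ℓ : ℕ} (hℓ : ℓ.Prime) (hℓN : ¬ ℓ ∣ N) :
    TdmLat (tdmPhi N) (CuspForm.heckeTLin 2 hℓ hℓN) ((tdmSysT N ℓ hℓ hℓN).homPar ℤ ℤ) :=
  tdmLat_of_comm N _ _ (fun f => tdm_periodMap_heckeT hℓ hℓN f)
    (fun φ => tdmSysT_charInvolution N ℓ hℓ hℓN ℂ ℂ φ)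

theorem tdmLat_U {q : ℕ} (hqN : q ∣ N) (hq0 : q ≠ 0) :
    TdmLat (tdmPhi N) (CuspForm.heckeULin 2 hqN) ((tdmSysU N q hqN hq0).homPar ℤ ℤ) :=
  tdmLat_of_comm N _ _ (fun f => tdm_periodMap_heckeU hqN hq0 f)
    (fun φ => tdmSysU_charInvolution N q hqN hq0 ℂ ℂ φ)

theorem tdm_heckeGenerators_lat (g : Module.End ℂ (CuspForm (Gamma0 N) 2))
    (hg : g ∈ CuspForm.heckeGenerators N 2 ∅) : ∃ s, TdmLat (tdmPhi N) g s := by
  rcases hg with ⟨ℓ, hℓ, hℓN, -, rfl⟩ | ⟨q, hqN, hq, -, rfl⟩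
  · exact ⟨_, tdmLat_T N hℓ hℓN⟩
  · exact ⟨_, tdmLat_U N hqN hq.ne_zero⟩

/-- every element of the Hecke algebra preserves the lattice -/
theorem tdm_heckeAlgebra_lat (t : CuspForm.heckeAlgebra N 2 ∅) :
    ∃ s, TdmLat (tdmPhi N) ((CuspForm.heckeAlgebra N 2 ∅).val.toRingHom t) s :=
  tdm_exists_lat (CuspForm.heckeGenerators N 2 ∅) (tdm_heckeGenerators_lat N) t.1 t.2

/-- **the Hecke action on the lattice** `L = parabolicHoms ℤ Γ₀(N) ℤ` -/
def tdmHecke : CuspForm.heckeAlgebra N 2 ∅ →+* Module.End ℤ ↥(tdmL N) :=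
  tdmHeckeAbs (Φ := tdmPhi N) (CuspForm.heckeAlgebra N 2 ∅).val.toRingHom (tdm_heckeAlgebra_lat N)

/-- `tdmHecke t ⊗ ℂ` corresponds to `t × t` under `Φ` -/
theorem tdmHecke_spec (t : CuspForm.heckeAlgebra N 2 ∅) (f g : CuspForm (Gamma0 N) 2) :
    (tdmHecke N t).baseChange ℂ (tdmPhi N (f, g))
      = tdmPhi N ((t : Module.End ℂ (CuspForm (Gamma0 N) 2)) f,
          (t : Module.End ℂ (CuspForm (Gamma0 N) 2)) g) :=
  tdmHeckeAbs_spec (Φ := tdmPhi N) (CuspForm.heckeAlgebra N 2 ∅).val.toRingHom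
    (tdm_heckeAlgebra_lat N) t f g

theorem tdmHecke_eq {t : CuspForm.heckeAlgebra N 2 ∅} {s : Module.End ℤ ↥(tdmL N)}
    (h : TdmLat (tdmPhi N) (t : Module.End ℂ (CuspForm (Gamma0 N) 2)) s) : tdmHecke N t = s :=
  tdmHeckeAbs_eq (Φ := tdmPhi N) (CuspForm.heckeAlgebra N 2 ∅).val.toRingHom
    (tdm_heckeAlgebra_lat N) (a := t) h

theorem tdmHecke_T {ℓ : ℕ} (hℓ : ℓ.Prime) (hℓN : ¬ ℓ ∣ N) (hℓS : ℓ ∉ (∅ : Set ℕ)) :
    tdmHecke N (CuspForm.heckeAlgebra.T hℓ hℓN hℓS) = (tdmSysT N ℓ hℓ hℓN).homPar ℤ ℤ :=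
  tdmHecke_eq N (tdmLat_T N hℓ hℓN)

theorem tdmHecke_U {q : ℕ} (hq : q.Prime) (hqN : q ∣ N) (hqS : q ∉ (∅ : Set ℕ)) :
    tdmHecke N (CuspForm.heckeAlgebra.U hq hqN hqS) = (tdmSysU N q hqN hq.ne_zero).homPar ℤ ℤ :=
  tdmHecke_eq N (tdmLat_U N hqN hq.ne_zero)

/-- the involution on the lattice corresponds to `(f, g) ↦ (f, -g)` under `Φ` -/
theorem tdmW_spec (f g : CuspForm (Gamma0 N) 2) :
    (tdmW N ℤ ℤ).baseChange ℂ (tdmPhi N (f, g)) = tdmPhi N (f, -g) := by
  apply (tdmBC N ℂ).injective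
  rw [tdmBC_tdmW]
  apply Subtype.ext
  rw [tdmW_coe, tdmBC_tdmPhi_coe, tdmBC_tdmPhi_coe, tdm_periodHomPair_apply,
    tdm_periodHomPair_apply]
  have hneg : periodMap N (-g) = -periodMap N g := by
    have := periodMap_smul N (-1 : ℂ) g
    simpa using this
  rw [hneg, map_add, map_add, map_sub]
  simp only [charInvolution_charInvolution, map_neg]
  abel

end

end Fermat.Agent.T1
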