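/-
T1-D (WP-Z, part 4): the Tate module package with the lattice side discharged:
the Hecke action on `T = parabolicHoms ℤ_p Γ₀(N) ℤ_p` is the base change of `tdmHecke` on
`L = parabolicHoms ℤ Γ₀(N) ℤ` (Lattice.lean), multiplicity two and the sign condition come from
WP-M (Asm/Res/MultCusp.lean), complex conjugation and open stabilisers from Dict/ConjFix.lean.
Remaining inputs: the dictionary structures and (K3).
-/
import Mathlib
import Fermat.Agent.Lib.T1.Mono.Package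
import Fermat.Agent.Lib.T1.Mono.Lattice
import Fermat.Agent.Lib.T1.Dict.ConjFix
import Fermat.Agent.Lib.T1.Asm.Res.MultCusp

set_option autoImplicit false
set_option linter.unusedSectionVars false
set_option linter.style.haveILetI false

namespace Fermat.Agent.T1

open Complex Set Filter Topology Matrix MatrixGroups CongruenceSubgroup ModularCurve
open UpperHalfPlane hiding I
open Fermat.Agent.S24Lib ModularCurve.Period
open scoped TensorProduct

local notation "Kbar" => AlgebraicClosure ℚ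
local notation "GQ" => (AlgebraicClosure ℚ ≃ₐ[ℚ] AlgebraicClosure ℚ)

noncomputable section

variable (p : ℕ) [hp : Fact p.Prime] (N : ℕ) [NeZero N]

/-- the Hecke action on `T = parabolicHoms ℤ_p Γ₀(N) ℤ_p`: base change of the action on the lattice -/
def tdmHeckeP : CuspForm.heckeAlgebra N 2 (∅ : Set ℕ) →+*
    Module.End ℤ_[p] ↥(parabolicHoms ℤ_[p] (Gamma0 N) ℤ_[p]) :=
  ((tdmBC N ℤ_[p]).conjRingEquiv : Module.End ℤ_[p] (ℤ_[p] ⊗[ℤ] ↥(tdmL N)) →+* _).comp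
    (((Module.End.baseChangeHom ℤ ℤ_[p] ↥(tdmL N) : Module.End ℤ ↥(tdmL N) →ₐ[ℤ] _) :
      Module.End ℤ ↥(tdmL N) →+* _).comp (tdmHecke N))

theorem tdmHeckeP_apply (t : CuspForm.heckeAlgebra N 2 (∅ : Set ℕ))
    (φ : ↥(parabolicHoms ℤ_[p] (Gamma0 N) ℤ_[p])) :
    tdmHeckeP p N t φ
      = tdmBC N ℤ_[p] ((tdmHecke N t).baseChange ℤ_[p] ((tdmBC N ℤ_[p]).symm φ)) := rfl

theorem tdmHeckeP_he (t : CuspForm.heckeAlgebra N 2 (∅ : Set ℕ)) (x : ℤ_[p] ⊗[ℤ] ↥(tdmL N)) :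
    tdmBC N ℤ_[p] ((tdmHecke N t).baseChange ℤ_[p] x) = tdmHeckeP p N t (tdmBC N ℤ_[p] x) := by
  rw [tdmHeckeP_apply, LinearEquiv.symm_apply_apply]

theorem tdmHeckeP_T (l : ℕ) (hl : l.Prime) (hlN : ¬ l ∣ N)
    (φ : ↥(parabolicHoms ℤ_[p] (Gamma0 N) ℤ_[p])) :
    ((tdmHeckeP p N (CuspForm.heckeAlgebra.T hl hlN (Set.notMem_empty l)) φ :
        ↥(parabolicHoms ℤ_[p] (Gamma0 N) ℤ_[p])) : Additive (Gamma0 N) →+ ℤ_[p])
      = (tdmSysT N l hl hlN).hom ℤ_[p] (φ : Additive (Gamma0 N) →+ ℤ_[p]) := by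
  rw [tdmHeckeP_apply, tdmHecke_T, tdmBC_homPar, LinearEquiv.apply_symm_apply,
    tdmCosetSys.homPar_coe]

theorem tdmHeckeP_U (q : ℕ) (hq : q.Prime) (hqN : q ∣ N)
    (φ : ↥(parabolicHoms ℤ_[p] (Gamma0 N) ℤ_[p])) :
    ((tdmHeckeP p N (CuspForm.heckeAlgebra.U hq hqN (Set.notMem_empty q)) φ :
        ↥(parabolicHoms ℤ_[p] (Gamma0 N) ℤ_[p])) : Additive (Gamma0 N) →+ ℤ_[p])
      = (tdmSysU N q hqN hq.ne_zero).hom ℤ_[p] (φ : Additive (Gamma0 N) →+ ℤ_[p]) := by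
  rw [tdmHeckeP_apply, tdmHecke_U, tdmBC_homPar, LinearEquiv.apply_symm_apply,
    tdmCosetSys.homPar_coe]

/-- **the Tate module package from the dictionary and (K3)** -/
theorem tdm_package_of_dict (DK : TdmDict Kbar N) (hDK : DK.toMer = KMod.toMer Kbar N)
    (DC : TdmDictC N) (E : TdmDescent N DK DC)
    (hK3 : ∀ q : ℕ, q.Prime → ¬ q ∣ N → q ≠ p → ∀ A : ValuationSubring Kbar,
      A.LiesOverPrime q → ∀ k : ℕ, TkrK12 N (p ^ k) A ∧ TkrNormal N A) :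
    TePackage p N := by
  refine tdm_package p N DK hDK DC E ?_ (tdd_exists_finite_fixing N) hK3 (tdmHeckeP p N)
    (tdmHeckeP_T p N) (tdmHeckeP_U p N) ?_ ?_
  · intro y
    rw [TdmDict.fn_apply, TdmDict.fn_apply, hDK]
    exact tdd_toMer_conj N y
  · intro 𝒪 _ _ _ _ _ lam
    exact ter_finrank_teEigen (tdmHecke N) (tdmPhi N) (tdmHecke_spec N) (tdmBC N ℤ_[p])
      (tdmHeckeP p N) (tdmHeckeP_he p N) lam
  · intro w hw 𝒪 _ _ _ _ _ lam
    refine ter_exists_not_scalar_teEigen_neg (tdmHecke N) (tdmPhi N) (tdmHecke_spec N)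
      (tdmW N ℤ ℤ) (tdmW_spec N) (tdmBC N ℤ_[p]) (tdmHeckeP p N) (tdmHeckeP_he p N) lam w ?_
    intro x
    apply Subtype.ext
    rw [hw, LinearMap.baseChange_neg, LinearMap.neg_apply, map_neg, tdmBC_tdmW]
    rfl

end

end Fermat.Agent.T1
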