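/-
T1-D (WP-Z, part 2): properties of the Galois action `galX` on the character groups `X_m`:
commutation with the abstract Hecke operators, continuity (open stabilisers), triviality of inertia,
the Eichler–Shimura relation and the action of complex conjugation — each derived from the
corresponding statement on functions.
-/
import Mathlib
import Fermat.Agent.Lib.T1.Mono.GalX

set_option autoImplicit false
set_option linter.unusedSectionVars false

namespace Fermat.Agent.T1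

open Complex Set Filter Topology Matrix MatrixGroups CongruenceSubgroup ModularCurve
open UpperHalfPlane hiding I
open Fermat.Agent.S24Lib

local notation "Kbar" => AlgebraicClosure ℚ
local notation "GQ" => (AlgebraicClosure ℚ ≃ₐ[ℚ] AlgebraicClosure ℚ)

/-! ### Operators on `X_m` -/

/-- the abstract Hecke operator of a coset system on `X_m` -/
noncomputable def tdmCosetSys.homX {N : ℕ} {ι : Type} [Fintype ι]
    (S : tdmCosetSys (Gamma0 N) ι) (m : ℕ) : tdmX N m →* tdmX N m :=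
  ((S.homMul ℂˣ).comp (tdmX N m).subtype).codRestrict (tdmX N m)
    (fun χ => S.homMul_mem_tdmX χ.2)

theorem tdmCosetSys.homX_coe {N : ℕ} {ι : Type} [Fintype ι]
    (S : tdmCosetSys (Gamma0 N) ι) (m : ℕ) (χ : tdmX N m) :
    ((S.homX m χ : tdmX N m) : Gamma0 N →* ℂˣ) = S.homMul ℂˣ (χ : Gamma0 N →* ℂˣ) := rfl

/-- `χ ↦ conj ∘ χ ∘ jConj` on `X_m` -/
noncomputable def tdmConjX (N m : ℕ) : tdmX N m →* tdmX N m :=
  ((tdmConjChar N).comp (tdmX N m).subtype).codRestrict (tdmX N m)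
    (fun χ => tdmConjChar_mem χ.2)

theorem tdmConjX_coe (N m : ℕ) (χ : tdmX N m) :
    ((tdmConjX N m χ : tdmX N m) : Gamma0 N →* ℂˣ) = tdmConjChar N (χ : Gamma0 N →* ℂˣ) := rfl

/-! ### Functional operators and the monodromy map -/

section Generic

variable {𝕜 : Type} [Field 𝕜] [IsAlgClosed 𝕜] [Algebra 𝕜 ℂ] [Algebra ℚ 𝕜] {N : ℕ} [NeZero N]
  (D : TdmDict 𝕜 N)

/-- a functional operator `Tf` whose analytic form is `Y ↦ ∏ i, Y ∘ α_i` preserves the Kummer
group and corresponds to the abstract Hecke operator under `Ψ` -/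
theorem TdmDict.psi_op {ι : Type} [Fintype ι] (S : tdmCosetSys (Gamma0 N) ι) {m : ℕ}
    (hm : m ≠ 0) (Tf : (↥(KMod.barField 𝕜 N))ˣ → (↥(KMod.barField 𝕜 N))ˣ)
    (hTf : ∀ y : (↥(KMod.barField 𝕜 N))ˣ, D.fn ((Tf y : (↥(KMod.barField 𝕜 N))ˣ) :
      ↥(KMod.barField 𝕜 N)) = S.prodFn (D.fn (y : ↥(KMod.barField 𝕜 N))))
    (y : tWsub 𝕜 N m) :
    ∃ h : Tf y.1 ∈ tWsub 𝕜 N m, D.psi hm ⟨Tf y.1, h⟩ = S.homX m (D.psi hm y) := by
  obtain ⟨h, h2⟩ := D.psi_hecke S hm y (Tf y.1) (hTf y.1)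
  exact ⟨h, Subtype.ext h2⟩

end Generic

section Gal

variable {N : ℕ} [NeZero N] {DK : TdmDict Kbar N} {DC : TdmDictC N} (E : TdmDescent N DK DC)

include E in
/-- **(H1) at finite level**: the Galois action commutes with every abstract Hecke operator which
comes from a Galois-equivariant functional operator -/
theorem TdmDescent.galX_op {ι : Type} [Fintype ι] (S : tdmCosetSys (Gamma0 N) ι) {m : ℕ}
    (hm : m ≠ 0)
    (Tf : (↥(modularFunctionFieldBar N))ˣ → (↥(modularFunctionFieldBar N))ˣ)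
    (hTf : ∀ y : (↥(modularFunctionFieldBar N))ˣ,
      DK.fn ((Tf y : (↥(modularFunctionFieldBar N))ˣ) : ↥(modularFunctionFieldBar N))
        = S.prodFn (DK.fn (y : ↥(modularFunctionFieldBar N))))
    (hcomm : ∀ (σ : GQ) (y : (↥(modularFunctionFieldBar N))ˣ),
      Tf (tkrSig N σ y) = tkrSig N σ (Tf y))
    (σ : GQ) (χ : tdmX N m) :
    E.galX hm σ (S.homX m χ) = S.homX m (E.galX hm σ χ) := by
  obtain ⟨y, rfl⟩ := E.psi_surjective hm χ
  obtain ⟨h1, h2⟩ := DK.psi_op S hm Tf hTf y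
  obtain ⟨h3, h4⟩ := DK.psi_op S hm Tf hTf (tdmSigW N m σ y)
  rw [← h2, E.galX_psi, E.galX_psi, ← h4]
  congr 1
  apply Subtype.ext
  rw [tdmSigW_coe]
  exact (hcomm σ y.1).symm

include E in
/-- **(H3) at finite level**: if `σ y ≡ y` modulo `m`-th powers on the Kummer group, then `σ` acts
trivially on `X_m` -/
theorem TdmDescent.galX_eq_self {m : ℕ} (hm : m ≠ 0) (σ : GQ)
    (h : ∀ y : (↥(modularFunctionFieldBar N))ˣ, y ∈ tWsub Kbar N m →
      ∃ t : (↥(modularFunctionFieldBar N))ˣ, tkrSig N σ y = y * t ^ m)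
    (χ : tdmX N m) : E.galX hm σ χ = χ := by
  obtain ⟨y, rfl⟩ := E.psi_surjective hm χ
  rw [E.galX_psi]
  obtain ⟨t, ht⟩ := h y.1 y.2
  have h1 : tdmSigW N m σ y = y * ⟨t ^ m, tkr_pow_mem_tWsub N m t⟩ := Subtype.ext ht
  rw [h1, map_mul, DK.psi_pow hm ⟨t ^ m, tkr_pow_mem_tWsub N m t⟩ t rfl, mul_one]

include E in
/-- **(H4) at finite level**: the Eichler–Shimura relation on `X_m` from the relation
`σ²y · y^l = T(σ y) · t^m` on functions -/
theorem TdmDescent.galX_frob {ι : Type} [Fintype ι] (S : tdmCosetSys (Gamma0 N) ι) {m : ℕ}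
    (hm : m ≠ 0) (l : ℕ)
    (Tf : (↥(modularFunctionFieldBar N))ˣ → (↥(modularFunctionFieldBar N))ˣ)
    (hTf : ∀ y : (↥(modularFunctionFieldBar N))ˣ,
      DK.fn ((Tf y : (↥(modularFunctionFieldBar N))ˣ) : ↥(modularFunctionFieldBar N))
        = S.prodFn (DK.fn (y : ↥(modularFunctionFieldBar N))))
    (σ : GQ)
    (h : ∀ y : (↥(modularFunctionFieldBar N))ˣ, y ∈ tWsub Kbar N m →
      Tf (tkrSig N σ y) ∈ tWsub Kbar N m →
      ∃ t : (↥(modularFunctionFieldBar N))ˣ,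
        tkrSig N σ (tkrSig N σ y) * y ^ l = Tf (tkrSig N σ y) * t ^ m)
    (χ : tdmX N m) :
    E.galX hm σ (E.galX hm σ χ) * χ ^ l = S.homX m (E.galX hm σ χ) := by
  obtain ⟨y, rfl⟩ := E.psi_surjective hm χ
  obtain ⟨h3, h4⟩ := DK.psi_op S hm Tf hTf (tdmSigW N m σ y)
  rw [E.galX_psi, E.galX_psi, ← h4, ← map_pow, ← map_mul]
  obtain ⟨t, ht⟩ := h y.1 y.2 h3
  have h1 : tdmSigW N m σ (tdmSigW N m σ y) * y ^ l
      = ⟨Tf (tdmSigW N m σ y).1, h3⟩ * ⟨t ^ m, tkr_pow_mem_tWsub N m t⟩ := Subtype.ext ht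
  rw [h1, map_mul, DK.psi_pow hm ⟨t ^ m, tkr_pow_mem_tWsub N m t⟩ t rfl, mul_one]

include E in
/-- **(H2) at finite level**: a finite extension of `ℚ` whose Galois group acts trivially on `X_m` -/
theorem TdmDescent.galX_cont {m : ℕ} (hm : m ≠ 0)
    (hfix : ∀ y : ↥(modularFunctionFieldBar N), ∃ L : IntermediateField ℚ Kbar,
      FiniteDimensional ℚ L ∧ ∀ σ : GQ, (∀ x ∈ L, σ x = x) →
        arithmeticRingAut (modularFunctionFieldFull N) σ y = y) :
    ∃ L : IntermediateField ℚ Kbar, FiniteDimensional ℚ L ∧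
      ∀ σ : GQ, (∀ x ∈ L, σ x = x) → ∀ χ : tdmX N m, E.galX hm σ χ = χ := by
  haveI : NeZero m := ⟨hm⟩
  choose y hy using E.psi_surjective hm
  choose L hL hLfix using fun χ : tdmX N m =>
    hfix (((y χ : tWsub Kbar N m) : (↥(modularFunctionFieldBar N))ˣ) :
      ↥(modularFunctionFieldBar N))
  refine ⟨⨆ χ, L χ, ?_, fun σ hσ χ => ?_⟩
  · haveI := hL
    exact IntermediateField.finiteDimensional_iSup_of_finite
  · have h1 : ∀ x ∈ L χ, σ x = x := fun x hx => hσ x (le_iSup L χ hx)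
    have h2 := hLfix χ σ h1
    have h3 : tdmSigW N m σ (y χ) = y χ := by
      apply Subtype.ext
      apply Units.ext
      exact h2
    rw [← hy χ, E.galX_psi, h3]

include E in
/-- **complex conjugation**: if `c` acts on functions as `Y ↦ conj ∘ Y ∘ (τ ↦ -τ̄)`, then it acts on
`X_m` as `χ ↦ conj ∘ χ ∘ jConj` -/
theorem TdmDescent.galX_conj {m : ℕ} (hm : m ≠ 0) (c : GQ)
    (hc : ∀ y : ↥(modularFunctionFieldBar N),
      DK.fn (arithmeticRingAut (modularFunctionFieldFull N) c y) = tdmConj (DK.fn y))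
    (χ : tdmX N m) : E.galX hm c χ = tdmConjX N m χ := by
  obtain ⟨y, rfl⟩ := E.psi_surjective hm χ
  rw [E.galX_psi]
  obtain ⟨h1, h2⟩ := DK.psi_conj hm y (tkrSig N c y.1) (hc _)
  exact Subtype.ext h2

end Gal

end Fermat.Agent.T1
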