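/-
T1-D: the Hecke action on the `p`-adic Tate module `T = parabolicHoms ℤ_p Γ₀(N) ℤ_p`, obtained from
the lattice `L` by base change, and the statements (H5), (H6) of the Tate module package for it.
-/
import Mathlib
import Fermat.Agent.Lib.T1.Mono.Lattice
import Fermat.Agent.Lib.T1.Asm.Res.MultCusp

set_option autoImplicit false

namespace Fermat.Agent.T1

open Matrix MatrixGroups CongruenceSubgroup ModularCurve ModularCurve.Period
open scoped TensorProduct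

noncomputable section

variable (p : ℕ) [Fact p.Prime] (N : ℕ) [NeZero N]

/-- the `p`-adic Tate module -/
abbrev tdmT : Submodule ℤ_[p] (Additive (Gamma0 N) →+ ℤ_[p]) :=
  parabolicHoms ℤ_[p] (Gamma0 N) ℤ_[p]

/-- the Hecke action on the Tate module: transport of `tdmHecke t ⊗ ℤ_p` along `tdmBC` -/
def tdmHeckeT : CuspForm.heckeAlgebra N 2 ∅ →+* Module.End ℤ_[p] ↥(tdmT p N) where
  toFun t := (tdmBC N ℤ_[p]).conj ((tdmHecke N t).baseChange ℤ_[p])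
  map_one' := by
    rw [map_one, Module.End.one_eq_id, LinearMap.baseChange_id, ← Module.End.one_eq_id]
    exact map_one (tdmBC N ℤ_[p]).conjRingEquiv
  map_mul' a b := by
    rw [map_mul, Module.End.mul_eq_comp, LinearMap.baseChange_comp, ← Module.End.mul_eq_comp]
    exact map_mul (tdmBC N ℤ_[p]).conjRingEquiv _ _
  map_zero' := by
    rw [map_zero, LinearMap.baseChange_zero, map_zero]
  map_add' a b := by
    rw [map_add, LinearMap.baseChange_add, map_add]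

theorem tdmHeckeT_apply (t : CuspForm.heckeAlgebra N 2 ∅) (x : ℤ_[p] ⊗[ℤ] ↥(tdmL N)) :
    tdmBC N ℤ_[p] ((tdmHecke N t).baseChange ℤ_[p] x) = tdmHeckeT p N t (tdmBC N ℤ_[p] x) := by
  show _ = (tdmBC N ℤ_[p]).conj ((tdmHecke N t).baseChange ℤ_[p]) (tdmBC N ℤ_[p] x)
  rw [LinearEquiv.conj_apply_apply, LinearEquiv.symm_apply_apply]

theorem tdmHeckeT_eq_of {t : CuspForm.heckeAlgebra N 2 ∅} {ι : Type} [Fintype ι]
    (S : tdmCosetSys (Gamma0 N) ι) (h : tdmHecke N t = S.homPar ℤ ℤ) :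
    tdmHeckeT p N t = S.homPar ℤ_[p] ℤ_[p] := by
  refine LinearMap.ext fun y => ?_
  obtain ⟨x, rfl⟩ := (tdmBC N ℤ_[p]).surjective y
  rw [← tdmHeckeT_apply, h, tdmBC_homPar]

theorem tdmHeckeT_T {ℓ : ℕ} (hℓ : ℓ.Prime) (hℓN : ¬ ℓ ∣ N) (hℓS : ℓ ∉ (∅ : Set ℕ)) :
    tdmHeckeT p N (CuspForm.heckeAlgebra.T hℓ hℓN hℓS)
      = (tdmSysT N ℓ hℓ hℓN).homPar ℤ_[p] ℤ_[p] :=
  tdmHeckeT_eq_of p N _ (tdmHecke_T N hℓ hℓN hℓS)

theorem tdmHeckeT_U {q : ℕ} (hq : q.Prime) (hqN : q ∣ N) (hqS : q ∉ (∅ : Set ℕ)) :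
    tdmHeckeT p N (CuspForm.heckeAlgebra.U hq hqN hqS)
      = (tdmSysU N q hqN hq.ne_zero).homPar ℤ_[p] ℤ_[p] :=
  tdmHeckeT_eq_of p N _ (tdmHecke_U N hq hqN hqS)

theorem tdmHeckeT_apply_T {ℓ : ℕ} (hℓ : ℓ.Prime) (hℓN : ¬ ℓ ∣ N) (hℓS : ℓ ∉ (∅ : Set ℕ))
    (φ : ↥(tdmT p N)) :
    ((tdmHeckeT p N (CuspForm.heckeAlgebra.T hℓ hℓN hℓS) φ : ↥(tdmT p N)) :
        Additive (Gamma0 N) →+ ℤ_[p]) = (tdmSysT N ℓ hℓ hℓN).hom ℤ_[p] φ := by
  rw [tdmHeckeT_T]; rfl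

theorem tdmW_mul_self : tdmW N ℤ ℤ * tdmW N ℤ ℤ = 1 := by
  refine LinearMap.ext fun φ => Subtype.ext ?_
  exact charInvolution_charInvolution N ℤ ℤ φ.1

/-- the Hecke operators commute with the involution on the lattice -/
theorem tdmHecke_comm_tdmW (t : CuspForm.heckeAlgebra N 2 ∅) :
    tdmHecke N t * tdmW N ℤ ℤ = tdmW N ℤ ℤ * tdmHecke N t := by
  have key : TdmLat (tdmPhi N) (t : Module.End ℂ (CuspForm (Gamma0 N) 2))
      (tdmW N ℤ ℤ * tdmHecke N t * tdmW N ℤ ℤ) := by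
    intro f g
    rw [Module.End.mul_eq_comp, Module.End.mul_eq_comp, LinearMap.baseChange_comp,
      LinearMap.baseChange_comp, LinearMap.comp_apply, LinearMap.comp_apply, tdmW_spec,
      tdmHecke_spec, tdmW_spec, map_neg, neg_neg]
  have h := tdmHecke_eq N key
  calc tdmHecke N t * tdmW N ℤ ℤ
      = (tdmW N ℤ ℤ * tdmHecke N t * tdmW N ℤ ℤ) * tdmW N ℤ ℤ := by rw [← h]
    _ = tdmW N ℤ ℤ * tdmHecke N t * (tdmW N ℤ ℤ * tdmW N ℤ ℤ) := by rw [mul_assoc]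
    _ = tdmW N ℤ ℤ * tdmHecke N t := by rw [tdmW_mul_self, mul_one]

/-- the Hecke operators commute with the involution on the Tate module -/
theorem tdmHeckeT_comm_tdmW (t : CuspForm.heckeAlgebra N 2 ∅) (φ : ↥(tdmT p N)) :
    tdmHeckeT p N t (tdmW N ℤ_[p] ℤ_[p] φ) = tdmW N ℤ_[p] ℤ_[p] (tdmHeckeT p N t φ) := by
  obtain ⟨x, rfl⟩ := (tdmBC N ℤ_[p]).surjective φ
  rw [← tdmBC_tdmW, ← tdmHeckeT_apply, ← tdmHeckeT_apply, ← tdmBC_tdmW,
    ← LinearMap.comp_apply, ← LinearMap.comp_apply, ← LinearMap.baseChange_comp,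
    ← LinearMap.baseChange_comp, ← Module.End.mul_eq_comp, ← Module.End.mul_eq_comp,
    tdmHecke_comm_tdmW]

variable {𝒪 : Type} [CommRing 𝒪] [IsDomain 𝒪] [CharZero 𝒪] [Algebra ℤ_[p] 𝒪]
  (lamO : CuspForm.heckeAlgebra N 2 (∅ : Set ℕ) →+* 𝒪)

/-- **(H5)** for the Tate module of `J₀(N)` -/
theorem tdm_finrank_teEigen : Module.finrank 𝒪 ↥(teEigen (T := ↥(tdmT p N)) (tdmHeckeT p N) lamO) = 2 :=
  ter_finrank_teEigen (tdmHecke N) (tdmPhi N) (tdmHecke_spec N) (tdmBC N ℤ_[p]) (tdmHeckeT p N)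
    (tdmHeckeT_apply p N) lamO

/-- **(H6)** for the Tate module of `J₀(N)`: `-ι` (the action of complex conjugation) is not a
scalar on the eigen-lattice -/
theorem tdm_exists_not_scalar_teEigen :
    ∃ v ∈ teEigen (T := ↥(tdmT p N)) (tdmHeckeT p N) lamO, ∀ z : 𝒪,
      (-(tdmW N ℤ_[p] ℤ_[p])).baseChange 𝒪 v ≠ z • v :=
  ter_exists_not_scalar_teEigen_neg (tdmHecke N) (tdmPhi N) (tdmHecke_spec N) (tdmW N ℤ ℤ)
    (tdmW_spec N) (tdmBC N ℤ_[p]) (tdmHeckeT p N) (tdmHeckeT_apply p N) lamO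
    (-(tdmW N ℤ_[p] ℤ_[p]))
    (fun x => by
      rw [LinearMap.baseChange_neg, LinearMap.neg_apply, map_neg, tdmBC_tdmW, LinearMap.neg_apply])

end

end Fermat.Agent.T1
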