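/-
T1-D (WP-Z, part 3): **the Tate module package** `TePackage p N` for
`T = parabolicHoms ℤ_p Γ₀(N) ℤ_p = lim X_{p^k}`, with the Galois action transported from the Kummer
groups `tWsub ℚ̄ N (p^k)` through the monodromy isomorphisms, from:
* the analytic dictionary over `ℚ̄` and `ℂ` with descent (`TdmDict`, `TdmDictC`, `TdmDescent`);
* complex conjugation and open stabilisers on the function field (`hconj`, `hfix`);
* (K1)–(K3) at the primes `q ∤ N p` (`TkrK12`, `TkrNormal`);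
* a Hecke action on `T` given on the generators by the abstract Hecke operators of the coset
  systems `tdmSysT`, `tdmSysU`, with multiplicity two (`h5`) and the sign condition (`h6`).
-/
import Mathlib
import Fermat.Agent.Lib.T1.Mono.GalProps
import Fermat.Agent.Lib.T1.Mono.Limit
import Fermat.Agent.Lib.T1.Kron.AnalyticSys
import Fermat.Agent.Lib.T1.Asm.S30Skeleton

set_option autoImplicit false
set_option linter.unusedSectionVars false
set_option linter.style.haveILetI false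

namespace Fermat.Agent.T1

open Complex Set Filter Topology Matrix MatrixGroups CongruenceSubgroup ModularCurve
open UpperHalfPlane hiding I
open Fermat.Agent.S24Lib ModularCurve.Period

local notation "Kbar" => AlgebraicClosure ℚ
local notation "GQ" => (AlgebraicClosure ℚ ≃ₐ[ℚ] AlgebraicClosure ℚ)

/-! ### The analytic forms of the functional Hecke operators, in terms of the dictionary -/

section Fn

variable {N : ℕ} [NeZero N] (DK : TdmDict Kbar N) (hDK : DK.toMer = KMod.toMer Kbar N)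

include hDK in
theorem TdmDict.fn_eq_tkrMer (y : ↥(modularFunctionFieldBar N)) :
    DK.fn y = tkrMer N ((modIso N y : anField N) : ModField N) := by
  rw [TdmDict.fn_apply, hDK]
  rfl

include hDK in
theorem TdmDict.fn_heckeT (l : ℕ) (hl : l.Prime) (hlN : ¬ l ∣ N)
    (y : (↥(modularFunctionFieldBar N))ˣ) :
    DK.fn ((tkrHeckeUnits N l y : (↥(modularFunctionFieldBar N))ˣ) : ↥(modularFunctionFieldBar N))
      = (tdmSysT N l hl hlN).prodFn (DK.fn (y : ↥(modularFunctionFieldBar N))) := by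
  rw [tkrHeckeUnits_coe, DK.fn_eq_tkrMer hDK, DK.fn_eq_tkrMer hDK, tkr_toMer_hecke_sys N l hl hlN,
    tdmCosetSys.prodFn_apply]

include hDK in
theorem TdmDict.fn_heckeU (q : ℕ) (hq : q.Prime) (hqN : q ∣ N)
    (y : (↥(modularFunctionFieldBar N))ˣ) :
    DK.fn ((tkrHeckeUUnits N q y : (↥(modularFunctionFieldBar N))ˣ) : ↥(modularFunctionFieldBar N))
      = (tdmSysU N q hqN hq.ne_zero).prodFn (DK.fn (y : ↥(modularFunctionFieldBar N))) := by
  rw [tkrHeckeUUnits_coe, DK.fn_eq_tkrMer hDK, DK.fn_eq_tkrMer hDK,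
    tkr_toMer_heckeU_sys N q hq hqN, tdmCosetSys.prodFn_apply]

theorem tkrHeckeUnits_sig (l : ℕ) (σ : GQ) (y : (↥(modularFunctionFieldBar N))ˣ) :
    tkrHeckeUnits N l (tkrSig N σ y) = tkrSig N σ (tkrHeckeUnits N l y) := by
  apply Units.ext
  exact (tkrHecke_galois (N := N) (r := l) σ (y : ↥(modularFunctionFieldBar N))).symm

theorem tkrHeckeUUnits_sig (q : ℕ) (σ : GQ) (y : (↥(modularFunctionFieldBar N))ˣ) :
    tkrHeckeUUnits N q (tkrSig N σ y) = tkrSig N σ (tkrHeckeUUnits N q y) := by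
  apply Units.ext
  exact (tkrHeckeU_galois (N := N) (r := q) σ (y : ↥(modularFunctionFieldBar N))).symm

end Fn

/-! ### The Galois action on the tower -/

section Tower

variable (p : ℕ) [hp : Fact p.Prime] {N : ℕ} [NeZero N] {DK : TdmDict Kbar N} {DC : TdmDictC N}
  (E : TdmDescent N DK DC)

theorem tdm_prime_pow_ne_zero (k : ℕ) : p ^ k ≠ 0 := pow_ne_zero k hp.out.ne_zero

/-- the Galois action on `W k = X_{p^k}` (additively) -/
noncomputable def TdmDescent.galW (k : ℕ) : GQ →* AddMonoid.End (Additive ↥(tdmX N (p ^ k))) where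
  toFun σ := MonoidHom.toAdditive (E.galX (tdm_prime_pow_ne_zero p k) σ)
  map_one' := by
    refine AddMonoidHom.ext fun w => ?_
    exact congrArg Additive.ofMul (E.galX_one _ (Additive.toMul w))
  map_mul' σ τ := by
    refine AddMonoidHom.ext fun w => ?_
    exact congrArg Additive.ofMul (E.galX_mul _ σ τ (Additive.toMul w))

theorem TdmDescent.galW_apply (k : ℕ) (σ : GQ) (w : Additive ↥(tdmX N (p ^ k))) :
    E.galW p k σ w = Additive.ofMul (E.galX (tdm_prime_pow_ne_zero p k) σ (Additive.toMul w)) := rfl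

theorem TdmDescent.galW_compat (σ : GQ) : (tdmTowerN p N).Compat (fun k => E.galW p k σ) := by
  intro k w
  have h0 : ((Additive.toMul ((tdmTowerN p N).π k w) : ↥(tdmX N (p ^ k))) : Gamma0 N →* ℂˣ)
      = ((Additive.toMul w : ↥(tdmX N (p ^ (k + 1)))) : Gamma0 N →* ℂˣ) ^ p := by
    ext γ
    rw [tdmTowerN_π_apply]
    rfl
  have h := E.galX_pow (tdm_prime_pow_ne_zero p k) (tdm_prime_pow_ne_zero p (k + 1)) (pow_succ p k)
    σ (Additive.toMul w) (Additive.toMul ((tdmTowerN p N).π k w)) h0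
  apply Additive.toMul.injective
  apply Subtype.ext
  refine MonoidHom.ext fun γ => ?_
  rw [tdmTowerN_π_apply]
  have h2 := congrArg (fun f : Gamma0 N →* ℂˣ => f γ) h
  exact h2.symm

/-- the abstract Hecke operator of a coset system on the tower -/
theorem tdm_ι_hom {ι : Type} [Fintype ι] (S : tdmCosetSys (Gamma0 N) ι) (k : ℕ)
    (φ ψ : ↥(parabolicHoms ℤ_[p] (Gamma0 N) ℤ_[p]))
    (h : (ψ : Additive (Gamma0 N) →+ ℤ_[p]) = S.hom ℤ_[p] (φ : Additive (Gamma0 N) →+ ℤ_[p])) :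
    (tdmTowerN p N).ι k ψ
      = MonoidHom.toAdditive (S.homX (p ^ k)) ((tdmTowerN p N).ι k φ) := by
  apply Additive.toMul.injective
  apply Subtype.ext
  refine MonoidHom.ext fun γ => ?_
  rw [tdmTowerN_ι_apply, h, tdmCosetSys.hom_apply, ofAdd_sum, map_prod]
  show _ = S.homMul ℂˣ ((Additive.toMul ((tdmTowerN p N).ι k φ) : ↥(tdmX N (p ^ k))) :
    Gamma0 N →* ℂˣ) γ
  rw [tdmCosetSys.homMul_apply]
  rfl

/-- complex conjugation on the tower: `χ ↦ conj ∘ χ ∘ jConj` is `φ ↦ -φ ∘ jConj` -/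
theorem tdm_ι_conj (k : ℕ) (φ ψ : ↥(parabolicHoms ℤ_[p] (Gamma0 N) ℤ_[p]))
    (h : (ψ : Additive (Gamma0 N) →+ ℤ_[p])
      = -(charInvolution N ℤ_[p] ℤ_[p] (φ : Additive (Gamma0 N) →+ ℤ_[p]))) :
    (tdmTowerN p N).ι k ψ
      = MonoidHom.toAdditive (tdmConjX N (p ^ k)) ((tdmTowerN p N).ι k φ) := by
  apply Additive.toMul.injective
  apply Subtype.ext
  refine MonoidHom.ext fun γ => ?_
  apply Units.ext
  rw [tdmTowerN_ι_apply, h]
  show _ = ((tdmConjChar N ((Additive.toMul ((tdmTowerN p N).ι k φ) : ↥(tdmX N (p ^ k))) :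
    Gamma0 N →* ℂˣ) γ : ℂˣ) : ℂ)
  rw [tdmConjChar_apply, tdmTowerN_ι_apply, tdmE_conj, AddMonoidHom.neg_apply, ofAdd_neg, map_inv]
  rfl

end Tower

/-! ### The package -/

section Package

variable (p : ℕ) [hp : Fact p.Prime] (N : ℕ) [NeZero N]

local notation "𝕋" => CuspForm.heckeAlgebra N 2 (∅ : Set ℕ)
set_option quotPrecheck false in
local notation "TT" => ↥(parabolicHoms ℤ_[p] (Gamma0 N) ℤ_[p])

/-- **the Tate module package** -/
theorem tdm_package (DK : TdmDict Kbar N) (hDK : DK.toMer = KMod.toMer Kbar N) (DC : TdmDictC N)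
    (E : TdmDescent N DK DC)
    (hconj : ∀ y : ↥(modularFunctionFieldBar N),
      DK.fn (arithmeticRingAut (modularFunctionFieldFull N) complexConjugation y)
        = tdmConj (DK.fn y))
    (hfix : ∀ y : ↥(modularFunctionFieldBar N), ∃ L : IntermediateField ℚ Kbar,
      FiniteDimensional ℚ L ∧ ∀ σ : GQ, (∀ x ∈ L, σ x = x) →
        arithmeticRingAut (modularFunctionFieldFull N) σ y = y)
    (hK3 : ∀ q : ℕ, q.Prime → ¬ q ∣ N → q ≠ p → ∀ A : ValuationSubring Kbar,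
      A.LiesOverPrime q → ∀ k : ℕ, TkrK12 N (p ^ k) A ∧ TkrNormal N A)
    (hecke : 𝕋 →+* Module.End ℤ_[p] TT)
    (hheckeT : ∀ (l : ℕ) (hl : l.Prime) (hlN : ¬ l ∣ N) (φ : TT),
      ((hecke (CuspForm.heckeAlgebra.T hl hlN (Set.notMem_empty l)) φ : TT) :
        Additive (Gamma0 N) →+ ℤ_[p])
        = (tdmSysT N l hl hlN).hom ℤ_[p] (φ : Additive (Gamma0 N) →+ ℤ_[p]))
    (hheckeU : ∀ (q : ℕ) (hq : q.Prime) (hqN : q ∣ N) (φ : TT),
      ((hecke (CuspForm.heckeAlgebra.U hq hqN (Set.notMem_empty q)) φ : TT) :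
        Additive (Gamma0 N) →+ ℤ_[p])
        = (tdmSysU N q hqN hq.ne_zero).hom ℤ_[p] (φ : Additive (Gamma0 N) →+ ℤ_[p]))
    (h5 : ∀ (𝒪 : Type) [CommRing 𝒪] [IsDomain 𝒪] [IsDiscreteValuationRing 𝒪] [CharZero 𝒪]
      [Algebra ℤ_[p] 𝒪] (lam : 𝕋 →+* 𝒪), Module.finrank 𝒪 ↥(teEigen hecke lam) = 2)
    (h6 : ∀ w : Module.End ℤ_[p] TT,
      (∀ φ : TT, ((w φ : TT) : Additive (Gamma0 N) →+ ℤ_[p])
        = -(charInvolution N ℤ_[p] ℤ_[p] (φ : Additive (Gamma0 N) →+ ℤ_[p]))) →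
      ∀ (𝒪 : Type) [CommRing 𝒪] [IsDomain 𝒪] [IsDiscreteValuationRing 𝒪] [CharZero 𝒪]
        [Algebra ℤ_[p] 𝒪] (lam : 𝕋 →+* 𝒪),
        ∃ v ∈ teEigen hecke lam, ∀ z : 𝒪, w.baseChange 𝒪 v ≠ z • v) :
    TePackage p N := by
  classical
  set D := tdmTowerN p N with hD
  set gal : GQ →* Module.End ℤ_[p] TT := D.action (E.galW p) (E.galW_compat p) with hgal
  have hιgal : ∀ (σ : GQ) (x : TT) (k : ℕ), D.ι k (gal σ x) = E.galW p k σ (D.ι k x) :=
    fun σ x k => D.ι_action (E.galW p) (E.galW_compat p) σ x k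
  -- Hecke operators at finite level
  have hιT : ∀ (l : ℕ) (hl : l.Prime) (hlN : ¬ l ∣ N) (k : ℕ) (x : TT),
      D.ι k (hecke (CuspForm.heckeAlgebra.T hl hlN (Set.notMem_empty l)) x)
        = MonoidHom.toAdditive ((tdmSysT N l hl hlN).homX (p ^ k)) (D.ι k x) :=
    fun l hl hlN k x => tdm_ι_hom p (tdmSysT N l hl hlN) k x _ (hheckeT l hl hlN x)
  have hιU : ∀ (q : ℕ) (hq : q.Prime) (hqN : q ∣ N) (k : ℕ) (x : TT),
      D.ι k (hecke (CuspForm.heckeAlgebra.U hq hqN (Set.notMem_empty q)) x)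
        = MonoidHom.toAdditive ((tdmSysU N q hqN hq.ne_zero).homX (p ^ k)) (D.ι k x) :=
    fun q hq hqN k x => tdm_ι_hom p (tdmSysU N q hqN hq.ne_zero) k x _ (hheckeU q hq hqN x)
  -- (H1)
  have hcomm : ∀ (σ : GQ) (t : 𝕋), gal σ * hecke t = hecke t * gal σ := by
    intro σ t
    obtain ⟨t, ht⟩ := t
    induction ht using Algebra.adjoin_induction with
    | mem x hx =>
      rcases hx with ⟨l, hl, hlN, -, rfl⟩ | ⟨q, hqN, hq, -, rfl⟩
      · apply D.end_ext
        intro k x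
        have e1 : (⟨CuspForm.heckeTLin 2 hl hlN, Algebra.subset_adjoin
            (Or.inl ⟨l, hl, hlN, Set.notMem_empty l, rfl⟩)⟩ : 𝕋)
            = CuspForm.heckeAlgebra.T hl hlN (Set.notMem_empty l) := rfl
        rw [e1, Module.End.mul_apply, Module.End.mul_apply, hιgal, hιT, hιT, hιgal]
        exact congrArg Additive.ofMul (E.galX_op (tdmSysT N l hl hlN) (tdm_prime_pow_ne_zero p k)
          (tkrHeckeUnits N l) (DK.fn_heckeT hDK l hl hlN) (tkrHeckeUnits_sig l) σ _)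
      · apply D.end_ext
        intro k x
        have e1 : (⟨CuspForm.heckeULin 2 hqN, Algebra.subset_adjoin
            (Or.inr ⟨q, hqN, hq, Set.notMem_empty q, rfl⟩)⟩ : 𝕋)
            = CuspForm.heckeAlgebra.U hq hqN (Set.notMem_empty q) := rfl
        rw [e1, Module.End.mul_apply, Module.End.mul_apply, hιgal, hιU, hιU, hιgal]
        exact congrArg Additive.ofMul (E.galX_op (tdmSysU N q hqN hq.ne_zero)
          (tdm_prime_pow_ne_zero p k)
          (tkrHeckeUUnits N q) (DK.fn_heckeU hDK q hq hqN) (tkrHeckeUUnits_sig q) σ _)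
    | algebraMap r =>
      have e1 : (⟨algebraMap ℤ (Module.End ℂ (CuspForm (Gamma0 N) 2)) r,
          Subalgebra.algebraMap_mem _ r⟩ : 𝕋) = ((r : ℤ) : 𝕋) := by
        apply Subtype.ext
        simp
      rw [e1, map_intCast]
      exact (Int.cast_commute r (gal σ)).symm.eq
    | add x y hx hy ihx ihy =>
      have e1 : (⟨x + y, add_mem hx hy⟩ : 𝕋) = ⟨x, hx⟩ + ⟨y, hy⟩ := rfl
      rw [e1, map_add, mul_add, add_mul, ihx, ihy]
    | mul x y hx hy ihx ihy =>
      have e1 : (⟨x * y, mul_mem hx hy⟩ : 𝕋) = ⟨x, hx⟩ * ⟨y, hy⟩ := rfl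
      rw [e1, map_mul, ← mul_assoc, ihx, mul_assoc, ihy, mul_assoc]
  -- (H2)
  have hcont : ∀ n : ℕ, ∃ L : IntermediateField ℚ Kbar, FiniteDimensional ℚ L ∧
      ∀ σ : GQ, (∀ x ∈ L, σ x = x) → ∀ v : TT, ∃ w : TT, gal σ v - v = (p : ℤ_[p]) ^ n • w := by
    intro n
    obtain ⟨L, hL, h1⟩ := E.galX_cont (tdm_prime_pow_ne_zero p n) hfix
    refine ⟨L, hL, fun σ hσ v => ?_⟩
    apply D.exists_of_ι_eq_zero n
    rw [map_sub, hιgal, E.galW_apply p, h1 σ hσ, sub_eq_zero]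
    rfl
  -- (H3)
  have hunr : ∀ q : ℕ, q.Prime → ¬ q ∣ N → q ≠ p → ∀ P : ValuationSubring Kbar,
      P.LiesOverPrime q → ∀ σ ∈ P.inertiaSubgroupIn ℚ, gal σ = 1 := by
    intro q hq hqN hqp P hP σ hσ
    apply D.end_ext
    intro k x
    rw [hιgal, E.galW_apply p, Module.End.one_apply,
      E.galX_eq_self (tdm_prime_pow_ne_zero p k) σ (fun y hy =>
        tkr_K3_inertia (hK3 q hq hqN hqp P hP k).1 (hK3 q hq hqN hqp P hP k).2
          (tdm_prime_pow_ne_zero p k) hσ hy)]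
    rfl
  -- (H4)
  have hES : ∀ (l : ℕ) (hl : l.Prime) (hlN : ¬ l ∣ N), l ≠ p → ∀ A : ValuationSubring Kbar,
      A.LiesOverPrime l → ∀ σ : GQ, A.IsFrobeniusAt σ l →
        gal σ * gal σ - hecke (CuspForm.heckeAlgebra.T hl hlN (Set.notMem_empty l)) * gal σ +
          (l : ℤ_[p]) • (1 : Module.End ℤ_[p] TT) = 0 := by
    intro l hl hlN hlp A hA σ hσ
    apply D.end_ext
    intro k x
    have h2 : D.ι k (((l : ℤ_[p]) • (1 : Module.End ℤ_[p] TT)) x) = l • D.ι k x := by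
      rw [LinearMap.smul_apply, Module.End.one_apply, Nat.cast_smul_eq_nsmul, map_nsmul]
    have h3 := E.galX_frob (tdmSysT N l hl hlN) (tdm_prime_pow_ne_zero p k) l
      (tkrHeckeUnits N l) (DK.fn_heckeT hDK l hl hlN) σ (fun y hy hT =>
        tkr_K3_frob (hK3 l hl hlN hlp A hA k).1 (hK3 l hl hlN hlp A hA k).2
          (tdm_prime_pow_ne_zero p k) hl hlN hA hσ hy hT) (Additive.toMul (D.ι k x))
    have h4 : E.galW p k σ (E.galW p k σ (D.ι k x)) + l • D.ι k x
        = MonoidHom.toAdditive ((tdmSysT N l hl hlN).homX (p ^ k)) (E.galW p k σ (D.ι k x)) :=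
      congrArg Additive.ofMul h3
    simp only [LinearMap.add_apply, LinearMap.sub_apply, Module.End.mul_apply, map_add, map_sub,
      hιgal, hιT, h2, LinearMap.zero_apply, map_zero]
    rw [← h4]
    abel
  -- complex conjugation
  have hc : ∀ φ : TT, ((gal complexConjugation φ : TT) : Additive (Gamma0 N) →+ ℤ_[p])
      = -(charInvolution N ℤ_[p] ℤ_[p] (φ : Additive (Gamma0 N) →+ ℤ_[p])) := by
    intro φ
    set ψ : TT := ⟨-(charInvolution N ℤ_[p] ℤ_[p] (φ : Additive (Gamma0 N) →+ ℤ_[p])),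
      (parabolicHoms ℤ_[p] (Gamma0 N) ℤ_[p]).neg_mem
        (charInvolution_mem_parabolicHoms N ℤ_[p] ℤ_[p] φ.2)⟩ with hψ
    have h1 : gal complexConjugation φ = ψ := by
      apply D.ext_elem
      intro k
      rw [hιgal, tdm_ι_conj p k φ ψ rfl, E.galW_apply p,
        E.galX_conj (tdm_prime_pow_ne_zero p k) complexConjugation hconj]
      rfl
    rw [h1]
  refine ⟨TT, inferInstance, inferInstance, inferInstance, inferInstance, gal, hecke, hcomm, hcont,
    hunr, hES, fun 𝒪 _ _ _ _ _ lam => ⟨h5 𝒪 lam, ?_⟩⟩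
  obtain ⟨v, hv, hvz⟩ := h6 (gal complexConjugation) hc 𝒪 lam
  exact ⟨complexConjugation, v, hv, hvz⟩

end Package

end Fermat.Agent.T1
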