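/-
T1 final pre-assembly: S30, S29 and S42 from the single remaining input, the descent structure
`TdmDescent N (tddDict Kbar N) (tddDictC N (tddDict ℂ N) (tddDict_toMer ℂ N))` at every level.
-/
import Mathlib
import Fermat.Agent.Lib.T1.Mono.Final
import Fermat.Agent.Lib.T1.Dict.DictBwd
import Fermat.Agent.Lib.T1.Dict.AutoC
import Fermat.Agent.Lib.T1.Kron.K3Bridge
import Fermat.Agent.Lib.T1.S18.AllLevels
import Fermat.Agent.Lib.T1.Asm.S30Skeleton
import Fermat.Agent.Lib.T1.Asm.Res.Extension
import Fermat.Agent.Lib.T1.Asm.Res.S29Glue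
import Fermat.Agent.Lib.T1.Asm.Res.S42Glue

set_option autoImplicit false
set_option linter.unusedSectionVars false

namespace Fermat.Agent.T1

open Complex Set Filter Topology Matrix MatrixGroups CongruenceSubgroup ModularCurve
open UpperHalfPlane hiding I
open Fermat.Agent.S24Lib
open Polynomial CuspForm

local notation "Kbar" => AlgebraicClosure ℚ

noncomputable section

/-- the only remaining input of T1: the descent structure at every level -/
def TdmDescentAll : Prop :=
  ∀ (N : ℕ) [NeZero N],
    Nonempty (TdmDescent N (tddDict Kbar N) (tddDictC N (tddDict ℂ N) (tddDict_toMer ℂ N)))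

/-- (K3) at every level, unconditionally -/
theorem tdm_hK3 (N : ℕ) [NeZero N] (p : ℕ) (hp : p.Prime) :
    ∀ q : ℕ, q.Prime → ¬ q ∣ N → q ≠ p → ∀ A : ValuationSubring Kbar, A.LiesOverPrime q →
      ∀ k : ℕ, TkrK12 N (p ^ k) A ∧ TkrNormal N A :=
  tkr_hK3_of_inputs N (fun 𝔓 M _ hM H hH => tbq_allLevelsOK 𝔓 M hM H hH)
    (fun 𝔓 _ _ hM h49 => tkr_barOK 𝔓 h49 hM) p hp

/-- the Tate module package at every level from the descent structure -/
theorem tdm_package_of_descentAll (h : TdmDescentAll) (p : ℕ) [hp : Fact p.Prime] (N : ℕ)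
    [NeZero N] : TePackage p N := by
  obtain ⟨E⟩ := h N
  exact tdm_package_of_dict p N (tddDict Kbar N) (tddDict_toMer Kbar N)
    (tddDictC N (tddDict ℂ N) (tddDict_toMer ℂ N)) E (tdm_hK3 N p hp.out)

/-- **S30** from the descent structure -/
theorem tdm_s30_of_descentAll (h : TdmDescentAll) : TerS30 := by
  intro p _ N _ S hpS hNS 𝒪' _ _ _ _ _ _ hp𝒪' χ
  exact te_S30_of_package p N S hpS hNS (tdm_package_of_descentAll h p N)
    (ter_extension p N (↑S : Set ℕ)) 𝒪' hp𝒪' χ

/-- **S29** from the descent structure -/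
theorem tdm_s29_of_descentAll (h : TdmDescentAll) : TerS29 := by
  intro N g hg p hp k _ _ φ
  exact ter_s29_of_s30 (tdm_s30_of_descentAll h) hg hp φ

/-- **S42** from the descent structure -/
theorem tdm_s42_of_descentAll (h : TdmDescentAll) (P : FreyPackage) :
    ∀ M : ℕ, 0 < M → P.EigenformResidualAttachmentAt M :=
  ter_s42_of_s29 (tdm_s29_of_descentAll h) P

end

end Fermat.Agent.T1
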